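import Mathlib
import Fermat.Agent.Flat.Points2

/-!
# Reduction of places and divisors: two charts
-/

set_option autoImplicit false
set_option linter.unusedSectionVars false

noncomputable section

namespace Fermat.Agent.ER

open AlgebraicCurve IsDedekindDomain IntermediateField WithZero Module Fermat.Agent.FunField
open Fermat.Agent.Flat

section Exact

variable {K F : Type*} [Field K] [Field F] [Algebra K F] {g C : ℤ}

/-- functions with exact order at a place -/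
theorem exists_exact (hC : Crv K F g C) (E : Divisor K F) (hE : C + 1 ≤ dg E) (w : Place K F) :
    ∃ x : F, x ∈ riemannRochSpace E ∧ x ≠ 0 ∧ w.ord x = - E w := by
  classical
  by_contra hcon
  push Not at hcon
  have hle : riemannRochSpace E ≤ riemannRochSpace (E - Finsupp.single w 1) := by
    intro x hx
    by_cases hx0 : x = 0
    · rw [hx0]; exact zero_mem _
    rw [mem_L' hx0]
    intro v
    have h1 := (mem_L' hx0).mp hx v
    by_cases hv : v = w
    · subst hv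
      rw [Finsupp.sub_apply, Finsupp.single_eq_same]
      have h2 := hcon x hx hx0
      omega
    · rw [Finsupp.sub_apply, Finsupp.single_eq_of_ne hv, sub_zero]
      exact h1
  have hfd := hC.fd (E - Finsupp.single w 1)
  have h1 := Submodule.finrank_mono hle
  have hdg : dg (Finsupp.single w (1 : ℤ) : Divisor K F) = 1 := dg_single w 1
  have h2 := hC.rr E (by omega)
  have h3 := hC.rr (E - Finsupp.single w 1) (by rw [map_sub, hdg]; omega)
  rw [map_sub, hdg] at h3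
  omega

end Exact

section Charts

variable {Ω κ F Fb : Type*} [Field Ω] [Field κ] [Field F] [Field Fb] [Algebra Ω F] [Algebra κ Fb]
  {A : ValuationSubring Ω} {G : Type*} [Group G] [MulSemiringAction G Ω]
  [IsAlgClosed Ω] [IsAlgClosed κ] {r : A →+* κ} {γ : G →* SemilinearAut Ω F}
  {W : ValuationSubring F} {ρ : W →+* Fb} {t : F} {tb : Fb} {g C : ℤ}

/-- `v` is in the integral part of the chart with coordinate `t`. -/
def InCh (A : ValuationSubring Ω) (t : F) (v : Place Ω F) : Prop := 0 ≤ v.ord t ∧ evp v t ∈ A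

theorem ord_sub_evp {v : Place Ω F} (hr : Rational v) {x : F} (hx : 0 ≤ v.ord x)
    (hne : x - algebraMap Ω F (evp v x) ≠ 0) : 0 < v.ord (x - algebraMap Ω F (evp v x)) := by
  have h1 := evp_spec hr (mem_of_ord_nonneg v hx)
  rw [adicValuation_lt_one_iff] at h1
  exact h1.resolve_left hne

/-- One of the two charts. -/
theorem inCh_or (hs : Sep Ω t) (v : Place Ω F) : InCh A t v ∨ InCh A t⁻¹ v := by
  have hr := hs.rational v
  have h0 : t ≠ 0 := hs.ne_zero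
  rcases lt_trichotomy (v.ord t) 0 with h | h | h
  · right
    have h1 : 0 < v.ord t⁻¹ := by rw [v.ord_inv]; omega
    refine ⟨h1.le, ?_⟩
    rw [(evp_eq_zero_iff hr (mem_of_ord_nonneg v h1.le)).mpr (Or.inr h1)]
    exact A.zero_mem
  · rcases A.mem_or_inv_mem (evp v t) with h1 | h1
    · exact Or.inl ⟨h.ge, h1⟩
    · right
      refine ⟨by rw [v.ord_inv, h]; simp, ?_⟩
      rw [evp_inv hr h0 h]
      exact h1
  · left
    refine ⟨h.le, ?_⟩
    rw [(evp_eq_zero_iff hr (mem_of_ord_nonneg v h.le)).mpr (Or.inr h)]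
    exact A.zero_mem

/-- twisting by powers of `t` -/
theorem exists_reg_mul (hs : Sep Ω t) {z : F} (hz : Reg Ω t⁻¹ z) : ∃ n : ℕ, Reg Ω t (t ^ n * z) := by
  by_cases hz0 : z = 0
  · exact ⟨0, by rw [hz0, mul_zero]; exact fun v _ => (v.ord_zero).ge⟩
  obtain ⟨n, hn⟩ := Reg.exists_mem hs.inv hz
  refine ⟨n, fun v hv => ?_⟩
  have h1 := (mem_L' hz0).mp (hn n le_rfl) v
  rw [Finsupp.smul_apply, pol_apply (hs.inv.finOrd _), v.ord_inv, neg_neg, max_eq_right hv,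
    nsmul_eq_mul] at h1
  rw [v.ord_mul (pow_ne_zero _ hs.ne_zero) hz0, ord_pow]
  linarith

/-- Reduction to the other chart. -/
theorem redTo_inv (hG : GoodCrv r γ W ρ t tb) (hG' : GoodCrv r γ W ρ t⁻¹ tb⁻¹) (htW : t ∈ W)
    (htb : ρ ⟨t, htW⟩ = tb) {v : Place Ω F} (hv : InCh A t v) (hv' : InCh A t⁻¹ v)
    {vb : Place κ Fb} (hR : RedTo r ρ t v vb) (hvb : 0 ≤ vb.ord tb) :
    RedTo r ρ t⁻¹ v vb ∧ 0 ≤ vb.ord tb⁻¹ := by
  have hr := hG.sep.rational v
  have hrb := hG.sepb.rational vb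
  have h0 : v.ord t = 0 := by
    have h1 := hv.1
    have h2 := hv'.1
    rw [v.ord_inv] at h2
    omega
  have ht0 : t ≠ 0 := hG.sep.ne_zero
  have htb0 : tb ≠ 0 := hG.sepb.ne_zero
  obtain ⟨hA1, hr1⟩ := hR ⟨t, htW⟩ (hG.t_mem htW)
  have hA2 := hv'.2
  rw [evp_inv hr ht0 h0] at hA2
  change evp v t ∈ A at hA1
  have hne : evp v t ≠ 0 := (evp_ne_zero_iff hr (mem_of_ord_nonneg v h0.ge)).mpr ⟨ht0, h0⟩
  have hu : IsUnit (⟨evp v t, hA1⟩ : A) :=
    IsUnit.of_mul_eq_one ⟨(evp v t)⁻¹, hA2⟩ (Subtype.ext (mul_inv_cancel₀ hne))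
  have hrne : r ⟨evp v t, hA1⟩ ≠ 0 := (hu.map r).ne_zero
  rw [htb] at hr1
  change r ⟨evp v t, hA1⟩ = evp vb tb at hr1
  rw [hr1] at hrne
  have hvb0 : vb.ord tb = 0 := ((evp_ne_zero_iff hrb (mem_of_ord_nonneg vb hvb)).mp hrne).2
  refine ⟨fun z hz => ?_, by rw [vb.ord_inv, hvb0]; simp⟩
  obtain ⟨n, hn⟩ := exists_reg_mul hG.sep hz
  have hv'1 := hv'.1
  have hzmem : (z : F) ∈ v.toValuationSubring := hz.mem hv'.1
  have htmem : t ∈ v.toValuationSubring := mem_of_ord_nonneg v h0.ge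
  obtain ⟨hA3, hr3⟩ := hR ((⟨t, htW⟩ : W) ^ n * z) hn
  have e1 : evp v (((⟨t, htW⟩ : W) ^ n * z : W) : F) = evp v t ^ n * evp v (z : F) := by
    push_cast
    rw [evp_mul hr (pow_mem htmem n) hzmem, evp_pow hr htmem]
  have hzA : evp v (z : F) ∈ A := by
    rw [e1] at hA3
    have h4 : evp v (z : F) = (evp v t)⁻¹ ^ n * (evp v t ^ n * evp v (z : F)) := by
      rw [← mul_assoc, ← mul_pow, inv_mul_cancel₀ hne, one_pow, one_mul]
    rw [h4]
    exact mul_mem (pow_mem hA2 n) hA3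
  refine ⟨hzA, ?_⟩
  have e2 : (⟨evp v (((⟨t, htW⟩ : W) ^ n * z : W) : F), hA3⟩ : A) =
      ⟨evp v t, hA1⟩ ^ n * ⟨evp v (z : F), hzA⟩ := Subtype.ext e1
  rw [e2, map_mul, map_pow, hr1] at hr3
  have hzb : ρ z ∈ vb.toValuationSubring := (hG'.reg_red hz).mem (by rw [vb.ord_inv, hvb0]; simp)
  rw [map_mul, map_pow, htb, evp_mul hrb (pow_mem (mem_of_ord_nonneg vb hvb) n) hzb,
    evp_pow hrb (mem_of_ord_nonneg vb hvb)] at hr3
  exact mul_left_cancel₀ (pow_ne_zero n hrne) hr3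

/-- **Reduction of places.** -/
theorem exists_redTo (hG : GoodCrv r γ W ρ t tb) (htW : t ∈ W)
    (htb : ρ ⟨t, htW⟩ = tb) {v : Place Ω F} (hv : InCh A t v) :
    ∃ vb : Place κ Fb, RedTo r ρ t v vb ∧ 0 ≤ vb.ord tb := by
  obtain ⟨h1, h2⟩ := hv
  have hne : t - algebraMap Ω F (evp v t) ≠ 0 := (hG.sep.sub _).ne_zero
  obtain ⟨vb, hvb, hR⟩ := hG.exists_red (c := ⟨evp v t, h2⟩) htW htb
    (ord_sub_evp (hG.sep.rational v) h1 hne)
  exact ⟨vb, hR, ord_t_nonneg hvb⟩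

/-- the reduction of places, on both charts -/
structure IsRed (r : A →+* κ) (ρ : W →+* Fb) (t : F) (tb : Fb)
    (red : Place Ω F → Place κ Fb) : Prop where
  one : ∀ v, InCh A t v → RedTo r ρ t v (red v) ∧ 0 ≤ (red v).ord tb
  two : ∀ v, InCh A t⁻¹ v → RedTo r ρ t⁻¹ v (red v) ∧ 0 ≤ (red v).ord tb⁻¹

theorem exists_isRed (hG : GoodCrv r γ W ρ t tb) (hG' : GoodCrv r γ W ρ t⁻¹ tb⁻¹) (htW : t ∈ W)
    (htb : ρ ⟨t, htW⟩ = tb) (htW' : t⁻¹ ∈ W) : ∃ red, IsRed r ρ t tb red := by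
  have htb' : ρ ⟨t⁻¹, htW'⟩ = tb⁻¹ := by
    have h1 : (⟨t⁻¹, htW'⟩ : W) * ⟨t, htW⟩ = 1 :=
      Subtype.ext (inv_mul_cancel₀ hG.sep.ne_zero)
    have h2 := congrArg ρ h1
    rw [map_mul, map_one, htb] at h2
    exact eq_inv_of_mul_eq_one_left h2
  have key : ∀ v : Place Ω F, ∃ vb : Place κ Fb,
      (InCh A t v → RedTo r ρ t v vb ∧ 0 ≤ vb.ord tb) ∧
      (InCh A t⁻¹ v → RedTo r ρ t⁻¹ v vb ∧ 0 ≤ vb.ord tb⁻¹) := by
    intro v
    by_cases h1 : InCh A t v
    · obtain ⟨vb, hvb⟩ := exists_redTo hG htW htb h1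
      exact ⟨vb, fun _ => hvb, fun h2 => redTo_inv hG hG' htW htb h1 h2 hvb.1 hvb.2⟩
    · have h2 := (inCh_or hG.sep v).resolve_left h1
      obtain ⟨vb, hvb⟩ := exists_redTo hG' htW' htb' h2
      exact ⟨vb, fun h => absurd h h1, fun _ => hvb⟩
  choose red h1 h2 using key
  exact ⟨red, h1, h2⟩

theorem IsRed.symm {red : Place Ω F → Place κ Fb} (h : IsRed r ρ t tb red) :
    IsRed r ρ t⁻¹ tb⁻¹ red :=
  ⟨h.two, by simpa only [inv_inv] using h.one⟩

end Charts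

end Fermat.Agent.ER
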