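import Mathlib
import Fermat.Agent.ER.Red1

/-!
# Reduction of divisors
-/

set_option autoImplicit false
set_option linter.unusedSectionVars false

noncomputable section

namespace Fermat.Agent.ER

open AlgebraicCurve IsDedekindDomain IntermediateField WithZero Module Fermat.Agent.FunField
open Fermat.Agent.Flat

variable {Ω κ F Fb : Type*} [Field Ω] [Field κ] [Field F] [Field Fb] [Algebra Ω F] [Algebra κ Fb]
  {A : ValuationSubring Ω} {G : Type*} [Group G] [MulSemiringAction G Ω]
  [IsAlgClosed Ω] [IsAlgClosed κ] {r : A →+* κ} {γ : G →* SemilinearAut Ω F}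
  {W : ValuationSubring F} {ρ : W →+* Fb} {t : F} {tb : Fb} {g C gb Cb : ℤ}
  {red : Place Ω F → Place κ Fb}

/-- reduction of the spaces `L(D + n (t)_∞ + k (t)_0)` -/
def RedL (W : ValuationSubring F) (ρ : W →+* Fb) (t : F) (tb : Fb) (D : Divisor Ω F)
    (Db : Divisor κ Fb) : Prop :=
  ∀ (n k : ℕ) (z : W), (z : F) ∈ riemannRochSpace (D + n • pol (K := Ω) t + k • pol (K := Ω) t⁻¹) →
    ρ z ∈ riemannRochSpace (Db + n • pol (K := κ) tb + k • pol (K := κ) tb⁻¹)

theorem RedL.symm {D : Divisor Ω F} {Db : Divisor κ Fb} (h : RedL W ρ t tb D Db) :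
    RedL W ρ t⁻¹ tb⁻¹ D Db := by
  intro n k z hz
  rw [inv_inv, add_right_comm] at hz ⊢
  exact h k n z hz

theorem pol_inv_apply {K F : Type*} [Field K] [Field F] [Algebra K F] [IsAlgClosed K] {t : F}
    (h : Sep K t) (v : Place K F) : pol (K := K) t⁻¹ v = max 0 (v.ord t) := by
  rw [pol_apply (h.inv.finOrd _), v.ord_inv, neg_neg]

/-- twisting -/
theorem mem_L_twist {K F : Type*} [Field K] [Field F] [Algebra K F] [IsAlgClosed K] {t : F}
    (h : Sep K t) (D : Divisor K F) (n k : ℕ) (z : F) :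
    z ∈ riemannRochSpace (D + n • pol (K := K) t + k • pol (K := K) t⁻¹) ↔
      t ^ k * z ∈ riemannRochSpace (D + (n + k) • pol (K := K) t) := by
  by_cases hz0 : z = 0
  · rw [hz0, mul_zero]
    exact ⟨fun _ => zero_mem _, fun _ => zero_mem _⟩
  rw [mem_L' hz0, mem_L' (mul_ne_zero (pow_ne_zero _ h.ne_zero) hz0)]
  refine forall_congr' fun v => ?_
  rw [v.ord_mul (pow_ne_zero _ h.ne_zero) hz0, ord_pow, Finsupp.add_apply, Finsupp.add_apply,
    Finsupp.add_apply, Finsupp.smul_apply, Finsupp.smul_apply, Finsupp.smul_apply,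
    pol_inv_apply h, pol_apply (h.finOrd _), nsmul_eq_mul, nsmul_eq_mul, nsmul_eq_mul]
  push_cast
  rcases le_total 0 (v.ord t) with h1 | h1
  · rw [max_eq_left (by omega), max_eq_right h1]
    constructor <;> intro h2 <;> linarith
  · rw [max_eq_right (by omega), max_eq_left h1]
    constructor <;> intro h2 <;> linarith

theorem redL_zero (hG : GoodCrv r γ W ρ t tb) (htW : t ∈ W) (htb : ρ ⟨t, htW⟩ = tb) :
    RedL W ρ t tb (0 : Divisor Ω F) (0 : Divisor κ Fb) := by
  intro n k z hz
  rw [mem_L_twist hG.sep, zero_add] at hz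
  rw [mem_L_twist hG.sepb, zero_add]
  have h1 := hG.int (n + k) ((⟨t, htW⟩ : W) ^ k * z) (by push_cast; exact hz)
  rwa [map_mul, map_pow, htb] at h1

/-- the induction step -/
theorem RedL.step (hG : GoodCrv r γ W ρ t tb) (hCb : Crv κ Fb gb Cb)
    {D : Divisor Ω F} {Db : Divisor κ Fb} (h : RedL W ρ t tb D Db) {v : Place Ω F}
    {vb : Place κ Fb} (hv : InCh A t v) (hR : RedTo r ρ t v vb) (hvb : 0 ≤ vb.ord tb) :
    RedL W ρ t tb (D + Finsupp.single v 1) (Db + Finsupp.single vb 1) := by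
  classical
  have hr := hG.sep.rational v
  have hrb := hG.sepb.rational vb
  intro n k z hz
  by_cases hz0 : ρ z = 0
  · rw [hz0]; exact zero_mem _
  have hz0' : (z : F) ≠ 0 := by
    intro h0
    apply hz0
    have : z = 0 := Subtype.ext h0
    rw [this, map_zero]
  rw [mem_L' hz0]
  intro w
  -- the auxiliary function
  obtain ⟨M, hM⟩ := hG.lift
  have hpos : 0 < dg (pol (K := κ) tb) := by
    have := hG.sepb.fd
    rw [hG.sepb.dg_pol]; exact_mod_cast finrank_pos
  obtain ⟨m, hmM, hmC⟩ : ∃ m : ℕ, M ≤ m ∧ Cb + 1 ≤ dg (m • pol (K := κ) tb -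
      Finsupp.single vb (1 : ℤ)) := by
    refine ⟨M + (Cb + 2).toNat, Nat.le_add_right _ _, ?_⟩
    rw [map_sub, dg_single, map_nsmul, nsmul_eq_mul]
    push_cast
    have h1 : Cb + 2 ≤ ((Cb + 2).toNat : ℤ) := Int.self_le_toNat _
    have h2 : (0 : ℤ) ≤ ((Cb + 2).toNat : ℤ) := Int.natCast_nonneg _
    have h3 : (0 : ℤ) ≤ (M : ℤ) := Int.natCast_nonneg _
    nlinarith
  obtain ⟨xb, hx1, hx0, hxw⟩ := exists_exact hCb _ hmC w
  have hx1' := (mem_L' hx0).mp hx1
  have hxL : xb ∈ riemannRochSpace (m • pol (K := κ) tb) := by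
    refine L_mono ?_ hx1
    rw [sub_le_self_iff]
    intro u
    rw [Finsupp.zero_apply, Finsupp.single_apply]
    split_ifs <;> norm_num
  obtain ⟨x₀, hx₀, hx₀b, -⟩ := hM m hmM xb hxL
  have hxreg : Reg Ω t (x₀ : F) := mem_nL_reg hG.sep hx₀
  obtain ⟨hA1, hr1⟩ := hR x₀ hxreg
  have hxv : evp vb xb = 0 := by
    have h1 := hx1' vb
    rw [Finsupp.sub_apply, Finsupp.single_eq_same, Finsupp.smul_apply, pol_eq_zero hG.sepb hvb,
      smul_zero] at h1
    exact (evp_eq_zero_iff hrb (mem_of_ord_nonneg vb (by omega))).mpr (Or.inr (by omega))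
  rw [hx₀b, hxv] at hr1
  let x : W := x₀ - ⟨algebraMap Ω F (evp v (x₀ : F)), hG.alg _ hA1⟩
  have hxb : ρ x = xb := by
    change ρ (x₀ - _) = xb
    have h1 := hG.ralg' ⟨evp v (x₀ : F), hA1⟩
    rw [map_sub, hx₀b]
    change xb - ρ ⟨algebraMap Ω F (evp v (x₀ : F)), _⟩ = xb
    change ρ ⟨algebraMap Ω F (evp v (x₀ : F)), _⟩ = _ at h1
    rw [h1, hr1, map_zero, sub_zero]
  have hxF0 : (x : F) ≠ 0 := by
    intro h0
    apply hx0
    have : x = 0 := Subtype.ext h0
    rw [← hxb, this, map_zero]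
  have hxm : (x : F) ∈ riemannRochSpace (m • pol (K := Ω) t) := by
    change (x₀ : F) - algebraMap Ω F (evp v (x₀ : F)) ∈ _
    refine sub_mem hx₀ ?_
    rw [mem_L]
    intro u
    right
    rw [ord_algebraMap, Finsupp.smul_apply, nsmul_eq_mul]
    have := pol_nonneg hG.sep u
    have h5 : (0 : ℤ) ≤ m := Int.natCast_nonneg _
    nlinarith
  have hxv : 0 < v.ord (x : F) := ord_sub_evp hr (hxreg v hv.1) hxF0
  -- the product
  have hmul : ((z * x : W) : F) ∈ riemannRochSpace (D + (n + m) • pol (K := Ω) t +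
      k • pol (K := Ω) t⁻¹) := by
    push_cast
    rw [mem_L' (mul_ne_zero hz0' hxF0)]
    intro u
    have h1 := (mem_L' hz0').mp hz u
    have h2 := (mem_L' hxF0).mp hxm u
    rw [u.ord_mul hz0' hxF0]
    simp only [Finsupp.add_apply, Finsupp.smul_apply, nsmul_eq_mul] at h1 h2 ⊢
    push_cast
    by_cases hu : u = v
    · subst hu
      rw [Finsupp.single_eq_same] at h1
      have h3 : (m : ℤ) * pol (K := Ω) t u = 0 := by
        rw [pol_eq_zero hG.sep hv.1, mul_zero]
      linarith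
    · rw [Finsupp.single_eq_of_ne hu] at h1
      linarith
  have h1 := h (n + m) k (z * x) hmul
  rw [map_mul, hxb] at h1
  have h2 := (mem_L' (mul_ne_zero hz0 hx0)).mp h1 w
  rw [w.ord_mul hz0 hx0, hxw] at h2
  simp only [Finsupp.add_apply, Finsupp.sub_apply, Finsupp.smul_apply, nsmul_eq_mul] at h2 ⊢
  push_cast at h2
  linarith

theorem RedL.add (hG : GoodCrv r γ W ρ t tb) (hG' : GoodCrv r γ W ρ t⁻¹ tb⁻¹)
    (hCb : Crv κ Fb gb Cb) (hred : IsRed r ρ t tb red)
    {D : Divisor Ω F} {Db : Divisor κ Fb} (h : RedL W ρ t tb D Db) (v : Place Ω F) :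
    RedL W ρ t tb (D + Finsupp.single v 1) (Db + Finsupp.single (red v) 1) := by
  rcases inCh_or (A := A) hG.sep v with hv | hv
  · exact h.step hG hCb hv (hred.one v hv).1 (hred.one v hv).2
  · have h1 := (h.symm).step hG' hCb hv (hred.two v hv).1 (hred.two v hv).2
    have h2 := h1.symm
    rwa [inv_inv, inv_inv] at h2

/-- the divisor of a multiset -/
def dvs {K F : Type*} [Field K] [Field F] [Algebra K F] (s : Multiset (Place K F)) :
    Divisor K F := (s.map fun v => Finsupp.single v (1 : ℤ)).sum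

theorem dvs_add {K F : Type*} [Field K] [Field F] [Algebra K F] (s s' : Multiset (Place K F)) :
    dvs (s + s') = dvs s + dvs s' := by
  rw [dvs, Multiset.map_add, Multiset.sum_add]
  rfl

theorem dvs_cons {K F : Type*} [Field K] [Field F] [Algebra K F] (v : Place K F)
    (s : Multiset (Place K F)) : dvs (v ::ₘ s) = dvs s + Finsupp.single v 1 := by
  rw [dvs, Multiset.map_cons, Multiset.sum_cons, add_comm]
  rfl

theorem dvs_replicate {K F : Type*} [Field K] [Field F] [Algebra K F] (v : Place K F)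
    (n : ℕ) : dvs (Multiset.replicate n v) = Finsupp.single v (n : ℤ) := by
  rw [dvs, Multiset.map_replicate, Multiset.sum_replicate, Finsupp.smul_single, nsmul_eq_mul,
    mul_one]

theorem dvs_nsmul {K F : Type*} [Field K] [Field F] [Algebra K F] (n : ℕ)
    (s : Multiset (Place K F)) : dvs (n • s) = n • dvs s := by
  rw [dvs, Multiset.map_nsmul, Multiset.sum_nsmul]
  rfl

theorem dvs_map (red : Place Ω F → Place κ Fb) (s : Multiset (Place Ω F)) :
    dvs (s.map red) = Finsupp.mapDomain red (dvs s) := by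
  induction s using Multiset.induction_on with
  | empty => rw [Multiset.map_zero, dvs, dvs, Multiset.map_zero, Multiset.map_zero,
      Multiset.sum_zero, Multiset.sum_zero, Finsupp.mapDomain_zero]
  | cons v s ih => rw [Multiset.map_cons, dvs_cons, dvs_cons, ih, Finsupp.mapDomain_add,
      Finsupp.mapDomain_single]

/-- every divisor is a difference of effective ones -/
theorem exists_dvs {K F : Type*} [Field K] [Field F] [Algebra K F] (D : Divisor K F) :
    ∃ s s' : Multiset (Place K F), D = dvs s - dvs s' := by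
  classical
  induction D using Finsupp.induction_linear with
  | zero => exact ⟨0, 0, by rw [sub_self]⟩
  | add D D' h h' =>
    obtain ⟨s, s', rfl⟩ := h
    obtain ⟨u, u', rfl⟩ := h'
    refine ⟨s + u, s' + u', ?_⟩
    rw [dvs_add, dvs_add]
    abel
  | single v m =>
    rcases le_total 0 m with h | h
    · obtain ⟨n, rfl⟩ := Int.eq_ofNat_of_zero_le h
      refine ⟨Multiset.replicate n v, 0, ?_⟩
      rw [dvs_replicate]
      exact (sub_zero _).symm
    · obtain ⟨n, hn⟩ := Int.eq_ofNat_of_zero_le (neg_nonneg.mpr h)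
      refine ⟨0, Multiset.replicate n v, ?_⟩
      rw [dvs_replicate, ← hn, Finsupp.single_neg, sub_neg_eq_add]
      exact (zero_add _).symm

theorem redL_dvs (hG : GoodCrv r γ W ρ t tb) (hG' : GoodCrv r γ W ρ t⁻¹ tb⁻¹) (htW : t ∈ W)
    (htb : ρ ⟨t, htW⟩ = tb) (hCb : Crv κ Fb gb Cb)
    (hred : IsRed r ρ t tb red) (s : Multiset (Place Ω F)) :
    RedL W ρ t tb (dvs s) (dvs (s.map red)) := by
  induction s using Multiset.induction_on with
  | empty => exact redL_zero hG htW htb
  | cons v s ih =>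
    rw [Multiset.map_cons, dvs_cons, dvs_cons]
    exact ih.add hG hG' hCb hred v

theorem dg_dvs {K F : Type*} [Field K] [Field F] [Algebra K F] (s : Multiset (Place K F)) :
    dg (dvs s) = Multiset.card s := by
  induction s using Multiset.induction_on with
  | empty => rfl
  | cons v s ih => rw [dvs_cons, map_add, dg_single, ih, Multiset.card_cons]; push_cast; rfl

/-- **Functions whose divisor reduces to zero are constant modulo the maximal ideal.** -/
theorem exists_const_red (hG : GoodCrv r γ W ρ t tb) (hG' : GoodCrv r γ W ρ t⁻¹ tb⁻¹) (htW : t ∈ W)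
    (htb : ρ ⟨t, htW⟩ = tb) (hC : Crv Ω F g C) (hCb : Crv κ Fb gb Cb)
    (hred : IsRed r ρ t tb red) {s s' : Multiset (Place Ω F)} {f : W} (hf : ρ f ≠ 0)
    (hdiv : ∀ v : Place Ω F, v.ord (f : F) = dvs s v - dvs s' v)
    (heq : dvs (s.map red) = dvs (s'.map red)) : ∃ a : κ, algebraMap κ Fb a = ρ f := by
  classical
  obtain ⟨hdeg, rfl, hpos⟩ := hG.numerics hC hCb
  have hf0 : (f : F) ≠ 0 := by
    intro h0
    apply hf
    have : f = 0 := Subtype.ext h0
    rw [this, map_zero]
  have hcard : Multiset.card s = Multiset.card s' := by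
    have h1 := congrArg dg heq
    rw [dg_dvs, dg_dvs, Multiset.card_map, Multiset.card_map] at h1
    exact_mod_cast h1
  -- the auxiliary divisor
  obtain ⟨n, hn⟩ : ∃ n : ℕ, max C Cb + 1 ≤ n * dg (pol (K := Ω) t) := by
    refine ⟨(max C Cb + 1).toNat, ?_⟩
    have h1 : max C Cb + 1 ≤ ((max C Cb + 1).toNat : ℤ) := Int.self_le_toNat _
    have h2 : (0 : ℤ) ≤ ((max C Cb + 1).toNat : ℤ) := Int.natCast_nonneg _
    nlinarith
  have hnC : C + 1 ≤ n * dg (pol (K := Ω) t) := by have := le_max_left C Cb; omega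
  have hnCb : Cb + 1 ≤ n * dg (pol (K := Ω) t) := by have := le_max_right C Cb; omega
  set E : Divisor Ω F := dvs s + n • pol (K := Ω) t + 0 • pol (K := Ω) t⁻¹ with hE
  set E' : Divisor Ω F := dvs s' + n • pol (K := Ω) t + 0 • pol (K := Ω) t⁻¹ with hE'
  set Eb : Divisor κ Fb := dvs (s.map red) + n • pol (K := κ) tb + 0 • pol (K := κ) tb⁻¹ with hEb
  have hdE : dg E = Multiset.card s + n * dg (pol (K := Ω) t) := by
    rw [hE, map_add, map_add, zero_smul, map_zero, add_zero, map_nsmul, nsmul_eq_mul, dg_dvs]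
  have hdEb : dg Eb = Multiset.card s + n * dg (pol (K := Ω) t) := by
    rw [hEb, map_add, map_add, zero_smul, map_zero, add_zero, map_nsmul, nsmul_eq_mul, dg_dvs,
      Multiset.card_map, hdeg]
  have hcs : (0 : ℤ) ≤ (Multiset.card s : ℤ) := Int.natCast_nonneg _
  -- a basis of reductions
  obtain ⟨u, hu, hind⟩ := hG.sat (riemannRochSpace E) (hC.fd E)
  have hfd := hCb.fd Eb
  have hrr : (finrank Ω (riemannRochSpace E) : ℤ) = finrank κ (riemannRochSpace Eb) := by
    rw [hC.rr E (by omega), hCb.rr Eb (by omega), hdE, hdEb]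
  have hub : ∀ i, ρ (u i) ∈ riemannRochSpace Eb := fun i =>
    redL_dvs hG hG' htW htb hCb hred s n 0 (u i) (hu i)
  let w : Fin (finrank Ω (riemannRochSpace E)) → riemannRochSpace Eb := fun i => ⟨ρ (u i), hub i⟩
  have hw : LinearIndependent κ w := LinearIndependent.of_comp (riemannRochSpace _).subtype hind
  have hcard2 : Fintype.card (Fin (finrank Ω (riemannRochSpace E))) =
      finrank κ (riemannRochSpace Eb) := by
    rw [Fintype.card_fin]
    exact_mod_cast hrr
  have hspan := hw.span_eq_top_of_card_eq_finrank' hcard2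
  -- multiplication by `ρ f`
  have hmul : ∀ zb ∈ riemannRochSpace Eb, ρ f * zb ∈ riemannRochSpace Eb := by
    intro zb hzb
    have hmem : (⟨zb, hzb⟩ : riemannRochSpace Eb) ∈ Submodule.span κ (Set.range w) := by
      rw [hspan]; trivial
    obtain ⟨c, hc⟩ := (Submodule.mem_span_range_iff_exists_fun κ).mp hmem
    have hc' := congrArg Subtype.val hc
    rw [Submodule.coe_sum] at hc'
    change ∑ i, c i • ρ (u i) = zb at hc'
    rw [← hc', Finset.mul_sum]
    refine sum_mem fun i _ => ?_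
    rw [mul_smul_comm, ← map_mul]
    refine Submodule.smul_mem _ _ ?_
    rw [hEb, heq]
    refine redL_dvs hG hG' htW htb hCb hred s' n 0 (f * u i) ?_
    have h1 := hu i
    push_cast
    by_cases hui : (u i : F) = 0
    · rw [hui, mul_zero]; exact zero_mem _
    rw [mem_L' (mul_ne_zero hf0 hui)]
    intro v
    have h2 := (mem_L' hui).mp h1 v
    rw [v.ord_mul hf0 hui, hdiv v]
    simp only [hE, Finsupp.add_apply] at h2 ⊢
    linarith
  obtain ⟨a, ha⟩ := hCb.const (ρ f) fun v => by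
    obtain ⟨x, hx, hx0, hxv⟩ := exists_exact hCb Eb (by omega) v
    have h1 := (mem_L' (mul_ne_zero hf hx0)).mp (hmul x hx) v
    rw [v.ord_mul hf hx0, hxv] at h1
    linarith
  exact ⟨a, ha⟩

end Fermat.Agent.ER
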