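import Mathlib
import Fermat.Agent.MZ.OrdNorm
import Fermat.Prelude.Def_AlgebraicCurve_Correspondence

/-!
# Norms and places

The fundamental identity, the norm formula, and the values of norms, for finite extensions of
function fields over an algebraically closed field.
-/

set_option autoImplicit false
set_option linter.unusedSectionVars false

noncomputable section

namespace Fermat.Agent.ER

open AlgebraicCurve Fermat.Agent.Flat Fermat.Agent.FunField Fermat.Agent.MZ WithZero
open scoped Classical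

section Val

variable {K F : Type*} [Field K] [Field F] [Algebra K F] (w : Place K F)

theorem val_eq {x : F} (hx : x ≠ 0) : w.adicValuation x = exp (-(w.ord x)) :=
  w.adicValuation_eq_exp_neg_ord hx

theorem le_exp_iff {x : F} {c : ℤ} : w.adicValuation x ≤ exp (-c) ↔ x = 0 ∨ c ≤ w.ord x := by
  rcases eq_or_ne x 0 with rfl | hx
  · simp
  · rw [val_eq w hx, exp_le_exp]
    simp [hx]

theorem lt_exp_iff {x : F} {c : ℤ} : w.adicValuation x < exp (-c) ↔ x = 0 ∨ c < w.ord x := by
  rcases eq_or_ne x 0 with rfl | hx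
  · simp [exp_pos]
  · rw [val_eq w hx, exp_lt_exp]
    simp [hx]

theorem val_le_one_iff {x : F} : w.adicValuation x ≤ 1 ↔ x = 0 ∨ 0 ≤ w.ord x := by
  have := le_exp_iff w (x := x) (c := 0)
  rwa [neg_zero, exp_zero] at this

theorem val_le_one_iff_mem {x : F} : w.adicValuation x ≤ 1 ↔ x ∈ w.toValuationSubring := by
  rw [val_le_one_iff, mem_iff_ord_nonneg]
  constructor
  · rintro (rfl | h)
    · rw [w.ord_zero]
    · exact h
  · exact Or.inr

theorem val_lt_one_iff {x : F} : w.adicValuation x < 1 ↔ x = 0 ∨ 0 < w.ord x := by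
  have := lt_exp_iff w (x := x) (c := 0)
  rwa [neg_zero, exp_zero] at this

end Val

variable {K F F' : Type*} [Field K] [Field F] [Field F'] [Algebra K F] [Algebra K F']
  [Algebra F F'] [IsScalarTower K F F'] [FiniteDimensional F F']

/-- the ramification index -/
abbrev ei (F : Type*) {K F' : Type*} [Field K] [Field F] [Field F'] [Algebra K F']
    [Algebra F F'] (w : Place K F') : ℕ := w.ramificationIndex F

theorem ei_pos (w : Place K F') : 0 < ei F w := w.ramificationIndex_pos

theorem val_algebraMap (w : Place K F') (r : F) : w.adicValuation (algebraMap F F' r) =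
    (w.restrict F).adicValuation r ^ ei F w := by
  rcases eq_or_ne r 0 with rfl | hr
  · rw [map_zero, map_zero, map_zero, zero_pow (ei_pos (F := F) w).ne']
  · have h1 : algebraMap F F' r ≠ 0 := by rwa [Ne, map_eq_zero]
    rw [val_eq w h1, val_eq _ hr, w.ord_restrict, ← exp_nsmul]
    congr 1
    simp

section LT

variable {v : Place K F} {Φ : Finset (Place K F')}

/-- Index set of a basis adapted to the places above `v`. -/
abbrev Ix (F : Type*) {K F' : Type*} [Field K] [Field F] [Field F'] [Algebra K F']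
    [Algebra F F'] (Φ : Finset (Place K F')) : Type _ := Σ w : Φ, Fin (ei F (w : Place K F'))

/-- An adapted family. -/
structure Bas (v : Place K F) (Φ : Finset (Place K F')) (x : Ix F Φ → F') : Prop where
  above : ∀ w ∈ Φ, w.restrict F = v
  ne : ∀ i, x i ≠ 0
  self : ∀ (w : Φ) (i : Fin (ei F (w : Place K F'))), (w : Place K F').ord (x ⟨w, i⟩) = i
  other : ∀ (w w' : Φ), w' ≠ w → ∀ i : Fin (ei F (w : Place K F')),
    (ei F (w' : Place K F') : ℤ) ≤ (w' : Place K F').ord (x ⟨w, i⟩)

variable {x : Ix F Φ → F'}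

theorem Bas.lt0 (h : Bas v Φ x) {w₀ : Φ} {i₀ : Fin (ei F (w₀ : Place K F'))} {r : Ix F Φ → F}
    (hr : ∀ j, v.adicValuation (r j) ≤ 1) (h0 : v.adicValuation (r ⟨w₀, i₀⟩) = 1)
    (hmin : ∀ i < i₀, v.adicValuation (r ⟨w₀, i⟩) < 1) :
    (w₀ : Place K F').adicValuation (∑ j, algebraMap F F' (r j) * x j) = exp (-(i₀ : ℤ)) := by
  have hv : (w₀ : Place K F').restrict F = v := h.above _ w₀.2
  have hterm : (w₀ : Place K F').adicValuation (algebraMap F F' (r ⟨w₀, i₀⟩) * x ⟨w₀, i₀⟩) =
      exp (-(i₀ : ℤ)) := by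
    rw [map_mul, val_algebraMap, hv, h0, one_pow, one_mul, val_eq _ (h.ne _), h.self]
  rw [← Finset.add_sum_erase _ _ (Finset.mem_univ (⟨w₀, i₀⟩ : Ix F Φ))]
  rw [Valuation.map_add_eq_of_lt_left, hterm]
  rw [hterm]
  refine Valuation.map_sum_lt _ exp_ne_zero fun j hj => ?_
  rw [Finset.mem_erase] at hj
  obtain ⟨w, i⟩ := j
  rw [map_mul, val_algebraMap, hv, val_eq _ (h.ne _)]
  have hi₀ : (i₀ : ℕ) < ei F (w₀ : Place K F') := i₀.2
  by_cases hw : w = w₀
  · subst hw
    rw [h.self]
    have hne : i ≠ i₀ := by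
      rintro rfl
      exact hj.1 rfl
    rcases lt_or_gt_of_ne hne with hlt | hgt
    · have h1 := hmin i hlt
      have h2 : v.adicValuation (r ⟨w, i⟩) ≤ exp (-1 : ℤ) := by
        rw [le_exp_iff]
        rcases (val_lt_one_iff v).mp h1 with h3 | h3
        · exact Or.inl h3
        · exact Or.inr h3
      calc v.adicValuation (r ⟨w, i⟩) ^ ei F (w : Place K F') * exp (-(i : ℤ))
          ≤ exp (-1 : ℤ) ^ ei F (w : Place K F') * 1 := by
            refine mul_le_mul' (pow_le_pow_left₀ zero_le' h2 _) ?_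
            rw [← exp_zero, exp_le_exp]
            omega
        _ = exp (-(ei F (w : Place K F') : ℤ)) := by
            rw [mul_one, ← exp_nsmul]
            congr 1
            simp
        _ < exp (-(i₀ : ℤ)) := by
            rw [exp_lt_exp]
            omega
    · calc v.adicValuation (r ⟨w, i⟩) ^ ei F (w : Place K F') * exp (-(i : ℤ))
          ≤ 1 * exp (-(i : ℤ)) := mul_le_mul' (pow_le_one₀ zero_le' (hr _)) le_rfl
        _ < exp (-(i₀ : ℤ)) := by
            rw [one_mul, exp_lt_exp]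
            have : (i₀ : ℕ) < i := hgt
            omega
  · have h1 := h.other w w₀ (fun h => hw h.symm) i
    calc v.adicValuation (r ⟨w, i⟩) ^ ei F (w₀ : Place K F') *
          exp (-((w₀ : Place K F').ord (x ⟨w, i⟩)))
        ≤ 1 * exp (-(ei F (w₀ : Place K F') : ℤ)) := by
          refine mul_le_mul' (pow_le_one₀ zero_le' (hr _)) ?_
          rw [exp_le_exp]
          omega
      _ < exp (-(i₀ : ℤ)) := by
          rw [one_mul, exp_lt_exp]
          omega

theorem Bas.lt1 (h : Bas v Φ x) {w₀ : Φ} {r : Ix F Φ → F}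
    (hr : ∀ j, v.adicValuation (r j) ≤ 1) {k : ℕ}
    (hS : (w₀ : Place K F').adicValuation (∑ j, algebraMap F F' (r j) * x j) ≤ exp (-(k : ℤ)))
    (i : Fin (ei F (w₀ : Place K F'))) (hi : (i : ℕ) < k) : v.adicValuation (r ⟨w₀, i⟩) < 1 := by
  obtain ⟨i, hi'⟩ := i
  induction i using Nat.strong_induction_on with
  | _ i ih =>
    by_contra hcon
    have h1 : v.adicValuation (r ⟨w₀, ⟨i, hi'⟩⟩) = 1 := le_antisymm (hr _) (not_lt.mp hcon)
    have h2 := h.lt0 hr h1 fun j hj => ih j hj j.2 (lt_trans hj hi)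
    rw [h2, exp_le_exp] at hS
    change (i : ℕ) < k at hi
    change -(k : ℤ) ≥ -((i : ℕ) : ℤ) at hS
    omega

/-- scaling -/
theorem exists_scale (h : Bas v Φ x) {π : F} (hπ0 : π ≠ 0) (hπ : v.ord π = 1) (r : Ix F Φ → F)
    (hr : ∃ j, r j ≠ 0) : ∃ m : ℤ, (∀ j, v.adicValuation (π ^ m * r j) ≤ 1) ∧
      ∃ j, v.adicValuation (π ^ m * r j) = 1 ∧ v.ord (r j) = -m := by
  obtain ⟨j₀, hj₀⟩ := hr
  have : Nonempty (Ix F Φ) := ⟨j₀⟩
  obtain ⟨j, hj⟩ := Finite.exists_max fun j => v.adicValuation (r j)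
  have hj0 : r j ≠ 0 := by
    intro h0
    have h1 := hj j₀
    simp only [h0, map_zero, le_zero_iff, map_eq_zero] at h1
    exact hj₀ h1
  have hval : v.adicValuation (π ^ (-v.ord (r j))) = exp (v.ord (r j)) := by
    rw [val_eq v (zpow_ne_zero _ hπ0), v.ord_zpow, hπ]
    congr 1
    ring
  have hone : v.adicValuation (π ^ (-v.ord (r j)) * r j) = 1 := by
    rw [map_mul, hval, val_eq v hj0, ← exp_add, add_neg_cancel, exp_zero]
  refine ⟨-v.ord (r j), fun i => ?_, j, hone, by ring⟩
  rw [← hone, map_mul, map_mul]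
  exact mul_le_mul' le_rfl (hj i)

theorem exists_unif (v : Place K F) : ∃ π : F, π ≠ 0 ∧ v.ord π = 1 := exists_ord_eq v 1

theorem Bas.linearIndependent (h : Bas v Φ x) : LinearIndependent F x := by
  rw [Fintype.linearIndependent_iff]
  intro r hr
  by_contra hcon
  push Not at hcon
  obtain ⟨π, hπ0, hπ⟩ := exists_unif v
  obtain ⟨m, hm1, ⟨w, i⟩, hm2, -⟩ := exists_scale h hπ0 hπ r hcon
  have h1 : ∑ j, algebraMap F F' (π ^ m * r j) * x j = 0 := by
    have h2 : ∑ j, algebraMap F F' (π ^ m * r j) * x j =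
        algebraMap F F' (π ^ m) * ∑ j, r j • x j := by
      rw [Finset.mul_sum]
      refine Finset.sum_congr rfl fun j _ => ?_
      rw [map_mul, Algebra.smul_def]
      ring
    rw [h2, hr, mul_zero]
  have h2 := h.lt1 (w₀ := w) hm1 (k := ei F (w : Place K F')) (by rw [h1, map_zero]; exact zero_le') i i.2
  rw [hm2] at h2
  exact lt_irrefl _ h2

theorem Bas.sum_le (h : Bas v Φ x) : ∑ w ∈ Φ, ei F w ≤ Module.finrank F F' := by
  have h1 := h.linearIndependent.fintype_card_le_finrank
  rw [Fintype.card_sigma] at h1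
  simp only [Fintype.card_fin] at h1
  rwa [Finset.sum_coe_sort Φ (fun w => ei F w)] at h1

theorem exists_bas [Infinite K] {g C : ℤ} (hC : Crv K F' g C)
    (hΦ : ∀ w ∈ Φ, w.restrict F = v) : ∃ x : Ix F Φ → F', Bas v Φ x := by
  have h1 : ∀ j : Ix F Φ, ∃ y : F', y ≠ 0 ∧ ∀ w ∈ Φ, w.ord y =
      if w = (j.1 : Place K F') then (j.2 : ℤ) else (ei F w : ℤ) := fun j =>
    exists_ord_eq_on hC Φ _
  choose x hx0 hx using h1
  refine ⟨x, hΦ, hx0, fun w i => ?_, fun w w' hww i => ?_⟩
  · rw [hx ⟨w, i⟩ w w.2, if_pos rfl]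
  · rw [hx ⟨w, i⟩ w' w'.2, if_neg fun h => hww (Subtype.ext h)]

end LT

section Deg

open IntermediateField

theorem map_adjoin (t : F) : (K⟮t⟯).map (IsScalarTower.toAlgHom K F F') =
    K⟮algebraMap F F' t⟯ := by
  rw [adjoin_map, Set.image_singleton]
  rfl

/-- the isomorphism -/
def adjEquiv (t : F) : K⟮t⟯ ≃+* K⟮algebraMap F F' t⟯ :=
  ((K⟮t⟯).equivMap (IsScalarTower.toAlgHom K F F')).toRingEquiv.trans
    (IntermediateField.equivOfEq (map_adjoin t)).toRingEquiv

theorem coe_adjEquiv (t : F) (x : K⟮t⟯) :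
    ((adjEquiv (F' := F') t x : K⟮algebraMap F F' t⟯) : F') = algebraMap F F' (x : F) := rfl

theorem finrank_adjoin_map (t : F) : Module.finrank K⟮algebraMap F F' t⟯ F' =
    Module.finrank K⟮t⟯ F * Module.finrank F F' := by
  rw [Module.finrank_mul_finrank]
  exact (Algebra.finrank_eq_of_equiv_equiv (adjEquiv (F' := F') t) (RingEquiv.refl F')
    (RingHom.ext fun x => rfl)).symm

theorem sep_map [CharZero K] {t : F} (h : Sep K t) : Sep K (algebraMap F F' t) := by
  haveI := h.fd
  haveI : FiniteDimensional K⟮t⟯ F' := FiniteDimensional.trans K⟮t⟯ F F'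
  have hfd : FiniteDimensional K⟮algebraMap F F' t⟯ F' :=
    Module.Finite.of_equiv_equiv (adjEquiv (F' := F') t) (RingEquiv.refl F')
      (RingHom.ext fun x => rfl)
  refine ⟨?_, hfd, ?_⟩
  · exact (transcendental_algebraMap_iff (algebraMap F F').injective).mpr h.trans
  · haveI : CharZero K⟮algebraMap F F' t⟯ :=
      charZero_of_injective_algebraMap (algebraMap K K⟮algebraMap F F' t⟯).injective
    exact Algebra.IsAlgebraic.isSeparable_of_perfectField

end Deg

section FI

variable [IsAlgClosed K] [HasPrincipalDivisors K F'] {t : F}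

theorem exists_good (ht : Sep K t) (ht' : Sep K (algebraMap F F' t)) (v : Place K F) :
    ∃ s : F, Sep K s ∧ Sep K (algebraMap F F' s) ∧ 0 < v.ord s := by
  rcases lt_or_ge (v.ord t) 0 with h | h
  · exact ⟨t⁻¹, ht.inv, by rw [map_inv₀]; exact ht'.inv, by rw [v.ord_inv]; omega⟩
  · obtain ⟨c, hc⟩ := (ht.rational v) t (mem_of_ord_nonneg v h)
    refine ⟨t - algebraMap K F c, ht.sub c, ?_, ?_⟩
    · rw [map_sub, ← IsScalarTower.algebraMap_apply]
      exact ht'.sub c
    · rw [adicValuation_lt_one_iff] at hc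
      exact hc.resolve_left (ht.sub c).ne_zero

/-- **the fundamental identity** -/
theorem sum_ei (ht : Sep K t) (ht' : Sep K (algebraMap F F' t)) (v : Place K F) :
    ∑ w ∈ v.fiber F', ei F w = Module.finrank F F' := by
  haveI : Infinite K := IsAlgClosed.instInfinite
  obtain ⟨s, hs, hs', hv⟩ := exists_good ht ht' v
  obtain ⟨g, C, hC⟩ := hs'.exists_crv
  have hle : ∀ u : Place K F, ∑ w ∈ u.fiber F', ei F w ≤ Module.finrank F F' := by
    intro u
    obtain ⟨x, hx⟩ := exists_bas (v := u) (Φ := u.fiber F') hC fun w hw => Place.mem_fiber.mp hw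
    exact hx.sum_le
  obtain ⟨S, hS, hsum, -⟩ := (hs.above 0)
  obtain ⟨S', hS', hsum', -⟩ := (hs'.above 0)
  rw [map_zero, sub_zero] at hsum hsum'
  simp only [map_zero, sub_zero] at hS hS'
  have h1 : S' = S.biUnion fun u => u.fiber F' := by
    ext w
    rw [hS', Finset.mem_biUnion]
    constructor
    · intro h
      refine ⟨w.restrict F, ?_, Place.mem_fiber.mpr rfl⟩
      rw [hS]
      rw [w.ord_restrict] at h
      have := ei_pos (F := F) w
      by_contra hcon
      push Not at hcon
      have h5 := mul_nonpos_of_nonneg_of_nonpos (a := (ei F w : ℤ)) (by positivity) hcon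
      exact absurd h (not_lt.mpr h5)
    · rintro ⟨u, hu, hw⟩
      rw [Place.mem_fiber] at hw
      rw [hS] at hu
      rw [w.ord_restrict, hw]
      have := ei_pos (F := F) w
      positivity
  have h2 : ∑ w ∈ S', w.ord (algebraMap F F' s) =
      ∑ u ∈ S, (∑ w ∈ u.fiber F', (ei F w : ℤ)) * u.ord s := by
    rw [h1, Finset.sum_biUnion]
    · refine Finset.sum_congr rfl fun u hu => ?_
      rw [Finset.sum_mul]
      refine Finset.sum_congr rfl fun w hw => ?_
      rw [w.ord_restrict, Place.mem_fiber.mp hw]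
    · intro u _ u' _ huu
      rw [Function.onFun, Finset.disjoint_left]
      intro w hw hw'
      exact huu ((Place.mem_fiber.mp hw).symm.trans (Place.mem_fiber.mp hw'))
  rw [hsum', finrank_adjoin_map] at h2
  have h3 : ∑ u ∈ S, ((Module.finrank F F' : ℤ) - ∑ w ∈ u.fiber F', (ei F w : ℤ)) * u.ord s = 0 := by
    simp only [sub_mul]
    rw [Finset.sum_sub_distrib, ← h2, ← Finset.mul_sum, hsum]
    push_cast
    ring
  have hvS : v ∈ S := (hS v).mpr hv
  have h4 := (Finset.sum_eq_zero_iff_of_nonneg fun u hu => ?_).mp h3 v hvS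
  · have h5 := (mul_eq_zero.mp h4).resolve_right hv.ne'
    have : ((∑ w ∈ v.fiber F', ei F w : ℕ) : ℤ) = (Module.finrank F F' : ℤ) := by
      push_cast
      linarith
    exact_mod_cast this
  · have h6 : ((∑ w ∈ u.fiber F', ei F w : ℕ) : ℤ) ≤ (Module.finrank F F' : ℤ) := by
      exact_mod_cast hle u
    push_cast at h6
    have h7 := (hS u).mp hu
    exact mul_nonneg (by linarith) h7.le

end FI

section Det

/-- determinant of a matrix which is triangular in an adapted basis -/
theorem det_sigma {α R : Type*} [Fintype α] [DecidableEq α] [CommRing R] {e : α → ℕ}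
    (M : Matrix (Σ a : α, Fin (e a)) (Σ a : α, Fin (e a)) R) (d : α → R)
    (h1 : ∀ i j, i.1 ≠ j.1 → M i j = 0)
    (h2 : ∀ (a : α) (k l : Fin (e a)), k < l → M ⟨a, k⟩ ⟨a, l⟩ = 0)
    (h3 : ∀ (a : α) (k : Fin (e a)), M ⟨a, k⟩ ⟨a, k⟩ = d a) : M.det = ∏ a, d a ^ e a := by
  rw [Matrix.det_apply, Finset.sum_eq_single 1]
  · rw [Equiv.Perm.sign_one, one_smul, Fintype.prod_sigma]
    refine Finset.prod_congr rfl fun a _ => ?_
    refine (Finset.prod_congr rfl fun k _ => (h3 a k : _ = d a)).trans ?_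
    rw [Finset.prod_const, Finset.card_univ, Fintype.card_fin]
  · intro σ _ hσ
    rw [smul_eq_zero_iff_eq]
    by_contra hne
    apply hσ
    have hne' : ∀ i, M (σ i) i ≠ 0 := fun i h0 =>
      hne (Finset.prod_eq_zero (Finset.mem_univ i) h0)
    have ha : ∀ i, (σ i).1 = i.1 := fun i => by
      by_contra hcon
      exact hne' i (h1 _ _ hcon)
    have hb : ∀ i : (Σ a : α, Fin (e a)), (i.2 : ℕ) ≤ ((σ i).2 : ℕ) := by
      intro i
      have hai := ha i
      obtain ⟨a, k⟩ := i
      rcases hσ : σ ⟨a, k⟩ with ⟨b, l⟩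
      rw [hσ] at hai
      change b = a at hai
      subst hai
      by_contra hcon
      apply hne' ⟨b, k⟩
      rw [hσ]
      exact h2 _ _ _ (not_le.mp hcon)
    have hc : ∀ i ∈ (Finset.univ : Finset (Σ a : α, Fin (e a))), (i.2 : ℕ) = ((σ i).2 : ℕ) := by
      refine (Finset.sum_eq_sum_iff_of_le fun i _ => hb i).mp ?_
      exact (Equiv.sum_comp σ fun i => (i.2 : ℕ)).symm
    refine Equiv.ext fun i => ?_
    have h4 := ha i
    have h5 := hc i (Finset.mem_univ i)
    obtain ⟨a, k⟩ := i
    rw [Equiv.Perm.one_apply]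
    rcases hσ : σ ⟨a, k⟩ with ⟨b, l⟩
    rw [hσ] at h4 h5
    change b = a at h4
    subst h4
    change (k : ℕ) = l at h5
    have h6 : k = l := Fin.ext h5
    rw [h6]
  · intro h
    exact absurd (Finset.mem_univ _) h

end Det

section Ev

variable {v : Place K F}

/-- evaluation as a ring homomorphism -/
def evR (hv : Rational v) : v.toValuationSubring →+* K where
  toFun x := evp v (x : F)
  map_one' := evp_one
  map_mul' x y := evp_mul hv x.2 y.2
  map_zero' := evp_zero
  map_add' x y := evp_add hv x.2 y.2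

theorem evp_eq_of_lt {x y : F} (hv : Rational v) (hy : y ∈ v.toValuationSubring)
    (h : v.adicValuation (x - y) < 1) : evp v x = evp v y := by
  apply evp_unique
  have h1 := evp_spec hv hy
  have h2 : x - algebraMap K F (evp v y) = (x - y) + (y - algebraMap K F (evp v y)) := by ring
  rw [h2]
  exact (Valuation.map_add _ _ _).trans_lt (max_lt h h1)

theorem evp_eq_zero_of_lt {x : F} (h : v.adicValuation x < 1) : evp v x = 0 :=
  evp_unique (by rwa [map_zero, sub_zero])

end Ev

section NF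

variable {v : Place K F} {Φ : Finset (Place K F')} {x : Ix F Φ → F'}

theorem Bas.val_le (h : Bas v Φ x) (w : Φ) (j : Ix F Φ) :
    (w : Place K F').adicValuation (x j) ≤ 1 := by
  rw [val_le_one_iff]
  right
  obtain ⟨w', i⟩ := j
  by_cases hw : w = w'
  · subst hw
    rw [h.self]
    positivity
  · exact le_trans (by positivity) (h.other w' w hw i)

theorem Bas.coeff_le (h : Bas v Φ x) {r : Ix F Φ → F} {z : F'}
    (hz : z = ∑ j, algebraMap F F' (r j) * x j)
    (hzw : ∀ w : Φ, (w : Place K F').adicValuation z ≤ 1) (j : Ix F Φ) :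
    v.adicValuation (r j) ≤ 1 := by
  by_contra hcon
  have hj0 : r j ≠ 0 := by
    intro h0
    rw [h0, map_zero] at hcon
    exact hcon zero_le
  obtain ⟨π, hπ0, hπ⟩ := exists_unif v
  obtain ⟨m, hm1, ⟨w, i⟩, hm2, -⟩ := exists_scale h hπ0 hπ r ⟨j, hj0⟩
  have hm : 0 < m := by
    have h1 := hm1 j
    by_contra hm
    push Not at hm
    have h2 : 1 ≤ v.adicValuation (π ^ m) := by
      rw [val_eq v (zpow_ne_zero _ hπ0), v.ord_zpow, hπ, ← exp_zero, exp_le_exp]
      omega
    rw [map_mul] at h1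
    have h3 : v.adicValuation (r j) ≤ v.adicValuation (π ^ m) * v.adicValuation (r j) :=
      le_mul_of_one_le_left' h2
    exact hcon (h3.trans h1)
  have h1 : ∑ j, algebraMap F F' (π ^ m * r j) * x j = algebraMap F F' (π ^ m) * z := by
    rw [hz, Finset.mul_sum]
    refine Finset.sum_congr rfl fun j _ => ?_
    rw [map_mul]
    ring
  have h2 := h.lt1 (w₀ := w) hm1 (k := ei F (w : Place K F')) (by
    rw [h1, map_mul, val_algebraMap, h.above _ w.2, val_eq v (zpow_ne_zero _ hπ0), v.ord_zpow, hπ,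
      ← exp_nsmul]
    calc _ ≤ exp (-(ei F (w : Place K F') : ℤ)) * 1 := by
          refine mul_le_mul' ?_ (hzw w)
          rw [exp_le_exp, nsmul_eq_mul]
          have h3 := ei_pos (F := F) (w : Place K F')
          nlinarith
      _ = _ := mul_one _) i i.2
  rw [hm2] at h2
  exact lt_irrefl _ h2

/-- **values of norms** -/
theorem Bas.evp_norm [IsAlgClosed K] (h : Bas v Φ x) (hv : Rational v)
    (hw : ∀ w ∈ Φ, Rational w) (hn : ∑ w ∈ Φ, ei F w = Module.finrank F F') {y : F'}
    (hy : ∀ w ∈ Φ, y ∈ w.toValuationSubring) :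
    Algebra.norm F y ∈ v.toValuationSubring ∧
      evp v (Algebra.norm F y) = ∏ w ∈ Φ, evp w y ^ ei F w := by
  have hcard : Fintype.card (Ix F Φ) = Module.finrank F F' := by
    rw [Fintype.card_sigma, ← hn]
    simp only [Fintype.card_fin]
    exact Finset.sum_coe_sort Φ (fun w => ei F w)
  have hne : Nonempty (Ix F Φ) := by
    rw [← Fintype.card_pos_iff, hcard]
    exact Module.finrank_pos
  let b : Module.Basis (Ix F Φ) F F' :=
    basisOfLinearIndependentOfCardEqFinrank h.linearIndependent hcard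
  have hb : ∀ i, b i = x i := fun i => by
    rw [coe_basisOfLinearIndependentOfCardEqFinrank]
  have hmul : ∀ (z : F') (j : Ix F Φ), z * x j =
      ∑ i, algebraMap F F' (Algebra.leftMulMatrix b z i j) * x i := by
    intro z j
    have h1 := b.sum_repr (z * x j)
    rw [← h1]
    refine Finset.sum_congr rfl fun i _ => ?_
    rw [Algebra.leftMulMatrix_eq_repr_mul, hb, hb, Algebra.smul_def]
  have hle : ∀ z : F', (∀ w ∈ Φ, z ∈ w.toValuationSubring) → ∀ i j,
      v.adicValuation (Algebra.leftMulMatrix b z i j) ≤ 1 := by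
    intro z hz i j
    refine h.coeff_le (hmul z j) (fun w => ?_) i
    rw [map_mul]
    exact mul_le_one' ((val_le_one_iff_mem _).mpr (hz w w.2)) (h.val_le w j)
  have hlt : ∀ z : F', (∀ w ∈ Φ, z ∈ w.toValuationSubring) → ∀ (w : Φ)
      (i : Fin (ei F (w : Place K F'))) (j : Ix F Φ) (k : ℕ), (i : ℕ) < k →
      (w : Place K F').adicValuation (z * x j) ≤ exp (-(k : ℤ)) →
      v.adicValuation (Algebra.leftMulMatrix b z ⟨w, i⟩ j) < 1 := by
    intro z hz w i j k hik hk
    refine h.lt1 (r := fun i => Algebra.leftMulMatrix b z i j) (fun i => hle z hz i j) (k := k) ?_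
      i hik
    rw [← hmul z j]
    exact hk
  set M := Algebra.leftMulMatrix b y with hM
  have hMmem : ∀ i j, M i j ∈ v.toValuationSubring := fun i j =>
    (val_le_one_iff_mem v).mp (hle y hy i j)
  let MR : Matrix (Ix F Φ) (Ix F Φ) v.toValuationSubring := fun i j => ⟨M i j, hMmem i j⟩
  have hMR : MR.map (v.toValuationSubring.subtype : v.toValuationSubring →+* F) = M := rfl
  have hdet : Algebra.norm F y = ((MR.det : v.toValuationSubring) : F) := by
    rw [Algebra.norm_eq_matrix_det b y, ← hM, ← hMR]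
    exact (RingHom.map_det v.toValuationSubring.subtype MR).symm
  refine ⟨by rw [hdet]; exact MR.det.2, ?_⟩
  rw [hdet]
  change evR hv MR.det = _
  rw [RingHom.map_det]
  rw [det_sigma _ (fun w : Φ => evp (w : Place K F') y)]
  · exact Finset.prod_coe_sort Φ (fun w => evp w y ^ ei F w)
  · rintro ⟨w, i⟩ ⟨w', j⟩ hww
    change evp v (M ⟨w, i⟩ ⟨w', j⟩) = 0
    apply evp_eq_zero_of_lt
    refine hlt y hy w i _ (ei F (w : Place K F')) i.2 ?_
    rw [map_mul]
    calc _ ≤ 1 * exp (-(ei F (w : Place K F') : ℤ)) := by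
          refine mul_le_mul' ((val_le_one_iff_mem _).mpr (hy w w.2)) ?_
          rw [le_exp_iff]
          right
          exact h.other w' w (fun h => hww (h ▸ rfl)) j
      _ = _ := one_mul _
  · intro w i j hij
    change evp v (M ⟨w, i⟩ ⟨w, j⟩) = 0
    apply evp_eq_zero_of_lt
    refine hlt y hy w i _ j hij ?_
    rw [map_mul]
    calc _ ≤ 1 * exp (-(j : ℤ)) := by
          refine mul_le_mul' ((val_le_one_iff_mem _).mpr (hy w w.2)) ?_
          rw [le_exp_iff]
          right
          rw [h.self]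
      _ = _ := one_mul _
  · intro w i
    change evp v (M ⟨w, i⟩ ⟨w, i⟩) = evp (w : Place K F') y
    set a := evp (w : Place K F') y with ha
    have hya : ∀ w ∈ Φ, y - algebraMap K F' a ∈ w.toValuationSubring := fun w' hw' =>
      sub_mem (hy w' hw') (w'.algebraMap_mem' a)
    have h1 := hlt (y - algebraMap K F' a) hya w i ⟨w, i⟩ (i + 1) (Nat.lt_succ_self _) (by
      rw [map_mul]
      have h2 : (w : Place K F').adicValuation (y - algebraMap K F' a) ≤ exp (-1 : ℤ) := by
        rw [le_exp_iff]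
        have h3 := evp_spec (hw w w.2) (hy w w.2)
        rw [← ha, val_lt_one_iff] at h3
        exact h3.imp id fun h => h
      calc _ ≤ exp (-1 : ℤ) * exp (-(i : ℤ)) := by
            refine mul_le_mul' h2 ?_
            rw [le_exp_iff]
            right
            rw [h.self]
        _ = _ := by
            rw [← exp_add]
            congr 1
            push_cast
            ring)
    have h2 : Algebra.leftMulMatrix b (y - algebraMap K F' a) ⟨w, i⟩ ⟨w, i⟩ =
        M ⟨w, i⟩ ⟨w, i⟩ - algebraMap K F a := by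
      rw [map_sub, IsScalarTower.algebraMap_apply K F F', AlgHom.commutes, Matrix.sub_apply,
        Matrix.algebraMap_matrix_apply, if_pos rfl, ← hM]
      rfl
    rw [h2] at h1
    rw [evp_eq_of_lt hv (v.algebraMap_mem' a) h1, evp_algebraMap]

end NF

section NFm

variable [IsAlgClosed K] [HasPrincipalDivisors K F'] {t : F}

theorem rational_of (ht : Sep K t) (v : Place K F) : Rational v := ht.rational v

theorem evp_norm (ht : Sep K t) (ht' : Sep K (algebraMap F F' t)) (v : Place K F) {y : F'}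
    (hy : ∀ w ∈ v.fiber F', y ∈ w.toValuationSubring) :
    Algebra.norm F y ∈ v.toValuationSubring ∧
      evp v (Algebra.norm F y) = ∏ w ∈ v.fiber F', evp w y ^ ei F w := by
  haveI : Infinite K := IsAlgClosed.instInfinite
  obtain ⟨g, C, hC⟩ := ht'.exists_crv
  obtain ⟨x, hx⟩ := exists_bas (v := v) (Φ := v.fiber F') hC fun w hw => Place.mem_fiber.mp hw
  exact hx.evp_norm (ht.rational v) (fun w _ => ht'.rational w) (sum_ei ht ht' v) hy

theorem norm_ne {y : F'} (hy : y ≠ 0) : Algebra.norm F y ≠ 0 := by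
  rwa [Ne, Algebra.norm_eq_zero_iff]

theorem ord_norm_zpow (v : Place K F) {y : F'} (hy : y ≠ 0) (n : ℤ) :
    v.ord (Algebra.norm F (y ^ n)) = n * v.ord (Algebra.norm F y) := by
  have h1 : ∀ n : ℕ, v.ord (Algebra.norm F (y ^ n)) = n * v.ord (Algebra.norm F y) := fun n => by
    rw [map_pow, Flat.ord_pow]
  cases n with
  | ofNat n =>
    rw [Int.ofNat_eq_natCast, zpow_natCast, h1]
  | negSucc n =>
    have h2 : Algebra.norm F (y ^ (Int.negSucc n)) * Algebra.norm F (y ^ (n + 1)) = 1 := by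
      rw [← map_mul, zpow_negSucc, inv_mul_cancel₀ (pow_ne_zero _ hy), map_one]
    have h3 := congrArg v.ord h2
    rw [v.ord_mul (norm_ne (zpow_ne_zero _ hy)) (norm_ne (pow_ne_zero _ hy)), v.ord_one, h1] at h3
    have h4 : v.ord (Algebra.norm F (y ^ (Int.negSucc n))) =
        -((n : ℤ) + 1) * v.ord (Algebra.norm F y) := by
      push_cast at h3
      linarith
    rw [h4, Int.negSucc_eq]

theorem ord_prod (v : Place K F) {α : Type*} (s : Finset α) (f : α → F) (hf : ∀ i ∈ s, f i ≠ 0) :
    v.ord (∏ i ∈ s, f i) = ∑ i ∈ s, v.ord (f i) := by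
  induction s using Finset.induction_on with
  | empty => rw [Finset.prod_empty, Finset.sum_empty, v.ord_one]
  | insert a s ha ih =>
    rw [Finset.prod_insert ha, Finset.sum_insert ha, v.ord_mul (hf a (Finset.mem_insert_self _ _)),
      ih fun i hi => hf i (Finset.mem_insert_of_mem hi)]
    exact Finset.prod_ne_zero_iff.mpr fun i hi => hf i (Finset.mem_insert_of_mem hi)

theorem ord_norm_unit (ht : Sep K t) (ht' : Sep K (algebraMap F F' t)) (v : Place K F) {y : F'}
    (hy0 : y ≠ 0) (hy : ∀ w ∈ v.fiber F', w.ord y = 0) : v.ord (Algebra.norm F y) = 0 := by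
  obtain ⟨h1, h2⟩ := evp_norm ht ht' v (y := y) fun w hw => mem_of_ord_nonneg w (hy w hw).ge
  refine ((evp_ne_zero_iff (ht.rational v) h1).mp ?_).2
  rw [h2, Finset.prod_ne_zero_iff]
  intro w hw
  exact pow_ne_zero _ ((evp_ne_zero_iff (ht'.rational w) (mem_of_ord_nonneg w (hy w hw).ge)).mpr
    ⟨hy0, hy w hw⟩)

/-- **orders of norms** -/
theorem ord_norm (ht : Sep K t) (ht' : Sep K (algebraMap F F' t)) (v : Place K F) {y : F'}
    (hy0 : y ≠ 0) : v.ord (Algebra.norm F y) = ∑ w ∈ v.fiber F', w.ord y := by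
  haveI : Infinite K := IsAlgClosed.instInfinite
  obtain ⟨g, C, hC⟩ := ht'.exists_crv
  set Φ := v.fiber F' with hΦ
  have hz : ∀ w : Place K F', ∃ z : F', z ≠ 0 ∧ ∀ w' ∈ Φ, w'.ord z = if w' = w then 1 else 0 :=
    fun w => exists_ord_eq_on hC Φ _
  choose z hz0 hz using hz
  set c : Place K F' → ℤ := fun w => v.ord (Algebra.norm F (z w)) - 1 with hc
  have hc0 : ∀ w ∈ Φ, 0 ≤ c w := by
    intro w hw
    have hmem : ∀ w' ∈ Φ, z w ∈ w'.toValuationSubring := fun w' hw' =>
      mem_of_ord_nonneg w' (by rw [hz w w' hw']; split_ifs <;> norm_num)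
    obtain ⟨h1, h2⟩ := evp_norm ht ht' v hmem
    have h3 : evp v (Algebra.norm F (z w)) = 0 := by
      rw [h2]
      refine Finset.prod_eq_zero hw ?_
      rw [(evp_eq_zero_iff (ht'.rational w) (hmem w hw)).mpr (Or.inr (by
        rw [hz w w hw, if_pos rfl]; exact one_pos)), zero_pow (ei_pos (F := F) w).ne']
    have h4 := ((evp_eq_zero_iff (ht.rational v) h1).mp h3).resolve_left (norm_ne (hz0 w))
    rw [hc]
    change 0 ≤ v.ord (Algebra.norm F (z w)) - 1
    omega
  have key : ∀ y : F', y ≠ 0 → v.ord (Algebra.norm F y) =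
      ∑ w ∈ Φ, w.ord y + ∑ w ∈ Φ, w.ord y * c w := by
    intro y hy0
    set P := ∏ w ∈ Φ, z w ^ (w.ord y) with hP
    have hPi : ∀ w ∈ Φ, z w ^ (w.ord y) ≠ 0 := fun w _ => zpow_ne_zero _ (hz0 w)
    have hP0 : P ≠ 0 := Finset.prod_ne_zero_iff.mpr hPi
    have hPord : ∀ w' ∈ Φ, w'.ord P = w'.ord y := by
      intro w' hw'
      rw [hP, ord_prod w' _ _ hPi, Finset.sum_eq_single w']
      · rw [w'.ord_zpow, hz w' w' hw', if_pos rfl, mul_one]
      · intro w _ hne
        rw [w'.ord_zpow, hz w w' hw', if_neg hne.symm, mul_zero]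
      · intro h
        exact absurd hw' h
    have hu := ord_norm_unit ht ht' v (y := y * P⁻¹) (mul_ne_zero hy0 (inv_ne_zero hP0))
      fun w hw => by
        rw [w.ord_mul hy0 (inv_ne_zero hP0), w.ord_inv, hPord w hw]
        ring
    have h1 : y = y * P⁻¹ * P := by rw [mul_assoc, inv_mul_cancel₀ hP0, mul_one]
    conv_lhs => rw [h1]
    rw [map_mul, v.ord_mul (norm_ne (mul_ne_zero hy0 (inv_ne_zero hP0))) (norm_ne hP0), hu,
      zero_add, hP, map_prod, ord_prod v _ _ fun w hw => norm_ne (hPi w hw),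
      ← Finset.sum_add_distrib]
    refine Finset.sum_congr rfl fun w _ => ?_
    rw [ord_norm_zpow v (hz0 w), hc]
    ring
  obtain ⟨π, hπ0, hπ⟩ := exists_unif v
  have hπ' : algebraMap F F' π ≠ 0 := by rwa [Ne, map_eq_zero]
  have hord : ∀ w ∈ Φ, w.ord (algebraMap F F' π) = ei F w := by
    intro w hw
    rw [w.ord_restrict, Place.mem_fiber.mp hw, hπ, mul_one]
  have h1 := key _ hπ'
  rw [Algebra.norm_algebraMap, Flat.ord_pow, hπ, mul_one, Finset.sum_congr rfl hord] at h1
  have h2 := sum_ei ht ht' v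
  have h3 : (∑ w ∈ Φ, (ei F w : ℤ)) = Module.finrank F F' := by
    rw [← h2]
    push_cast
    rfl
  rw [h3] at h1
  have h4 : ∑ w ∈ Φ, w.ord (algebraMap F F' π) * c w = 0 := by linarith
  have h5 := (Finset.sum_eq_zero_iff_of_nonneg fun w hw => ?_).mp h4
  · have h6 : ∀ w ∈ Φ, c w = 0 := by
      intro w hw
      have := h5 w hw
      rw [hord w hw] at this
      exact (mul_eq_zero.mp this).resolve_left (by exact_mod_cast (ei_pos (F := F) w).ne')
    rw [key y hy0, Finset.sum_eq_zero (s := Φ) (f := fun w => w.ord y * c w) fun w hw => by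
      rw [h6 w hw, mul_zero], add_zero]
  · rw [hord w hw]
    exact mul_nonneg (by positivity) (hc0 w hw)

theorem deg_one [CharZero K] (ht : Sep K t) (v : Place K F) : v.deg = 1 := by
  haveI := ht.fd
  exact deg_eq_one ht.trans v

theorem inertiaDeg_one [CharZero K] (ht : Sep K t) (ht' : Sep K (algebraMap F F' t)) (w : Place K F') :
    w.inertiaDeg F = 1 := by
  have h := w.deg_restrict_mul_inertiaDeg (F := F)
  rwa [deg_one ht, deg_one ht', one_mul] at h

theorem fundamentalIdentity [CharZero K] (ht : Sep K t) (ht' : Sep K (algebraMap F F' t)) :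
    FundamentalIdentity K F F' where
  sum_ramificationIndex_mul_deg v := by
    rw [deg_one ht, Nat.cast_one, mul_one, ← sum_ei ht ht' v]
    push_cast
    refine Finset.sum_congr rfl fun w _ => ?_
    rw [deg_one ht', Nat.cast_one, mul_one]

theorem normFormula [CharZero K] (ht : Sep K t) (ht' : Sep K (algebraMap F F' t)) :
    Divisor.PushforwardNormFormula K F F' := by
  intro f hf D hD v
  rw [ord_norm ht ht' v hf, Divisor.pushforward_apply]
  rw [← Finset.sum_filter]
  have h1 : ∀ w ∈ D.support.filter (fun w => w.restrict F = v), D w * (w.inertiaDeg F : ℤ) =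
      w.ord f := fun w _ => by
    rw [inertiaDeg_one ht ht', Nat.cast_one, mul_one, hD]
  rw [Finset.sum_congr rfl h1]
  refine Finset.sum_subset (fun w hw => ?_) fun w hw hw' => ?_
  · rw [Finset.mem_filter] at hw
    exact Place.mem_fiber.mpr hw.2
  · rw [Place.mem_fiber] at hw
    by_contra hne
    apply hw'
    rw [Finset.mem_filter, Finsupp.mem_support_iff, hD]
    exact ⟨hne, hw⟩

end NFm

end Fermat.Agent.ER
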