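import Mathlib
import Fermat.Agent.ER.Nrm
import Fermat.Agent.WP.TF
import Fermat.Agent.MZ.Deg
import Fermat.Agent.LG.WQ2
import Fermat.Agent.Flat.Inj

/-!
# The two degeneracy maps and the norm
-/

set_option autoImplicit false
set_option linter.unusedSectionVars false
set_option linter.style.haveILetI false
set_option synthInstance.maxHeartbeats 400000

noncomputable section

namespace Fermat.Agent.ER

open AlgebraicCurve Fermat.Agent.Flat Fermat.Agent.FunField Fermat.Agent.MZ
open Fermat.Agent.LG Fermat.Agent.ModFun Fermat.Agent.WP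
open Fermat.Agent.ESCore (ιC)
open ModularCurve (qExpand jqModC)
open scoped Classical

/-- The field of algebraic numbers. -/
local notation "Qb" => AlgebraicClosure ℚ

/-- norms as products over embeddings -/
theorem norm_eq_prod {F F' Ω ι : Type*} [Field F] [Field F'] [Field Ω] [Algebra F F']
    [FiniteDimensional F F'] [Algebra.IsSeparable F F'] [Fintype ι] (e : F →+* Ω)
    (E : ι → F' →+* Ω) (hE : ∀ i x, E i (algebraMap F F' x) = e x) (hinj : Function.Injective E)
    (hcard : Fintype.card ι = Module.finrank F F') (x : F') :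
    e (Algebra.norm F x) = ∏ i, E i x := by
  let Ω' := AlgebraicClosure Ω
  let j : Ω →+* Ω' := algebraMap Ω Ω'
  letI : Algebra F Ω' := (j.comp e).toAlgebra
  let A : ι → F' →ₐ[F] Ω' := fun i =>
    { toRingHom := j.comp (E i)
      commutes' := fun x => congrArg j (hE i x) }
  have hA : Function.Injective A := by
    intro i i' h
    apply hinj
    ext y
    have h1 : A i y = A i' y := by rw [h]
    exact j.injective h1
  have hb : Function.Bijective A := by
    rw [Fintype.bijective_iff_injective_and_card]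
    exact ⟨hA, by rw [hcard, AlgHom.card]⟩
  have h1 := Algebra.norm_eq_prod_embeddings F Ω' x
  rw [← Function.Bijective.prod_comp hb] at h1
  apply j.injective
  rw [map_prod]
  exact h1

variable (N l : ℕ) [NeZero N] [NeZero l]

/-- the first degeneracy map -/
def al : F0 Qb N →ₐ[Qb] F0 Qb (N * l) :=
  IntermediateField.inclusion (F0_mono (K := Qb) (dvd_mul_right N l))

theorem coe_al (x : F0 Qb N) : ((al N l x : F0 Qb (N * l)) : LaurentSeries Qb) = x :=
  IntermediateField.coe_inclusion _ x

/-- the second degeneracy map -/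
def be : F0 Qb N →ₐ[Qb] F0 Qb (N * l) :=
  { ((qExpand Qb l).comp (F0 Qb N).val.toRingHom).codRestrict (F0 Qb (N * l)).toSubfield.toSubring
      fun x => qExpand_mem_F0_of_dvd (m := l) (M := N) (by rw [mul_comm]) x.2 with
    commutes' := fun a => by
      apply Subtype.ext
      change qExpand Qb l (algebraMap Qb (LaurentSeries Qb) a) = algebraMap Qb (LaurentSeries Qb) a
      rw [ModularCurve.algebraMap_laurentSeries_eq_single, ModularCurve.qExpand_single, mul_zero] }

theorem coe_be (x : F0 Qb N) : ((be N l x : F0 Qb (N * l)) : LaurentSeries Qb) =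
    qExpand Qb l (x : LaurentSeries Qb) := rfl

variable {N l}

section W

variable (hl : l.Prime) (hlN : ¬ l ∣ N)

/-- the Atkin–Lehner involution -/
def wl : F0 Qb (N * l) ≃+* F0 Qb (N * l) :=
  (nonempty_bez ((Nat.Prime.coprime_iff_not_dvd hl).mpr hlN)).some.wF ιC hl (mul_comm N l)

theorem wl_wl (x : F0 Qb (N * l)) : wl hl hlN (wl hl hlN x) = x := Bez.wF_wF _ _ _ _

theorem wl_C (a : Qb) : wl hl hlN (algebraMap Qb _ a) = algebraMap Qb _ a := Bez.wF_C _ _ _ _

theorem wl_al (x : F0 Qb N) : wl hl hlN (al N l x) = be N l x := by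
  apply Subtype.ext
  exact Bez.wF_level _ hl (mul_comm N l) _ x

theorem wl_be (x : F0 Qb N) : wl hl hlN (be N l x) = al N l x := by
  rw [← wl_al hl hlN, wl_wl]

/-- as an algebra isomorphism -/
def wlA : F0 Qb (N * l) ≃ₐ[Qb] F0 Qb (N * l) :=
  AlgEquiv.ofRingEquiv (f := wl hl hlN) (wl_C hl hlN)

end W

section Deg

variable (hl : l.Prime) (hlN : ¬ l ∣ N)

include hl hlN in
theorem fin_al : letI := algebraAlong (al N l)
    FiniteDimensional (F0 Qb N) (F0 Qb (N * l)) ∧
      Module.finrank (F0 Qb N) (F0 Qb (N * l)) = l + 1 := by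
  obtain ⟨h1, h2⟩ := finrank_LJ ιC N
  obtain ⟨h3, h4⟩ := finrank_LJ ιC (N * l)
  have t := tower_I (LJ_le_F0 (K := Qb) N) (F0_mono (K := Qb) (dvd_mul_right N l))
    (LJ_le_F0 (K := Qb) (N * l))
  have hpsi : ModularCurve.dedekindPsi (N * l) = ModularCurve.dedekindPsi N * (l + 1) := by
    have h5 := Fermat.Agent.Gamma0Comb.dedekindPsi_prime_pow hl 0
    rw [zero_add, pow_one, pow_zero] at h5
    rw [mul_comm N l, Fermat.Agent.Gamma0Comb.dedekindPsi_mul
      ((Nat.Prime.coprime_iff_not_dvd hl).mpr hlN), h5, mul_comm]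
  rw [hpsi] at h4
  exact @finrank_quot (LJ Qb) (F0 Qb N) (F0 Qb (N * l)) _ _ _
    (algI (LJ_le_F0 (K := Qb) N)) (algI (F0_mono (K := Qb) (dvd_mul_right N l)))
    (algI (LJ_le_F0 (K := Qb) (N * l))) t h1 h3 _ _ h2 h4

include hl hlN in
theorem fin_be : letI := algebraAlong (be N l)
    FiniteDimensional (F0 Qb N) (F0 Qb (N * l)) ∧
      Module.finrank (F0 Qb N) (F0 Qb (N * l)) = l + 1 := by
  obtain ⟨h1, h2⟩ := fin_al hl hlN
  have he : RingHom.comp (be N l).toRingHom ((RingEquiv.refl (F0 Qb N) : F0 Qb N ≃+* F0 Qb N) :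
      F0 Qb N →+* F0 Qb N) = RingHom.comp ((wl hl hlN : F0 Qb (N * l) ≃+* F0 Qb (N * l)) :
      F0 Qb (N * l) →+* F0 Qb (N * l)) (al N l).toRingHom := by
    apply RingHom.ext
    intro x
    exact (wl_al hl hlN x).symm
  refine ⟨?_, ?_⟩
  · exact @Module.Finite.of_equiv_equiv _ _ _ _ _ _ _ _ (algebraAlong (al N l))
      (algebraAlong (be N l)) (RingEquiv.refl _) (wl hl hlN) he h1
  · rw [← h2]
    exact (@Algebra.finrank_eq_of_equiv_equiv _ _ _ _ (algebraAlong (al N l)) _ _ _ _
      (algebraAlong (be N l)) (RingEquiv.refl _) (wl hl hlN) he).symm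

end Deg

section Norm

variable (hl : l.Prime) (hlN : ¬ l ∣ N)

theorem isSep {F F' : Type*} [Field F] [Field F'] [CharZero F] [Algebra F F']
    [FiniteDimensional F F'] : Algebra.IsSeparable F F' :=
  Algebra.IsAlgebraic.isSeparable_of_perfectField

instance charZero_F0 (M : ℕ) [NeZero M] : CharZero (F0 Qb M) :=
  charZero_of_injective_algebraMap (algebraMap Qb (F0 Qb M)).injective

/-- the embeddings of the field of level `N l` over the second copy of the field of level `N` -/
def eb : Option (Fin l) → F0 Qb (N * l) →+* LaurentSeries Qb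
  | none => (qExpand Qb l).comp ((F0 Qb (N * l)).val.toRingHom.comp
      ((wl hl hlN : F0 Qb (N * l) ≃+* F0 Qb (N * l)) : F0 Qb (N * l) →+* F0 Qb (N * l)))
  | some i => (twist (zl l ^ (i : ℕ))).comp (F0 Qb (N * l)).val.toRingHom

/-- the embeddings of the field of level `N l` over the first copy of the field of level `N` -/
def ea : Option (Fin l) → F0 Qb (N * l) →+* LaurentSeries Qb
  | none => (qExpand Qb l).comp (F0 Qb (N * l)).val.toRingHom
  | some i => (twist (zl l ^ (i : ℕ))).comp ((F0 Qb (N * l)).val.toRingHom.comp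
      ((wl hl hlN : F0 Qb (N * l) ≃+* F0 Qb (N * l)) : F0 Qb (N * l) →+* F0 Qb (N * l)))

theorem eb_none (x : F0 Qb (N * l)) : eb hl hlN none x =
    qExpand Qb l ((wl hl hlN x : F0 Qb (N * l)) : LaurentSeries Qb) := rfl

theorem eb_some (i : Fin l) (x : F0 Qb (N * l)) : eb hl hlN (some i) x =
    twist (zl l ^ (i : ℕ)) (x : LaurentSeries Qb) := rfl

theorem ea_none (x : F0 Qb (N * l)) : ea hl hlN none x =
    qExpand Qb l (x : LaurentSeries Qb) := rfl

theorem ea_some (i : Fin l) (x : F0 Qb (N * l)) : ea hl hlN (some i) x =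
    twist (zl l ^ (i : ℕ)) ((wl hl hlN x : F0 Qb (N * l)) : LaurentSeries Qb) := rfl

theorem zl_pow_pow (i : ℕ) : (zl l ^ i) ^ l = 1 := by
  rw [← pow_mul, mul_comm, pow_mul, (zl_spec l).pow_eq_one, one_pow]

theorem eb_be (i : Option (Fin l)) (x : F0 Qb N) : eb hl hlN i (be N l x) =
    qExpand Qb l (x : LaurentSeries Qb) := by
  cases i with
  | none => rw [eb_none, wl_be, coe_al]
  | some i => rw [eb_some, coe_be, twist_qExpand_of_pow (zl_pow_pow i)]

theorem ea_al (i : Option (Fin l)) (x : F0 Qb N) : ea hl hlN i (al N l x) =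
    qExpand Qb l (x : LaurentSeries Qb) := by
  cases i with
  | none => rw [ea_none, coe_al]
  | some i => rw [ea_some, wl_al, coe_be, twist_qExpand_of_pow (zl_pow_pow i)]

theorem prod_ser (x : LaurentSeries Qb) : qExpand Qb l (qExpand Qb l x) *
    ∏ j : Fin l, twist (zl l ^ (j : ℕ)) x = qExpand Qb l (tN l (zl l) x) := by
  rw [tN, map_mul, qExpand_uN (zl_spec l), twN]

theorem prod_eb (x : F0 Qb N) : ∏ i, eb hl hlN i (al N l x) =
    qExpand Qb l (TF N hl hlN x : LaurentSeries Qb) := by
  rw [Fintype.prod_option, coe_TF, ← prod_ser, eb_none, wl_al, coe_be]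
  rfl

theorem prod_ea (x : F0 Qb N) : ∏ i, ea hl hlN i (be N l x) =
    qExpand Qb l (TF N hl hlN x : LaurentSeries Qb) := by
  rw [Fintype.prod_option, coe_TF, ← prod_ser, ea_none, coe_be]
  congr 1
  refine Finset.prod_congr rfl fun i _ => ?_
  rw [ea_some, wl_be, coe_al]

theorem ser_inj {i i' : Option (Fin l)} {g : Option (Fin l) → LaurentSeries Qb}
    (h0 : g none = qExpand Qb l (qExpand Qb l (jqModC Qb)))
    (h1 : ∀ i : Fin l, g (some i) = twist (zl l ^ (i : ℕ)) (jqModC Qb)) (hl : l.Prime)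
    (h : g i = g i') : i = i' := by
  have c0 : (qExpand Qb l (qExpand Qb l (jqModC Qb))).coeff (-1) = 0 := by
    apply ModularCurve.qExpand_coeff_of_not_dvd
    intro h
    have h2 : (l : ℤ) ∣ 1 := by simpa using h
    have h3 := Int.le_of_dvd one_pos h2
    have := hl.two_le
    omega
  have c1 : ∀ i : Fin l, (twist (zl l ^ (i : ℕ)) (jqModC Qb)).coeff (-1) =
      (((zl l ^ (i : ℕ)) ^ (-1 : ℤ) : Qbˣ) : Qb) := fun i => by
    rw [twist_coeff, coeff_jqModC_neg_one, mul_one]
  have hc : (g i).coeff (-1) = (g i').coeff (-1) := by rw [h]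
  cases i with
  | none =>
    cases i' with
    | none => rfl
    | some i' =>
      rw [h0, h1, c0, c1] at hc
      exact absurd hc.symm (Units.ne_zero _)
  | some i =>
    cases i' with
    | none =>
      rw [h0, h1, c0, c1] at hc
      exact absurd hc (Units.ne_zero _)
    | some i' =>
      rw [h1, h1, c1, c1] at hc
      have h2 : (zl l ^ (i : ℕ)) = (zl l ^ (i' : ℕ)) := by
        have h3 := Units.ext hc
        rwa [zpow_neg_one, zpow_neg_one, inv_inj] at h3
      have h3 := (zl_spec l).pow_inj i.2 i'.2 h2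
      rw [Fin.ext h3]

theorem eb_injective : Function.Injective (eb (N := N) hl hlN) := by
  intro i i' h
  refine ser_inj (g := fun i => eb hl hlN i (al N l (jF Qb N))) ?_ ?_ hl (by rw [h])
  · change eb hl hlN none (al N l (jF Qb N)) = _
    rw [eb_none, wl_al, coe_be]
    rfl
  · intro i
    change eb hl hlN (some i) (al N l (jF Qb N)) = _
    rw [eb_some, coe_al]
    rfl

theorem ea_injective : Function.Injective (ea (N := N) hl hlN) := by
  intro i i' h
  refine ser_inj (g := fun i => ea hl hlN i (be N l (jF Qb N))) ?_ ?_ hl (by rw [h])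
  · change ea hl hlN none (be N l (jF Qb N)) = _
    rw [ea_none, coe_be]
    rfl
  · intro i
    change ea hl hlN (some i) (be N l (jF Qb N)) = _
    rw [ea_some, wl_be, coe_al]
    rfl

/-- the norm along the second degeneracy map -/
theorem norm_be (x : F0 Qb N) : @Algebra.norm (F0 Qb N) (F0 Qb (N * l)) _ _
    (algebraAlong (be N l)) (al N l x) = TF N hl hlN x := by
  letI := algebraAlong (be N l)
  obtain ⟨h1, h2⟩ := fin_be (N := N) hl hlN
  haveI := h1
  haveI := isSep (F := F0 Qb N) (F' := F0 Qb (N * l))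
  have h3 := norm_eq_prod ((qExpand Qb l).comp (F0 Qb N).val.toRingHom) (eb hl hlN)
    (fun i x => eb_be hl hlN i x) (eb_injective hl hlN)
    (by rw [h2, Fintype.card_option, Fintype.card_fin]) (al N l x)
  rw [prod_eb] at h3
  apply Subtype.ext
  exact RingHom.injective (qExpand Qb l) h3

/-- the norm along the first degeneracy map -/
theorem norm_al (x : F0 Qb N) : @Algebra.norm (F0 Qb N) (F0 Qb (N * l)) _ _
    (algebraAlong (al N l)) (be N l x) = TF N hl hlN x := by
  letI := algebraAlong (al N l)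
  obtain ⟨h1, h2⟩ := fin_al (N := N) hl hlN
  haveI := h1
  haveI := isSep (F := F0 Qb N) (F' := F0 Qb (N * l))
  have h3 := norm_eq_prod ((qExpand Qb l).comp (F0 Qb N).val.toRingHom) (ea hl hlN)
    (fun i x => ea_al hl hlN i x) (ea_injective hl hlN)
    (by rw [h2, Fintype.card_option, Fintype.card_fin]) (be N l x)
  rw [prod_ea] at h3
  apply Subtype.ext
  exact RingHom.injective (qExpand Qb l) h3

end Norm

end Fermat.Agent.ER
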