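import Mathlib
import Fermat.Agent.ER.Hk
import Fermat.Agent.GC.Conc2

/-!
# Reduction of places: the interface
-/

set_option autoImplicit false
set_option linter.unusedSectionVars false
set_option synthInstance.maxHeartbeats 400000

noncomputable section

namespace Fermat.Agent.ER

open AlgebraicCurve Fermat.Agent.Flat Fermat.Agent.FunField Fermat.Agent.MZ Fermat.Agent.GC
open Fermat.Agent.LG Fermat.Agent.ModFun Fermat.Agent.WP Fermat.Agent.Lf
open Fermat.Agent.ESCore (ιC)
open IsLocalRing

/-- The field of algebraic numbers. -/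
local notation "Qb" => AlgebraicClosure ℚ
/-- The absolute Galois group. -/
local notation "GQ" => (AlgebraicClosure ℚ ≃ₐ[ℚ] AlgebraicClosure ℚ)

variable {A : ValuationSubring Qb} {l : ℕ} {M : ℕ} [NeZero M]

/-- The chart property of a place `v` and its reduction `vb`, for the parameter `t`. -/
def ChartAt (hl : l.Prime) (hA : A.LiesOverPrime l) (t : F0 Qb M) (tb : FbK A M)
    (v : Place Qb (F0 Qb M)) (vb : Place (ResidueField A) (FbK A M)) : Prop :=
  0 ≤ v.ord t → evp v t ∈ A → 0 ≤ vb.ord tb ∧
    ∀ z : WV hl hA M, Reg Qb t (z : F0 Qb M) →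
      ∃ h : evp v (z : F0 Qb M) ∈ A, residue A ⟨_, h⟩ = evp vb (ρV hl hA M z)

/-- A reduction map on places: chart property for `T` and `T⁻¹`. -/
structure RedMap (hl : l.Prime) (hA : A.LiesOverPrime l) (T : F0 Qb M) (Tb : FbK A M)
    (red : Place Qb (F0 Qb M) → Place (ResidueField A) (FbK A M)) : Prop where
  c0 : ∀ v, ChartAt hl hA T Tb v (red v)
  c1 : ∀ v, ChartAt hl hA T⁻¹ Tb⁻¹ v (red v)

end Fermat.Agent.ER
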