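import Mathlib
import Fermat.Agent.ER.Red2
import Fermat.Agent.ER.RedDef
import Fermat.Agent.RJ.Good3
import Fermat.Agent.Mzr.GInv

/-!
# Reduction of places on modular curves
-/

set_option autoImplicit false
set_option linter.unusedSectionVars false
set_option linter.style.haveILetI false
set_option synthInstance.maxHeartbeats 400000

noncomputable section

namespace Fermat.Agent.ER

open AlgebraicCurve IsDedekindDomain IntermediateField WithZero Module Fermat.Agent.FunField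
open Fermat.Agent.Flat

section Smul

variable {Ω κ F Fb : Type*} [Field Ω] [Field κ] [Field F] [Field Fb] [Algebra Ω F] [Algebra κ Fb]
  {A : ValuationSubring Ω} {G : Type*} [Group G] [MulSemiringAction G Ω]
  [IsAlgClosed Ω] [IsAlgClosed κ] {r : A →+* κ} {γ : G →* SemilinearAut Ω F}
  {W : ValuationSubring F} {ρ : W →+* Fb} {t : F} {tb : Fb}
  {red : Place Ω F → Place κ Fb}

theorem ord_smul_inv (γ : G →* SemilinearAut Ω F) (g : G) (v : Place Ω F) (z : F) :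
    (γ g • v).ord z = v.ord (γ g⁻¹ • z) := by
  have h1 : z = γ g • (γ g⁻¹ • z) := by rw [← mul_smul, ← map_mul, mul_inv_cancel, map_one, one_smul]
  conv_lhs => rw [h1]
  rw [SemilinearAut.ord_smul]

theorem redTo_smul (hG : GoodCrv r γ W ρ t tb) (hI : Inert G r) (g : G) {v : Place Ω F}
    {vb : Place κ Fb} (hv : InCh A t v) (hR : RedTo r ρ t v vb) : InCh A t (γ g • v) ∧
      RedTo r ρ t (γ g • v) vb := by
  have hr := hG.sep.rational v
  have h1 : (γ g • v).ord t = v.ord t := by rw [ord_smul_inv, hG.fixt]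
  have hev : ∀ z : F, z ∈ v.toValuationSubring → evp (γ g • v) (γ g • z) = g • evp v z := by
    intro z hz
    rw [rational_smul (γ g) hr hz, hG.base]
  have hreg : ∀ z : F, Reg Ω t z → Reg Ω t (γ g⁻¹ • z) := by
    intro z hz u hu
    rw [← ord_smul_inv]
    exact hz _ (by rw [ord_smul_inv, hG.fixt]; exact hu)
  refine ⟨⟨by rw [h1]; exact hv.1, ?_⟩, fun z hz => ?_⟩
  · have h2 := hev t (mem_of_ord_nonneg v hv.1)
    rw [hG.fixt] at h2
    rw [h2]
    exact hI.stab g _ hv.2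
  · have hzW : γ g⁻¹ • (z : F) ∈ W := hG.stab g⁻¹ z z.2
    obtain ⟨hA1, hr1⟩ := hR ⟨γ g⁻¹ • (z : F), hzW⟩ (hreg z hz)
    change evp v (γ g⁻¹ • (z : F)) ∈ A at hA1
    have h3 : evp (γ g • v) (z : F) = g • evp v (γ g⁻¹ • (z : F)) := by
      rw [← hev _ ((hreg z hz).mem hv.1), ← mul_smul, ← map_mul, mul_inv_cancel, map_one, one_smul]
    have hA2 : evp (γ g • v) (z : F) ∈ A := by
      rw [h3]
      exact hI.stab g _ hA1
    refine ⟨hA2, ?_⟩
    rw [hG.triv] at hr1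
    rw [← hr1]
    have h4 := hI.triv g ⟨_, hA1⟩ (hI.stab g _ hA1)
    refine Eq.trans ?_ h4
    congr 1
    exact Subtype.ext h3

theorem IsRed.smul (hG : GoodCrv r γ W ρ t tb) (hG' : GoodCrv r γ W ρ t⁻¹ tb⁻¹) (hI : Inert G r)
    (hred : IsRed r ρ t tb red) (g : G) (v : Place Ω F) : red (γ g • v) = red v := by
  rcases inCh_or (A := A) hG.sep v with hv | hv
  · obtain ⟨h1, h2⟩ := hred.one v hv
    obtain ⟨h3, h4⟩ := redTo_smul hG hI g hv h1
    obtain ⟨h5, h6⟩ := hred.one _ h3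
    exact hG.red_unique h5 h4 h6 h2
  · obtain ⟨h1, h2⟩ := hred.two v hv
    obtain ⟨h3, h4⟩ := redTo_smul hG' hI g hv h1
    obtain ⟨h5, h6⟩ := hred.two _ h3
    exact hG'.red_unique h5 h4 h6 h2

end Smul

section Main

open Fermat.Agent.MZ Fermat.Agent.GC
open Fermat.Agent.LG Fermat.Agent.ModFun Fermat.Agent.Geo Fermat.Agent.Lf
open Fermat.Agent.ESCore (HauptFn haupt2 haupt3 ιC)
open IsLocalRing ModularCurve

/-- The field of algebraic numbers. -/
local notation "Qb" => AlgebraicClosure ℚ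
/-- The absolute Galois group. -/
local notation "GQ" => (AlgebraicClosure ℚ ≃ₐ[ℚ] AlgebraicClosure ℚ)

variable {A : ValuationSubring Qb} {q : ℕ} {p : ℕ} [Fact p.Prime] {κ : ℤ} {N : ℕ} [NeZero N]

set_option maxHeartbeats 1600000 in
/-- Good reduction with respect to both parameters. -/
theorem goodCrv_both (hq : q.Prime) (hA : A.LiesOverPrime q) (hqN : ¬ q ∣ N) (hp : p ∣ N)
    {H : HauptFn p κ} {S : Set ℤ} {k : ℕ} {P : Polynomial ℤ} (hH : HautData H S k P)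
    (hS : ∀ c ∈ S, ∀ c' ∈ S, c ≠ c' →
      IsUnit ((c - c' : ℤ) : A.comap (algebraMap (KI A) Qb))) :
    GoodCrv (residue A) ((galF0 N).comp (A.inertiaSubgroupIn ℚ).subtype) (WV hq hA N) (ρV hq hA N)
      (tF H hp) (tFb H hp A) ∧
    GoodCrv (residue A) ((galF0 N).comp (A.inertiaSubgroupIn ℚ).subtype) (WV hq hA N) (ρV hq hA N)
      (tF H hp)⁻¹ (tFb H hp A)⁻¹ := by
  have hac : IsAlgClosed (ResidueField A) := isAlgClosed_residueA hq hA
  obtain ⟨d, e, h, M, hM⟩ := lift_of_level hq hA hqN hp hH hS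
  have hI := inert_residue hq hA
  set G := A.inertiaSubgroupIn ℚ with hGdef
  set γ : G →* SemilinearAut Qb (F0 Qb N) := (galF0 N).comp G.subtype with hγ
  have hcoe : ∀ (g : G) (x : F0 Qb N), ((γ g • x : F0 Qb N) : LaurentSeries Qb) =
      coeffMap ((MulSemiringAction.toRingEquiv G Qb g : Qb ≃+* Qb) : Qb →+* Qb) x :=
    fun g x => rfl
  have hfix : ∀ (g : G), ∀ x ∈ KI A, g • x = x := fun g x hx => mem_KI.mp hx g g.2
  have hgA : ∀ (g : G) (x : LaurentSeries Qb) (hx : x ∈ gA A),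
      ∃ h : coeffMap ((MulSemiringAction.toRingEquiv G Qb g : Qb ≃+* Qb) : Qb →+* Qb) x ∈ gA A,
        gAR ⟨_, h⟩ = gAR ⟨x, hx⟩ := fun g x hx =>
    coeffMap_mem_gA (σ := MulSemiringAction.toRingEquiv G Qb g) (hI.stab g)
      (fun a => hI.triv g a (hI.stab g a a.2)) hx
  have hfixt : ∀ g : G, γ g • tF H hp = tF H hp := by
    intro g
    apply Subtype.ext
    rw [hcoe, coe_tF]
    exact coeffMap_tS _ p κ
  have hfixt' : ∀ g : G, γ g • (tF H hp)⁻¹ = (tF H hp)⁻¹ := by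
    intro g
    rw [smul_inv'', hfixt]
  have hst := sep_tF (N := N) H hp
  have hstb := sep_tbb h
  have hlift : ∀ n ≥ M, ∀ zb ∈ riemannRochSpace (n • pol (K := ResidueField A) h.tbb),
      ∃ z : W0 A N, (z : F0 Qb N) ∈ riemannRochSpace (n • pol (K := Qb) (tF H hp)) ∧
        h.ρb z = zb ∧ ∀ g : G, γ g • (z : F0 Qb N) = z := by
    intro n hn zb hzb
    obtain ⟨z, hz1, hz2, zL, hzL⟩ := hM n hn zb hzb
    refine ⟨z, hz1, hz2, fun g => ?_⟩
    apply Subtype.ext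
    rw [hcoe, hzL, coe_liftF]
    ext i
    exact hfix g _ ((zL : LaurentSeries (KI A)).coeff i).2
  have hWstab : ∀ (g : G), ∀ z ∈ W0 A N, γ g • z ∈ W0 A N := by
    intro g z hz
    rw [mem_W0, hcoe]
    exact (hgA g _ hz).1
  have hWtriv : ∀ (g : G) (z : W0 A N) (h' : γ g • (z : F0 Qb N) ∈ W0 A N),
      h.ρb ⟨γ g • (z : F0 Qb N), h'⟩ = h.ρb z := by
    intro g z hz
    apply Subtype.ext
    change ρ0 A N _ = ρ0 A N _
    refine Eq.trans ?_ (hgA g _ z.2).2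
    change gAR _ = _
    congr 1
  have h1 := h.red.goodCrv hst hstb ⟨M, hlift⟩ (γ := γ) (fun g a => rfl) hWstab hWtriv hfixt
  have h2 := h.red.inv.goodCrv hst.inv hstb.inv
    (Mzr.lift_inv h.red hst hstb ⟨M, hlift⟩ hfixt) (γ := γ) (fun g a => rfl)
      hWstab hWtriv hfixt'
  have key : ∀ (E : IntermediateField (ResidueField A) (LaurentSeries (ResidueField A)))
      (_ : h.Fb = E) (ρ' : WV hq hA N →+* E) (tb' : E),
      (∀ z : WV hq hA N, ((ρ' z : E) : LaurentSeries (ResidueField A)) =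
        gAR ⟨((z : F0 Qb N) : LaurentSeries Qb), z.2⟩) →
      ((tb' : E) : LaurentSeries (ResidueField A)) = tS (ResidueField A) p κ →
      GoodCrv (residue A) γ (WV hq hA N) ρ' (tF H hp) tb' ∧
        GoodCrv (residue A) γ (WV hq hA N) ρ' (tF H hp)⁻¹ tb'⁻¹ := by
    rintro E rfl ρ' tb' hρ' htb'
    have e1 : ρ' = h.red.ρv := RingHom.ext fun z => Subtype.ext (hρ' z)
    have e2 : tb' = h.tbb := Subtype.ext htb'
    subst e1 e2
    exact ⟨h1, h2⟩
  exact key _ (Fb_eq h) (ρV hq hA N) (tFb H hp A) (fun z => rfl) rfl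

/-- The interface, for any Hauptmodul. -/
theorem exists_red_of (hq : q.Prime) (hA : A.LiesOverPrime q) (hqN : ¬ q ∣ N) (hp : p ∣ N)
    {H : HauptFn p κ} {S : Set ℤ} {k : ℕ} {P : Polynomial ℤ} (hH : HautData H S k P)
    (hS : ∀ c ∈ S, ∀ c' ∈ S, c ≠ c' →
      IsUnit ((c - c' : ℤ) : A.comap (algebraMap (KI A) Qb)))
    (hpow : ∀ m : ℕ, ¬ q ∣ m → RJ.RedPow A N m) :
    ∃ red : Place Qb (F0 Qb N) → Place (ResidueField A) (FbK A N),
      RedMap hq hA (tF H hp) (tFb H hp A) red ∧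
      (∀ σ : GQ, σ ∈ A.inertiaSubgroupIn ℚ → ∀ v, red (galF0 N σ • v) = red v) ∧
      ∀ m : ℕ, ¬ q ∣ m → ∀ D : Divisor Qb (F0 Qb N), Divisor.IsPrincipal (m • D) →
        Finsupp.mapDomain red D = 0 → Divisor.IsPrincipal D := by
  have hac : IsAlgClosed (ResidueField A) := isAlgClosed_residueA hq hA
  have hI := inert_residue hq hA
  obtain ⟨hG, hG'⟩ := goodCrv_both hq hA hqN hp hH hS
  have htW : tF H hp ∈ WV hq hA N := (tS_mem_gA (A := A) (p := p) (κ := κ)).1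
  have htb : ρV hq hA N ⟨tF H hp, htW⟩ = tFb H hp A :=
    Subtype.ext (tS_mem_gA (A := A) (p := p) (κ := κ)).2
  have htW' : (tF H hp)⁻¹ ∈ WV hq hA N := by
    refine hG.runit ⟨_, htW⟩ ?_
    rw [htb]
    exact hG.sepb.ne_zero
  obtain ⟨red, hred⟩ := exists_isRed hG hG' htW htb htW'
  obtain ⟨g, C, hC⟩ := hG.sep.exists_crv
  obtain ⟨gb, Cb, hCb⟩ := hG.sepb.exists_crv
  refine ⟨red, ⟨fun v h1 h2 => ?_, fun v h1 h2 => ?_⟩, fun σ hσ v => ?_, fun m hm D hD hD0 => ?_⟩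
  · obtain ⟨h3, h4⟩ := hred.one v ⟨h1, h2⟩
    exact ⟨h4, h3⟩
  · obtain ⟨h3, h4⟩ := hred.two v ⟨h1, h2⟩
    exact ⟨h4, h3⟩
  · exact hred.smul hG hG' hI ⟨σ, hσ⟩ v
  · have hm0 : m ≠ 0 := by
      rintro rfl
      exact hm (dvd_zero q)
    obtain ⟨f, hf0, hf⟩ := hD
    obtain ⟨c, hc0, hcW, hcρ⟩ := hG.scale f hf0
    obtain ⟨s, s', rfl⟩ := exists_dvs D
    have hord : ∀ v : Place Qb (F0 Qb N), v.ord (algebraMap Qb (F0 Qb N) c * f) =
        (m • (dvs s - dvs s')) v := by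
      intro v
      rw [v.ord_mul ((map_ne_zero _).mpr hc0) hf0, ord_algebraMap, zero_add, hf v]
    have hred0 : dvs (s.map red) = dvs (s'.map red) := by
      rw [dvs_map, dvs_map, ← sub_eq_zero, ← Finsupp.mapDomain_sub]
      exact hD0
    obtain ⟨a, ha⟩ := exists_const_red hG hG' htW htb hC hCb hred (s := m • s) (s' := m • s')
      (f := ⟨_, hcW⟩) hcρ (fun v => by
        rw [dvs_nsmul, dvs_nsmul]
        change v.ord (algebraMap Qb (F0 Qb N) c * f) = _
        rw [hord v, smul_sub, Finsupp.sub_apply])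
      (by rw [Multiset.map_nsmul, Multiset.map_nsmul, dvs_nsmul, dvs_nsmul, hred0])
    obtain ⟨b, hb⟩ := IsAlgClosed.exists_pow_nat_eq a (Nat.pos_of_ne_zero hm0)
    obtain ⟨Fb, -, -, hpw⟩ := hpow m hm
    have ha' : algebraMap (ResidueField A) (LaurentSeries (ResidueField A)) a =
        gAR ⟨((algebraMap Qb (F0 Qb N) c * f : F0 Qb N) : LaurentSeries Qb), hcW⟩ := by
      have := congrArg (fun x : FbK A N => (x : LaurentSeries (ResidueField A))) ha
      exact this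
    obtain ⟨u, hu⟩ := hpw (algebraMap Qb (F0 Qb N) c * f) hcW (fun h0 => hcρ (Subtype.ext h0))
      (fun v => ⟨(dvs s - dvs s') v, by rw [hord v, Finsupp.smul_apply, nsmul_eq_mul]⟩)
      (algebraMap (ResidueField A) _ b) (Fb.algebraMap_mem b)
      (by rw [← ha', ← map_pow, hb])
    have hcf : algebraMap Qb (F0 Qb N) c * f ≠ 0 := mul_ne_zero ((map_ne_zero _).mpr hc0) hf0
    have hu0 : u ≠ 0 := by
      rintro rfl
      rw [zero_pow hm0] at hu
      exact hcf hu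
    refine ⟨u, hu0, fun v => ?_⟩
    have h1 := hord v
    rw [hu, ord_pow, Finsupp.smul_apply, nsmul_eq_mul] at h1
    exact (mul_left_cancel₀ (by exact_mod_cast hm0) h1).symm

/-- **Reduction of places and divisors on `X₀(N)`**, `N` even. -/
theorem exists_red2 (hq : q.Prime) (hA : A.LiesOverPrime q) (hqN : ¬ q ∣ N) (hN : 2 ∣ N) :
    haveI : Fact (Nat.Prime 2) := ⟨Nat.prime_two⟩
    ∃ red : Place Qb (F0 Qb N) → Place (ResidueField A) (FbK A N),
      RedMap hq hA (tF haupt2 hN) (tFb haupt2 hN A) red ∧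
      (∀ σ : GQ, σ ∈ A.inertiaSubgroupIn ℚ → ∀ v, red (galF0 N σ • v) = red v) ∧
      ∀ m : ℕ, ¬ q ∣ m → ∀ D : Divisor Qb (F0 Qb N), Divisor.IsPrincipal (m • D) →
        Finsupp.mapDomain red D = 0 → Divisor.IsPrincipal D :=
  haveI : Fact (Nat.Prime 2) := ⟨Nat.prime_two⟩
  exists_red_of hq hA hqN hN haut2 (haut2_isUnit hq hA fun h => hqN (h ▸ hN))
    fun _ hm => RJ.redPow hq hA hqN (Or.inl hN) hm

/-- **Reduction of places and divisors on `X₀(N)`**, `3 ∣ N`. -/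
theorem exists_red3 (hq : q.Prime) (hA : A.LiesOverPrime q) (hqN : ¬ q ∣ N) (hN : 3 ∣ N) :
    haveI : Fact (Nat.Prime 3) := ⟨Nat.prime_three⟩
    ∃ red : Place Qb (F0 Qb N) → Place (ResidueField A) (FbK A N),
      RedMap hq hA (tF haupt3 hN) (tFb haupt3 hN A) red ∧
      (∀ σ : GQ, σ ∈ A.inertiaSubgroupIn ℚ → ∀ v, red (galF0 N σ • v) = red v) ∧
      ∀ m : ℕ, ¬ q ∣ m → ∀ D : Divisor Qb (F0 Qb N), Divisor.IsPrincipal (m • D) →
        Finsupp.mapDomain red D = 0 → Divisor.IsPrincipal D :=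
  haveI : Fact (Nat.Prime 3) := ⟨Nat.prime_three⟩
  exists_red_of hq hA hqN hN haut3 (haut3_isUnit hq hA fun h => hqN (h ▸ hN))
    fun _ hm => RJ.redPow hq hA hqN (Or.inr hN) hm

end Main

end Fermat.Agent.ER
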