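import Mathlib
import Fermat.Agent.ER.Hk

/-!
# The correspondence on divisors
-/

set_option autoImplicit false
set_option linter.unusedSectionVars false
set_option linter.style.haveILetI false
set_option synthInstance.maxHeartbeats 400000

noncomputable section

namespace Fermat.Agent.ER

open AlgebraicCurve Fermat.Agent.Flat Fermat.Agent.FunField Fermat.Agent.MZ
open Fermat.Agent.LG Fermat.Agent.ModFun Fermat.Agent.WP
open Fermat.Agent.ESCore (ιC)
open ModularCurve (qExpand jqModC coeffMap)
open scoped Classical

/-- The field of algebraic numbers. -/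
local notation "Qb" => AlgebraicClosure ℚ
/-- The absolute Galois group. -/
local notation "GQ" => (AlgebraicClosure ℚ ≃ₐ[ℚ] AlgebraicClosure ℚ)

section Abs

variable {K F F' : Type*} [Field K] [Field F] [Field F'] [Algebra K F] [Algebra K F']
  {φ ψ : F →ₐ[K] F'} {t : F}

theorem isInt_of (hfin : FiniteAlong K φ) : φ.toRingHom.IsIntegral := by
  letI := algebraAlong φ
  haveI : Module.Finite F F' := hfin
  exact fun x => Algebra.IsIntegral.isIntegral (R := F) x

theorem fi_along [CharZero K] [IsAlgClosed K] [HasPrincipalDivisors K F']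
    (hfin : FiniteAlong K φ) (hφ : φ.toRingHom.IsIntegral) (ht : Sep K t) :
    FundamentalIdentityAlong K φ hφ := by
  letI := algebraAlong φ
  haveI := isScalarTower_along φ
  haveI := isIntegral_along φ hφ
  haveI : FiniteDimensional F F' := hfin
  exact fundamentalIdentity ht (sep_map ht)

theorem nf_along [CharZero K] [IsAlgClosed K] [HasPrincipalDivisors K F']
    (hfin : FiniteAlong K φ) (ht : Sep K t) : NormFormulaAlong K φ hfin := by
  letI := algebraAlong φ
  haveI := isScalarTower_along φ
  haveI : FiniteDimensional F F' := hfin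
  exact normFormula ht (sep_map ht)

/-- the pullback of a principal divisor -/
theorem pullback_ord [HasPrincipalDivisors K F'] (hφ : φ.toRingHom.IsIntegral)
    {D : Divisor K F} {f : F} (hD : ∀ v, D v = v.ord f) (w : Place K F') :
    Divisor.pullbackAlong φ hφ D w = w.ord (φ f) := by
  rw [Divisor.pullbackAlong_apply, hD, ← Place.ord_restrictAlong]

/-- the correspondence on principal divisors -/
theorem corr_ord [HasPrincipalDivisors K F'] (hφ : φ.toRingHom.IsIntegral)
    (hψ : ψ.toRingHom.IsIntegral) (hfin : FiniteAlong K ψ) (hN : NormFormulaAlong K ψ hfin)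
    {D : Divisor K F} {f : F} (hf : f ≠ 0) (hD : ∀ v, D v = v.ord f) (v : Place K F) :
    Divisor.correspondence φ ψ hφ hψ D v =
      v.ord (@Algebra.norm F F' _ _ (algebraAlong ψ) (φ f)) := by
  letI := algebraAlong ψ
  haveI := isScalarTower_along ψ
  haveI := isIntegral_along ψ hψ
  haveI : Module.Finite F F' := hfin
  exact hN (φ f) ((map_ne_zero _).mpr hf) (Divisor.pullbackAlong φ hφ D)
    (pullback_ord hφ hD) v

/-- locality of the correspondence -/
theorem corr_local [HasPrincipalDivisors K F'] {hφ : φ.toRingHom.IsIntegral}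
    {hψ : ψ.toRingHom.IsIntegral} {D : Divisor K F} {v : Place K F}
    (h : Divisor.correspondence φ ψ hφ hψ D v ≠ 0) :
    ∃ w : Place K F', w.restrictAlong ψ hψ = v ∧ D (w.restrictAlong φ hφ) ≠ 0 := by
  by_contra hcon
  push Not at hcon
  apply h
  letI := algebraAlong ψ
  haveI := isScalarTower_along ψ
  haveI := isIntegral_along ψ hψ
  change Divisor.pushforward F (Divisor.pullbackAlong φ hφ D) v = 0
  rw [Divisor.pushforward_apply]
  refine Finset.sum_eq_zero fun w _ => ?_
  split_ifs with hw
  · rw [Divisor.pullbackAlong_apply, hcon w hw, mul_zero, zero_mul]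
  · rfl

/-- linear forms on divisors killing the principal divisors -/
theorem eq_zero_of_principal [Infinite K] [HasPrincipalDivisors K F] {g C : ℤ}
    (hC : Crv K F g C) (E : Divisor K F →+ ℤ)
    (hfin : {P | E (Finsupp.single P 1) ≠ 0}.Finite)
    (hE : ∀ D : Divisor K F, D.IsPrincipal → E D = 0) (D : Divisor K F) : E D = 0 := by
  have h1 : ∀ P, E (Finsupp.single P 1) = 0 := by
    intro P
    by_contra hP
    obtain ⟨y, hy0, hy⟩ := exists_ord_eq_on hC hfin.toFinset (fun Q => if Q = P then 1 else 0)
    obtain ⟨D, hD, -⟩ := HasPrincipalDivisors.exists_divisor (K := K) y hy0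
    have h2 : E D = 0 := hE D ⟨y, hy0, hD⟩
    have h3 : E D = D.sum fun Q n => E (Finsupp.single Q n) := by
      conv_lhs => rw [← Finsupp.sum_single D]
      exact map_finsuppSum E D _
    have h4 : ∀ Q (n : ℤ), E (Finsupp.single Q n) = n * E (Finsupp.single Q 1) := by
      intro Q n
      have : (Finsupp.single Q n : Divisor K F) = n • (Finsupp.single Q 1 : Divisor K F) := by
        rw [Finsupp.smul_single, smul_eq_mul, mul_one]
      rw [this, map_zsmul, smul_eq_mul]
    rw [h3, Finsupp.sum] at h2
    have h5 : ∑ Q ∈ D.support, E (Finsupp.single Q (D Q)) = E (Finsupp.single P 1) := by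
      have hPT : P ∈ hfin.toFinset := by
        rw [Set.Finite.mem_toFinset]
        exact hP
      have hDP : D P = 1 := by rw [hD, hy P hPT, if_pos rfl]
      have hPs : P ∈ D.support := by
        rw [Finsupp.mem_support_iff, hDP]
        exact one_ne_zero
      rw [Finset.sum_eq_single_of_mem P hPs, hDP]
      intro Q _ hQ
      rw [h4]
      by_cases hQT : Q ∈ hfin.toFinset
      · rw [hD, hy Q hQT, if_neg hQ, zero_mul]
      · have : E (Finsupp.single Q 1) = 0 := by
          by_contra h
          apply hQT
          rw [Set.Finite.mem_toFinset]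
          exact h
        rw [this, mul_zero]
    exact hP (h5.symm.trans h2)
  have h2 : E = 0 := by
    apply Finsupp.addHom_ext
    intro P n
    have : (Finsupp.single P n : Divisor K F) = n • (Finsupp.single P 1 : Divisor K F) := by
      rw [Finsupp.smul_single, smul_eq_mul, mul_one]
    rw [this, map_zsmul, h1, smul_zero]
    rfl
  rw [h2]
  rfl

end Abs

/-! ### The inputs -/

instance hpd (M : ℕ) [NeZero M] : HasPrincipalDivisors Qb (F0 Qb M) :=
  haveI := (sep_F0 M).fd
  hasPrincipalDivisors (sep_F0 M).trans

section TD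

variable {N l : ℕ} [NeZero N] [NeZero l] (hl : l.Prime) (hlN : ¬ l ∣ N)

include hl hlN

theorem finA_al : FiniteAlong Qb (al N l) := (fin_al hl hlN).1

theorem finA_be : FiniteAlong Qb (be N l) := (fin_be hl hlN).1

theorem hal : (al N l).toRingHom.IsIntegral := isInt_of (finA_al hl hlN)

theorem hbe : (be N l).toRingHom.IsIntegral := isInt_of (finA_be hl hlN)

/-- the Hecke correspondence -/
def TD : Divisor Qb (F0 Qb N) →+ Divisor Qb (F0 Qb N) :=
  Divisor.correspondence (be N l) (al N l) (hbe hl hlN) (hal hl hlN)

theorem TD_ord {D : Divisor Qb (F0 Qb N)} {f : F0 Qb N} (hf : f ≠ 0) (hD : ∀ v, D v = v.ord f)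
    (v : Place Qb (F0 Qb N)) : TD hl hlN D v = v.ord (TF N hl hlN f) := by
  rw [← norm_al hl hlN]
  exact corr_ord (hbe hl hlN) (hal hl hlN) (finA_al hl hlN)
    (nf_along (finA_al hl hlN) (sep_F0 N)) hf hD v

end TD

end Fermat.Agent.ER
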