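import Mathlib
import Fermat.Agent.ER.Inp

/-!
# Base change of the Hecke correspondence along a degeneracy map
-/

set_option autoImplicit false
set_option linter.unusedSectionVars false
set_option linter.style.haveILetI false
set_option synthInstance.maxHeartbeats 400000

noncomputable section

namespace Fermat.Agent.ER

open AlgebraicCurve Fermat.Agent.Flat Fermat.Agent.FunField Fermat.Agent.MZ
open Fermat.Agent.LG Fermat.Agent.ModFun Fermat.Agent.WP
open Fermat.Agent.ESCore (ιC)
open ModularCurve (qExpand jqModC coeffMap)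
open scoped Classical Pointwise

/-- The field of algebraic numbers. -/
local notation "Qb" => AlgebraicClosure ℚ
/-- The absolute Galois group. -/
local notation "GQ" => (AlgebraicClosure ℚ ≃ₐ[ℚ] AlgebraicClosure ℚ)

section Eqv

variable {K F F' : Type*} [Field K] [Field F] [Field F'] [Algebra K F] [Algebra K F']
  {φ : F →ₐ[K] F'} (hφ : φ.toRingHom.IsIntegral) {g : SemilinearAut K F}
  {g' : SemilinearAut K F'} (h : ∀ x, g' • φ x = φ (g • x))

theorem mem_restrictAlong (w : Place K F') (x : F) :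
    x ∈ (w.restrictAlong φ hφ).toValuationSubring ↔ φ x ∈ w.toValuationSubring := Iff.rfl

include h in
theorem restrictAlong_smul (w : Place K F') :
    (g' • w).restrictAlong φ hφ = g • (w.restrictAlong φ hφ) := by
  apply Place.ext
  ext x
  rw [mem_restrictAlong, SemilinearAut.smul_toValuationSubring,
    SemilinearAut.smul_toValuationSubring, ValuationSubring.mem_pointwise_smul_iff_inv_smul_mem,
    ValuationSubring.mem_pointwise_smul_iff_inv_smul_mem, mem_restrictAlong]
  have h1 : g'⁻¹ • φ x = φ (g⁻¹ • x) := by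
    have h2 := h (g⁻¹ • x)
    rw [smul_inv_smul] at h2
    rw [← h2, inv_smul_smul]
  rw [h1]

include hφ h in
theorem ram_smul (w : Place K F') : Place.ramificationIndexAlong φ (g' • w) =
    Place.ramificationIndexAlong φ w := by
  obtain ⟨f, -, hf⟩ := exists_ord_eq (w.restrictAlong φ hφ) 1
  have h1 := Place.ord_restrictAlong φ hφ w f
  have h2 := Place.ord_restrictAlong φ hφ (g' • w) (g • f)
  rw [restrictAlong_smul hφ h, SemilinearAut.ord_smul, ← h, SemilinearAut.ord_smul, h1, hf] at h2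
  have h3 := h2
  simp only [mul_one] at h3
  exact_mod_cast h3.symm

include h in
theorem pullbackAlong_smul [HasPrincipalDivisors K F'] (D : Divisor K F) :
    Divisor.pullbackAlong φ hφ (g • D) = g' • Divisor.pullbackAlong φ hφ D := by
  ext w
  rw [Divisor.pullbackAlong_apply, SemilinearAut.divisor_smul_apply,
    SemilinearAut.divisor_smul_apply, Divisor.pullbackAlong_apply]
  have h1 : ∀ x, g'⁻¹ • φ x = φ (g⁻¹ • x) := by
    intro x
    have h2 := h (g⁻¹ • x)
    rw [smul_inv_smul] at h2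
    rw [← h2, inv_smul_smul]
  rw [restrictAlong_smul hφ h1, ram_smul hφ h1]

end Eqv

section Ser

variable {R : Type*} [CommRing R]

theorem twist_qExpand' (r : ℕ) [NeZero r] (u : Rˣ) (x : LaurentSeries R) :
    twist u (qExpand R r x) = qExpand R r (twist (u ^ r) x) := by
  ext n
  rw [twist_coeff]
  by_cases hn : (r : ℤ) ∣ n
  · obtain ⟨k, rfl⟩ := hn
    rw [ModularCurve.qExpand_coeff_mul, ModularCurve.qExpand_coeff_mul, twist_coeff, zpow_mul,
      zpow_natCast]
  · rw [ModularCurve.qExpand_coeff_of_not_dvd r _ hn, ModularCurve.qExpand_coeff_of_not_dvd r _ hn,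
      mul_zero]

theorem qExpand_comm (r l : ℕ) [NeZero r] [NeZero l] (x : LaurentSeries R) :
    qExpand R l (qExpand R r x) = qExpand R r (qExpand R l x) := by
  rw [ModularCurve.qExpand_qExpand, ModularCurve.qExpand_qExpand]
  exact ModularCurve.qExpand_congr (mul_comm l r) x

variable {L : Type*} [Field L] {l r : ℕ} [NeZero l] [NeZero r] {ζ : Lˣ}

theorem uN_qExpand (hζ : IsPrimitiveRoot ζ l) (hlr : r.Coprime l) (x : LaurentSeries L) :
    uN l ζ (qExpand L r x) = qExpand L r (uN l ζ x) := by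
  have hζ' := hζ.pow_of_coprime r hlr
  rw [← uN_indep hζ hζ' x]
  apply ModularCurve.qExpand_injective l
  rw [qExpand_uN hζ, qExpand_comm, qExpand_uN hζ', twN, twN, map_prod]
  refine Finset.prod_congr rfl fun j _ => ?_
  rw [twist_qExpand', ← pow_mul, ← pow_mul, mul_comm]

theorem tN_qExpand (hζ : IsPrimitiveRoot ζ l) (hlr : r.Coprime l) (x : LaurentSeries L) :
    tN l ζ (qExpand L r x) = qExpand L r (tN l ζ x) := by
  rw [tN, tN, map_mul, uN_qExpand hζ hlr, qExpand_comm]

end Ser

section Bc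

variable {N l r : ℕ} [NeZero N] [NeZero l] [NeZero r] (hl : l.Prime) (hlN : ¬ l ∣ N)
  (hlM : ¬ l ∣ N * r) (hr : r.Prime) (hrN : ¬ r ∣ N)

include hl hlM in
theorem cop_of : r.Coprime l :=
  Nat.Coprime.symm ((Nat.Prime.coprime_iff_not_dvd hl).mpr fun h => hlM (Dvd.dvd.mul_left h N))

theorem be_TF (x : F0 Qb N) : be N r (TF N hl hlN x) = TF (N * r) hl hlM (be N r x) := by
  apply Subtype.ext
  rw [coe_be, coe_TF, coe_TF, coe_be, tN_qExpand (zl_spec l) (cop_of hl hlM)]

include hr hrN in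
/-- **Base change** of the correspondence. -/
theorem TD_be (D : Divisor Qb (F0 Qb N)) :
    Divisor.pullbackAlong (be N r) (hbe hr hrN) (TD hl hlN D) =
      TD hl hlM (Divisor.pullbackAlong (be N r) (hbe hr hrN) D) := by
  obtain ⟨g, C, hC⟩ := (sep_F0 N).exists_crv
  ext Q
  let E₁ : Divisor Qb (F0 Qb N) →+ ℤ := (Finsupp.applyAddHom Q).comp
    ((Divisor.pullbackAlong (be N r) (hbe hr hrN)).comp (TD hl hlN))
  let E₂ : Divisor Qb (F0 Qb N) →+ ℤ := (Finsupp.applyAddHom Q).comp
    ((TD hl hlM).comp (Divisor.pullbackAlong (be N r) (hbe hr hrN)))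
  have hE₁ : ∀ D, E₁ D = Divisor.pullbackAlong (be N r) (hbe hr hrN) (TD hl hlN D) Q :=
    fun D => rfl
  have hE₂ : ∀ D, E₂ D = TD hl hlM (Divisor.pullbackAlong (be N r) (hbe hr hrN) D) Q :=
    fun D => rfl
  have key := eq_zero_of_principal hC (E₁ - E₂) ?_ ?_ D
  · rw [AddMonoidHom.sub_apply, sub_eq_zero] at key
    exact key
  · have hne : ∀ {P P' : Place Qb (F0 Qb N)}, (Finsupp.single P 1 : Divisor Qb (F0 Qb N)) P' ≠ 0 →
        P' = P := by
      intro P P' h
      by_contra h2
      exact h (Finsupp.single_eq_of_ne h2)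
    refine Set.Finite.subset (Set.Finite.union
      (((Place.fiberAlong (al N l) (hal hl hlN) (Q.restrictAlong (be N r) (hbe hr hrN))).image
        fun w => w.restrictAlong (be N l) (hbe hl hlN)).finite_toSet)
      (((Place.fiberAlong (al (N * r) l) (hal hl hlM) Q).image
        fun w => (w.restrictAlong (be (N * r) l) (hbe hl hlM)).restrictAlong (be N r)
          (hbe hr hrN)).finite_toSet)) ?_
    intro P hP
    rw [Set.mem_ofPred_eq, AddMonoidHom.sub_apply] at hP
    by_cases h1 : E₁ (Finsupp.single P 1) = 0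
    · right
      rw [h1, zero_sub, neg_ne_zero, hE₂] at hP
      obtain ⟨w, hw1, hw2⟩ := corr_local hP
      rw [Divisor.pullbackAlong_apply] at hw2
      have hw3 := hne (right_ne_zero_of_mul hw2)
      rw [Finset.mem_coe, Finset.mem_image]
      exact ⟨w, Place.mem_fiberAlong.mpr hw1, hw3⟩
    · left
      rw [hE₁, Divisor.pullbackAlong_apply] at h1
      obtain ⟨w, hw1, hw2⟩ := corr_local (right_ne_zero_of_mul h1)
      rw [Finset.mem_coe, Finset.mem_image]
      exact ⟨w, Place.mem_fiberAlong.mpr hw1, hne hw2⟩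
  · rintro D ⟨f, hf, hD⟩
    have hbf : be N r f ≠ 0 := (map_ne_zero _).mpr hf
    rw [AddMonoidHom.sub_apply, sub_eq_zero, hE₁, hE₂,
      TD_ord hl hlM hbf (fun v => pullback_ord _ hD v),
      pullback_ord _ (fun v => TD_ord hl hlN hf hD v), be_TF hl hlN hlM]

theorem root_descend (hr : r.Prime) {m : ℕ} (hm : m ≠ 0) {h : F0 Qb N} (hh : h ≠ 0)
    (hdvd : ∀ v : Place Qb (F0 Qb N), (m : ℤ) ∣ v.ord h) {u : F0 Qb (N * r)}
    (hu : be N r h = u ^ m) : ∃ u₀ : F0 Qb N, h = u₀ ^ m := by
  have hinj := sel_dg2_injective r N hr hm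
  have hmem : (u : LaurentSeries Qb) ∈ F0 Qb (r * N) :=
    F0_mono (K := Qb) (dvd_of_eq (mul_comm N r)) u.2
  let f₀ : SelZ Qb (F0 Qb N) m := ⟨Units.mk0 h hh, hdvd⟩
  have h0 : Sel.map (dg2 r N) (dg2_algebraMap r N) m (Sel.mk f₀) = 0 := by
    rw [Sel.map_mk, Sel.mk_eq_zero]
    refine ⟨⟨u, hmem⟩, ?_, ?_⟩
    · intro h0
      have h2 : (u : LaurentSeries Qb) = 0 :=
        congrArg (fun z : F0 Qb (r * N) => (z : LaurentSeries Qb)) h0
      have h1 : u = 0 := Subtype.ext h2
      rw [h1, zero_pow hm] at hu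
      exact hh ((map_eq_zero _).mp hu)
    · apply Subtype.ext
      change ((dg2 r N h : F0 Qb (r * N)) : LaurentSeries Qb) = (u : LaurentSeries Qb) ^ m
      rw [coe_dg2, ← coe_be, hu]
      rfl
  have h1 : Sel.mk f₀ = 0 := hinj (by rw [h0, map_zero])
  obtain ⟨u₀, -, hu₀⟩ := Sel.mk_eq_zero.mp h1
  exact ⟨u₀, hu₀⟩

end Bc

end Fermat.Agent.ER
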