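import Mathlib
import Fermat.Agent.ER.Inp

/-!
# Values of the multiplicative Hecke operator
-/

set_option autoImplicit false
set_option linter.unusedSectionVars false
set_option linter.style.haveILetI false
set_option synthInstance.maxHeartbeats 400000

noncomputable section

namespace Fermat.Agent.ER

open AlgebraicCurve Fermat.Agent.Flat Fermat.Agent.FunField Fermat.Agent.MZ
open Fermat.Agent.LG Fermat.Agent.ModFun Fermat.Agent.WP
open Fermat.Agent.ESCore (ιC)
open ModularCurve (qExpand jqModC coeffMap)
open scoped Classical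

/-- The field of algebraic numbers. -/
local notation "Qb" => AlgebraicClosure ℚ
/-- The absolute Galois group. -/
local notation "GQ" => (AlgebraicClosure ℚ ≃ₐ[ℚ] AlgebraicClosure ℚ)

section Abs

variable {K F F' : Type*} [Field K] [Field F] [Field F'] [Algebra K F] [Algebra K F']
  {φ ψ : F →ₐ[K] F'} {t : F}

/-- values and restriction of places -/
theorem evp_restrictAlong (hφ : φ.toRingHom.IsIntegral) {w : Place K F'}
    (hv : Rational (w.restrictAlong φ hφ)) {z : F}
    (hz : z ∈ (w.restrictAlong φ hφ).toValuationSubring) :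
    evp w (φ z) = evp (w.restrictAlong φ hφ) z := by
  apply evp_unique
  have h1 := evp_spec hv hz
  set a := evp (w.restrictAlong φ hφ) z
  have h2 : φ z - algebraMap K F' a = φ (z - algebraMap K F a) := by
    rw [map_sub, AlgHom.commutes]
  rw [h2, adicValuation_lt_one_iff]
  rw [adicValuation_lt_one_iff] at h1
  rcases h1 with h1 | h1
  · left
    rw [h1, map_zero]
  · right
    rw [Place.ord_restrictAlong φ hφ]
    have h3 : (0 : ℤ) < Place.ramificationIndexAlong φ w := by
      letI := algebraAlong φ
      haveI := isScalarTower_along φ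
      haveI := isIntegral_along φ hφ
      have : 0 < w.ramificationIndex F := w.ramificationIndex_pos
      exact_mod_cast this
    positivity

theorem inertiaDegAlong_one [CharZero K] [IsAlgClosed K] [HasPrincipalDivisors K F']
    (hfin : FiniteAlong K φ) (hφ : φ.toRingHom.IsIntegral) (ht : Sep K t) (w : Place K F') :
    w.inertiaDegAlong φ hφ = 1 := by
  letI := algebraAlong φ
  haveI := isScalarTower_along φ
  haveI := isIntegral_along φ hφ
  haveI : FiniteDimensional F F' := hfin
  exact inertiaDeg_one ht (sep_map ht) w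

theorem evp_norm_along [CharZero K] [IsAlgClosed K] [HasPrincipalDivisors K F']
    (hfin : FiniteAlong K φ) (hφ : φ.toRingHom.IsIntegral) (ht : Sep K t) (v : Place K F) {y : F'}
    (hy : ∀ w ∈ Place.fiberAlong φ hφ v, y ∈ w.toValuationSubring) :
    @Algebra.norm F F' _ _ (algebraAlong φ) y ∈ v.toValuationSubring ∧
      evp v (@Algebra.norm F F' _ _ (algebraAlong φ) y) =
        ∏ w ∈ Place.fiberAlong φ hφ v, evp w y ^ w.ramificationIndexAlong φ := by
  letI := algebraAlong φ
  haveI := isScalarTower_along φ
  haveI := isIntegral_along φ hφ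
  haveI : FiniteDimensional F F' := hfin
  exact evp_norm ht (sep_map ht) v hy

end Abs

/-- a product over a sum of point masses -/
theorem prod_sum_single {ι X R : Type*} [CommMonoid R] (s : Finset ι) (x : ι → X) (n : ι → ℕ)
    (f : X → R) : (∑ i ∈ s, Finsupp.single (x i) (n i)).prod (fun P m => f P ^ m) =
      ∏ i ∈ s, f (x i) ^ n i := by
  rw [← Finsupp.prod_finsetSum_index (fun _ => pow_zero _) (fun _ _ _ => pow_add _ _ _)]
  refine Finset.prod_congr rfl fun i _ => ?_
  exact Finsupp.prod_single_index (h := fun P m => f P ^ m) (pow_zero _)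

section TD

variable {N l : ℕ} [NeZero N] [NeZero l] (hl : l.Prime) (hlN : ¬ l ∣ N)

include hl hlN in
/-- (E3) the correspondence on a point -/
theorem corr_single (hα : (al N l).toRingHom.IsIntegral) (hβ : (be N l).toRingHom.IsIntegral)
    (S : Place Qb (F0 Qb N)) :
    Divisor.correspondence (be N l) (al N l) hβ hα (Finsupp.single S 1) =
      ∑ w ∈ Place.fiberAlong (be N l) hβ S, Finsupp.single (w.restrictAlong (al N l) hα)
        ((w.ramificationIndexAlong (be N l) : ℕ) : ℤ) := by
  rw [Divisor.correspondence_apply, Divisor.pullbackAlong_single, map_sum]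
  refine Finset.sum_congr rfl fun w _ => ?_
  rw [Divisor.pushforwardAlong_single, inertiaDegAlong_one (finA_al hl hlN) hα (sep_F0 N),
    Nat.cast_one, mul_one, one_mul]

/-- (E2) the value of `TF z` -/
theorem evp_TF (hα : (al N l).toRingHom.IsIntegral) (hβ : (be N l).toRingHom.IsIntegral)
    (S : Place Qb (F0 Qb N)) {z : F0 Qb N}
    (hz : ∀ w ∈ Place.fiberAlong (be N l) hβ S, 0 ≤ (w.restrictAlong (al N l) hα).ord z) :
    TF N hl hlN z ∈ S.toValuationSubring ∧
      evp S (TF N hl hlN z) = ∏ w ∈ Place.fiberAlong (be N l) hβ S,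
        evp (w.restrictAlong (al N l) hα) z ^ w.ramificationIndexAlong (be N l) := by
  have h1 := evp_norm_along (finA_be hl hlN) hβ (sep_F0 N) S (y := al N l z) fun w hw => by
    change z ∈ (w.restrictAlong (al N l) hα).toValuationSubring
    exact mem_of_ord_nonneg _ (hz w hw)
  rw [norm_be hl hlN] at h1
  refine ⟨h1.1, h1.2.trans (Finset.prod_congr rfl fun w hw => ?_)⟩
  rw [evp_restrictAlong hα ((sep_F0 N).rational _) (mem_of_ord_nonneg _ (hz w hw))]

/-- the order of `TF z` -/
theorem ord_TF (hα : (al N l).toRingHom.IsIntegral) (hβ : (be N l).toRingHom.IsIntegral)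
    (S : Place Qb (F0 Qb N)) {z : F0 Qb N} (hz : z ≠ 0) :
    S.ord (TF N hl hlN z) = ∑ w ∈ Place.fiberAlong (be N l) hβ S, w.ord (al N l z) := by
  rw [← norm_be hl hlN]
  letI := algebraAlong (be N l)
  haveI := isScalarTower_along (be N l)
  haveI := isIntegral_along (be N l) hβ
  haveI : FiniteDimensional (F0 Qb N) (F0 Qb (N * l)) := finA_be hl hlN
  exact ord_norm (sep_F0 N) (sep_map (sep_F0 N)) S ((map_ne_zero _).mpr hz)

include hl hlN in
/-- (E3) the correspondence on a point, in terms of the fibre -/
theorem corr_single' (hα : (al N l).toRingHom.IsIntegral) (hβ : (be N l).toRingHom.IsIntegral)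
    (S : Place Qb (F0 Qb N)) :
    letI := algebraAlong (be N l)
    haveI := isScalarTower_along (be N l)
    haveI := isIntegral_along (be N l) hβ
    Divisor.correspondence (be N l) (al N l) hβ hα (Finsupp.single S 1) =
      ∑ w ∈ Place.fiber (F0 Qb (N * l)) S, Finsupp.single (w.restrictAlong (al N l) hα)
        ((ei (F0 Qb N) w : ℕ) : ℤ) := corr_single hl hlN hα hβ S

/-- (E2) the value of `TF z`, in terms of the fibre -/
theorem evp_TF' (hα : (al N l).toRingHom.IsIntegral) (hβ : (be N l).toRingHom.IsIntegral)
    (S : Place Qb (F0 Qb N)) {z : F0 Qb N} :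
    letI := algebraAlong (be N l)
    haveI := isScalarTower_along (be N l)
    haveI := isIntegral_along (be N l) hβ
    (∀ w ∈ Place.fiber (F0 Qb (N * l)) S, 0 ≤ (w.restrictAlong (al N l) hα).ord z) →
    TF N hl hlN z ∈ S.toValuationSubring ∧
      evp S (TF N hl hlN z) = ∏ w ∈ Place.fiber (F0 Qb (N * l)) S,
        evp (w.restrictAlong (al N l) hα) z ^ ei (F0 Qb N) w :=
  evp_TF hl hlN hα hβ S

end TD

end Fermat.Agent.ER
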