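import Mathlib
import Fermat.Agent.ER.RedDef
import Fermat.Agent.MZ.HRed
import Fermat.Agent.MZ.Frob

/-!
# The multiplicative Hecke operator in the residue characteristic
-/

set_option autoImplicit false
set_option linter.unusedSectionVars false
set_option synthInstance.maxHeartbeats 400000

noncomputable section

namespace Fermat.Agent.ER

open AlgebraicCurve Fermat.Agent.Flat Fermat.Agent.FunField Fermat.Agent.MZ Fermat.Agent.GC
open Fermat.Agent.LG Fermat.Agent.ModFun Fermat.Agent.WP Fermat.Agent.Lf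
open Fermat.Agent.ESCore (ιC)
open IsLocalRing ModularCurve

/-- The field of algebraic numbers. -/
local notation "Qb" => AlgebraicClosure ℚ
/-- The absolute Galois group. -/
local notation "GQ" => (AlgebraicClosure ℚ ≃ₐ[ℚ] AlgebraicClosure ℚ)

variable {A : ValuationSubring Qb} {l : ℕ} {M : ℕ} [NeZero M]

section Ser

variable {κ : Type*} [Field κ] (l) [NeZero l]

theorem twN_one_unit (x : LaurentSeries κ) : twN l (1 : κˣ) x = x ^ l := by
  rw [twN]
  have h1 : ∀ j : Fin l, twist ((1 : κˣ) ^ (j : ℕ)) x = x := fun j => by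
    rw [one_pow, twist_one']
  rw [Finset.prod_congr rfl fun j _ => h1 j, Finset.prod_const, Finset.card_univ,
    Fintype.card_fin]

theorem uN_one_unit [ExpChar κ l] (x : LaurentSeries κ) :
    uN l (1 : κˣ) x = coeffMap (frobenius κ l) x := by
  rw [uN, twN_one_unit, pow_eq_qExpand, contr_qExpand]

theorem tN_one_unit [ExpChar κ l] (x : LaurentSeries κ) :
    tN l (1 : κˣ) x = qExpand κ l x * coeffMap (frobenius κ l) x := by
  rw [tN, uN_one_unit]

end Ser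

section Gauss

/-- the primitive root of unity as a unit of `A` -/
theorem exists_zA [NeZero l] (hl : l.Prime) (hA : A.LiesOverPrime l) :
    ∃ ζ : Aˣ, zQ ζ = zl l ∧ zK ζ = 1 := by
  have h1 : ((zl l : Qbˣ) : Qb) ^ l = 1 := by
    have := (zl_spec l).pow_eq_one
    rw [← Units.val_pow_eq_pow_val, this, Units.val_one]
  have hA1 : ((zl l : Qbˣ) : Qb) ∈ A := by
    rcases A.mem_or_inv_mem ((zl l : Qbˣ) : Qb) with h | h
    · exact h
    · have h2 : ((zl l : Qbˣ) : Qb) = (((zl l : Qbˣ) : Qb)⁻¹) ^ (l - 1) := by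
        have hl1 : 1 ≤ l := hl.one_lt.le
        have h3 : ((zl l : Qbˣ) : Qb) * ((zl l : Qbˣ) : Qb) ^ (l - 1) = 1 := by
          rw [← pow_succ', Nat.sub_add_cancel hl1, h1]
        rw [inv_pow]
        exact eq_inv_of_mul_eq_one_left h3
      rw [h2]
      exact pow_mem h _
  let z : A := ⟨_, hA1⟩
  have hz : z ^ l = 1 := Subtype.ext h1
  let ζ : Aˣ := Units.ofPowEqOne z l hz hl.ne_zero
  have hζz : (ζ : A) = z := rfl
  refine ⟨ζ, Units.ext rfl, ?_⟩
  haveI : CharP (ResidueField A) l := FrobDensity.charP_residue hl hA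
  haveI : Fact l.Prime := ⟨hl⟩
  haveI : ExpChar (ResidueField A) l := ExpChar.prime hl
  apply Units.ext
  have h3 : (residue A z) ^ l = 1 := by rw [← map_pow, hz, map_one]
  have h4 : frobenius (ResidueField A) l (residue A z) = frobenius (ResidueField A) l 1 := by
    rw [frobenius_def, h3, map_one]
  exact (frobenius_inj (ResidueField A) l) h4

/-- **The multiplicative Hecke operator in the residue characteristic.** -/
theorem tN_gA_l [NeZero l] (hl : l.Prime) (hA : A.LiesOverPrime l) [ExpChar (ResidueField A) l]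
    {x : LaurentSeries Qb} (hx : x ∈ gA A) :
    ∃ h : tN l (zl l) x ∈ gA A, gAR ⟨_, h⟩ = qExpand (ResidueField A) l (gAR ⟨x, hx⟩) *
      coeffMap (frobenius (ResidueField A) l) (gAR ⟨x, hx⟩) := by
  obtain ⟨ζ, hζ, hζ1⟩ := exists_zA (A := A) hl hA
  obtain ⟨a, b, hb, hab⟩ := hx
  have hinj : Function.Injective (coeffMap (frobenius (ResidueField A) l)) :=
    coeffMap_injective' (frobenius_inj (ResidueField A) l)
  have hb' : lK A (tA l ζ b) ≠ 0 := by
    rw [lK_tA, hζ1, tN_one_unit]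
    exact mul_ne_zero ((map_ne_zero_iff _ (qExpand_injective l)).mpr hb)
      ((map_ne_zero_iff _ hinj).mpr hb)
  have h' : lA A (tA l ζ b) * tN l (zl l) x = lA A (tA l ζ a) := by
    rw [lA_tA, lA_tA, hζ, ← tN_mul (zl_spec l), hab]
  refine ⟨⟨_, _, hb', h'⟩, ?_⟩
  rw [gAR_eq (x := ⟨_, ⟨_, _, hb', h'⟩⟩) hb' h', gAR_eq (x := ⟨x, ⟨a, b, hb, hab⟩⟩) hb hab,
    lK_tA, lK_tA, hζ1, tN_one_unit, tN_one_unit, map_div₀, map_div₀, div_mul_div_comm]

/-- reduction and Frobenius -/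
theorem gal_gA {φ : GQ} (hφ : A.IsFrobeniusAt φ l) [ExpChar (ResidueField A) l]
    {y : LaurentSeries Qb} (hy : y ∈ gA A) :
    ∃ h : coeffMap ((φ.toRingEquiv : Qb ≃+* Qb) : Qb →+* Qb) y ∈ gA A,
      gAR ⟨_, h⟩ = coeffMap (frobenius (ResidueField A) l) (gAR ⟨y, hy⟩) := by
  obtain ⟨hz, h1⟩ := gAR_semi (φ : Qb ≃+* Qb) (mem_iff_of_frob hφ) hy
  refine ⟨hz, h1.trans ?_⟩
  congr 1
  congr 1
  ext a
  rw [frobenius_def]
  exact sA_frob hφ a

theorem gal_inv_gA {φ : GQ} (hφ : A.IsFrobeniusAt φ l)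
    {y : LaurentSeries Qb} (hy : y ∈ gA A) :
    coeffMap (((φ⁻¹ : GQ).toRingEquiv : Qb ≃+* Qb) : Qb →+* Qb) y ∈ gA A := by
  obtain ⟨hz, -⟩ := gAR_semi (A' := A) ((φ⁻¹ : GQ) : Qb ≃+* Qb) (fun a => by
    have h1 := mem_iff_of_frob hφ ((φ⁻¹ : GQ) a)
    have h2 : (φ : Qb ≃+* Qb) ((φ⁻¹ : GQ) a) = a := by
      change φ (φ⁻¹ a) = a
      rw [← AlgEquiv.mul_apply, mul_inv_cancel]
      rfl
    rw [h2] at h1
    exact h1.symm) hy
  exact hz

end Gauss

section W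

variable (hl : l.Prime) (hA : A.LiesOverPrime l)

theorem gal_WV {φ : GQ} (hφ : A.IsFrobeniusAt φ l) [ExpChar (ResidueField A) l]
    (z : WV hl hA M) : ∃ h : galF0 M φ • (z : F0 Qb M) ∈ WV hl hA M,
      (ρV hl hA M ⟨_, h⟩ : LaurentSeries (ResidueField A)) =
        coeffMap (frobenius (ResidueField A) l) (ρV hl hA M z) := by
  obtain ⟨h1, h2⟩ := gal_gA hφ ((mem_WV hl hA M).mp z.2)
  exact ⟨h1, h2⟩

theorem gal_inv_WV {φ : GQ} (hφ : A.IsFrobeniusAt φ l) [ExpChar (ResidueField A) l]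
    (z : WV hl hA M) : ∃ h : galF0 M φ⁻¹ • (z : F0 Qb M) ∈ WV hl hA M,
      coeffMap (frobenius (ResidueField A) l)
        (ρV hl hA M ⟨_, h⟩ : LaurentSeries (ResidueField A)) = ρV hl hA M z := by
  have h1 : galF0 M φ⁻¹ • (z : F0 Qb M) ∈ WV hl hA M := gal_inv_gA hφ ((mem_WV hl hA M).mp z.2)
  refine ⟨h1, ?_⟩
  obtain ⟨h2, h3⟩ := gal_WV hl hA hφ (⟨_, h1⟩ : WV hl hA M)
  rw [← h3]
  have e : (⟨_, h2⟩ : WV hl hA M) = z := Subtype.ext (by
    change galF0 M φ • (galF0 M φ⁻¹ • (z : F0 Qb M)) = z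
    rw [smul_smul, ← map_mul, mul_inv_cancel, map_one, one_smul])
  rw [e]

/-- **the congruence of Eichler and Shimura** on functions -/
theorem ρV_TF [NeZero l] (hlM : ¬ l ∣ M) {φ : GQ} (hφ : A.IsFrobeniusAt φ l)
    [ExpChar (ResidueField A) l] (z : WV hl hA M)
    (h1 : galF0 M φ • (z : F0 Qb M) ∈ WV hl hA M)
    (h2 : galF0 M φ⁻¹ • (z : F0 Qb M) ∈ WV hl hA M) :
    ∃ h : TF M hl hlM (z : F0 Qb M) ∈ WV hl hA M,
      ρV hl hA M ⟨_, h⟩ = ρV hl hA M ⟨_, h2⟩ ^ l * ρV hl hA M ⟨_, h1⟩ := by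
  obtain ⟨h3, h4⟩ := tN_gA_l hl hA ((mem_WV hl hA M).mp z.2)
  refine ⟨h3, Subtype.ext ?_⟩
  refine h4.trans ?_
  obtain ⟨h1', h5⟩ := gal_WV hl hA hφ z
  obtain ⟨h2', h6⟩ := gal_inv_WV hl hA hφ z
  push_cast
  rw [h5, pow_eq_qExpand l (ρV hl hA M ⟨_, h2⟩ : LaurentSeries (ResidueField A)), h6]
  rfl

end W

end Fermat.Agent.ER
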