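import Mathlib
import Fermat.Agent.ER.ESa

/-!
# The norm of `T - c` is an integral polynomial in `T`
-/

set_option autoImplicit false
set_option linter.unusedSectionVars false
set_option synthInstance.maxHeartbeats 400000

noncomputable section

namespace Fermat.Agent.ER

open AlgebraicCurve Fermat.Agent.Flat Fermat.Agent.FunField Fermat.Agent.MZ Fermat.Agent.GC
open Fermat.Agent.LG Fermat.Agent.ModFun Fermat.Agent.WP Fermat.Agent.Lf Fermat.Agent.Eis16
open Fermat.Agent.ESCore Fermat.Agent.ESCore.Gal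
open IsLocalRing ModularCurve UpperHalfPlane
open CongruenceSubgroup (Gamma0)
open scoped MatrixGroups

/-- The field of algebraic numbers. -/
local notation "Qb" => AlgebraicClosure ℚ
/-- The absolute Galois group. -/
local notation "GQ" => (AlgebraicClosure ℚ ≃ₐ[ℚ] AlgebraicClosure ℚ)

variable {A : ValuationSubring Qb} {l : ℕ} [NeZero l] {p : ℕ} [Fact p.Prime] {κ : ℤ}

theorem tI_MB (H : HauptFn p κ) : tI H ∈ MB := by
  obtain ⟨f, hf, hf', hfy⟩ := (xSer_one_iff (ι := ιC) (N := p)).mpr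
    (tS_mem_holC (L := Qb) H ιC (dvd_refl p))
  have h1 : f = tI H := hfy.fun_unique (qN_ne_zero 1) (hasExp_tI H ιC)
  rwa [← h1]

theorem const_MB (c : ℂ) : (fun _ : ℍ => c) ∈ MB := by
  refine ⟨mdifferentiable_const, 0, fun γ => ?_⟩
  rw [pow_zero, one_mul]
  exact Filter.const_boundedAtFilter _ c

theorem heckeMul_prod (f : ℍ → ℂ) (τ : ℍ) :
    heckeMul l f τ = ∏ x : Option (Fin l), f (hdelta l x • τ) := rfl

theorem heckeMul_const_mul (a : ℂ) (f : ℍ → ℂ) :
    heckeMul l (fun τ => a * f τ) = fun τ => a ^ (l + 1) * heckeMul l f τ := by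
  funext τ
  rw [heckeMul_prod, Finset.prod_mul_distrib, Finset.prod_const, Finset.card_univ,
    Fintype.card_option, Fintype.card_fin]
  rfl

theorem frB_g0 : (frB p).g0 = ModularGroup.T * ModularGroup.S := by
  ext i j
  fin_cases i <;> fin_cases j <;>
    simp [Bez.g0, frB, ModularGroup.T, ModularGroup.S, Matrix.mul_apply, Fin.sum_univ_two]

theorem frB_W (τ : ℍ) : (frB p).W τ = ModularGroup.T • (ModularGroup.S • up p τ) := by
  rw [Bez.W, frB_g0, mul_smul]
  congr 2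
  apply UpperHalfPlane.ext
  rw [coe_tri, coe_up]
  push_cast
  ring

theorem slash_eq {f : ℍ → ℂ}
    (hf : ∀ (γ : Gamma0 p) (τ : ℍ), f ((γ : SL(2, ℤ)) • τ) = f τ) (τ : ℍ) :
    (frB p).slash f τ = f (ModularGroup.S • up p τ) := by
  rw [Bez.slash_apply, frB_W]
  exact hf ⟨ModularGroup.T, by
    rw [CongruenceSubgroup.Gamma0_mem]
    simp [ModularGroup.T]⟩ _

theorem T0_ne (H : HauptFn p κ) : ((κ : ℂ) ^ 2 * p ^ 4) ≠ 0 :=
  mul_ne_zero (pow_ne_zero _ (κ_ne p H.hκ)) (pow_ne_zero _ (p_ne p))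

theorem tI_SU (H : HauptFn p κ) (τ : ℍ) :
    tI H (ModularGroup.S • up p τ) = (κ : ℂ) ^ 2 * p ^ 4 * H.t τ := by
  rw [tI_S, dn_up]

theorem Ht_SU (H : HauptFn p κ) (τ : ℍ) :
    H.t (ModularGroup.S • up p τ) = ((κ : ℂ) ^ 2 * p ^ 4)⁻¹ * tI H τ := by
  have h1 := tI_SU H τ
  rw [tI] at h1
  rw [tI, ← inv_inv (H.t (ModularGroup.S • up p τ)), h1, mul_inv]

theorem hdelta_card : Fintype.card (Option (Fin l)) = l + 1 := by simp

/-- invariance of the image under the Hecke operator -/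
theorem heckeMul_inv (hl : l.Prime) (hlp : ¬ l ∣ p) {f : ℍ → ℂ}
    (hf : ∀ (γ : Gamma0 p) (τ : ℍ), f ((γ : SL(2, ℤ)) • τ) = f τ) (γ : Gamma0 p) (τ : ℍ) :
    heckeMul l f ((γ : SL(2, ℤ)) • τ) = heckeMul l f τ := by
  have h1 := heckeMul_smul hl hlp (χ := 1) (f := f) (fun γ τ => by
    rw [hf γ τ, MonoidHom.one_apply, Units.val_one, one_mul]) γ τ
  rw [heckeChar_one', MonoidHom.one_apply, Units.val_one, one_mul] at h1
  exact h1

/-- **the modular equation** for `T` -/
theorem exists_poly (hl : l.Prime) (hlp : ¬ l ∣ p) (hA : A.LiesOverPrime l) (H : HauptFn p κ)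
    (c : A) : ∃ P : Polynomial A,
      (∀ τ, heckeMul l (fun τ => tI H τ - ιC c) τ = P.eval₂ (ιC.comp A.subtype) (tI H τ)) ∧
      tN l (zl l) (tS Qb p κ - HahnSeries.C (c : Qb)) =
        P.eval₂ (HahnSeries.C.comp A.subtype) (tS Qb p κ) := by
  obtain ⟨ζ, hζ, -⟩ := exists_zA (A := A) hl hA
  have hinv : ∀ (γ : Gamma0 p) (τ : ℍ),
      (fun τ => tI H τ - ιC c) ((γ : SL(2, ℤ)) • τ) = (fun τ => tI H τ - ιC c) τ := by
    intro γ τ
    change tI H ((γ : SL(2, ℤ)) • τ) - _ = _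
    rw [tI_smul H _ γ.2]
  have hMB : (fun τ => tI H τ - ιC c) ∈ MB := sub_mem (tI_MB H) (const_MB _)
  have hE : HasExp ιC (qN 1) (fun τ => tI H τ - ιC c)
      (tS Qb p κ - HahnSeries.C (c : Qb)) := (hasExp_tI H ιC).sub (HasExp.const (c : Qb))
  have hE2 := hasExp_heckeMul (zl_spec l) hE
  have hser : tN l (zl l) (tS Qb p κ - HahnSeries.C (c : Qb)) =
      coeffMap A.subtype (tA l ζ (tS A p κ - HahnSeries.C c)) := by
    have h1 := lA_tA (l := l) (ζ := ζ) (tS A p κ - HahnSeries.C c)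
    rw [hζ, map_sub] at h1
    have h2 : lA A (tS A p κ) = tS Qb p κ := coeffMap_tS _ p κ
    rw [h2, lA_C] at h1
    exact h1.symm
  rw [hser] at hE2
  have hE3 := (hasExp_coeffMap_iff A.subtype rfl).mp hE2
  have hφ : Function.Injective (ιC.comp A.subtype) :=
    ιC.injective.comp Subtype.val_injective
  obtain ⟨P, hP1, hP2⟩ := exists_polynomial_t H hφ (heckeMul_mem_MB hMB l).1
    (fun g hg τ => heckeMul_inv hl hlp hinv ⟨g, hg⟩ τ) hE3 (by
      -- near the cusp `0`
      set z : LaurentSeries ℂ := HahnSeries.C ((κ : ℂ) ^ 2 * p ^ 4) *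
        HahnSeries.ofPowerSeries ℤ ℂ (toC (TS p κ)) - HahnSeries.C (ιC (c : Qb)) with hz
      have e1 : (frB p).slash (fun τ => tI H τ - ιC c) =
          fun τ => (κ : ℂ) ^ 2 * p ^ 4 * H.t τ - ιC c := by
        funext τ
        rw [slash_eq hinv, tI_SU]
      have h1 : HasExp (RingHom.id ℂ) (qN 1) (fun τ => (κ : ℂ) ^ 2 * p ^ 4 * H.t τ - ιC c) z := by
        refine HasExp.sub (HasExp.mul (HasExp.const ((κ : ℂ) ^ 2 * p ^ 4)) ?_)
          (HasExp.const (ιC (c : Qb)))
        refine hasExp_ofPowerSeries fun τ _ => ?_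
        have := H.hasQ τ
        rw [qN_apply, Nat.cast_one]
        exact this
      have hζC : IsPrimitiveRoot (Units.map (ιC : Qb →* ℂ) (zl l)) l :=
        (zl_spec l).map_of_injective (Units.map_injective ιC.injective)
      have h2 := hasExp_heckeMul (l := l) hζC h1
      rw [← e1, heckeMul_slash (frB p) (mul_one p).symm hl hlp hinv] at h2
      have hzc : ∀ m < 0, z.coeff m = 0 := by
        intro m hm
        rw [hz, HahnSeries.coeff_sub, HahnSeries.C_mul_eq_smul,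
          HahnSeries.coeff_smul, ModularCurve.ofPowerSeries_coeff_of_neg _ hm,
          HahnSeries.C_apply, HahnSeries.coeff_single_of_ne hm.ne]
        simp
      have h3 : ∀ m < 0, (tN l (Units.map (ιC : Qb →* ℂ) (zl l)) z).coeff m = 0 := by
        intro m hm
        by_cases hz0 : z = 0
        · rw [hz0]
          have : tN l (Units.map (ιC : Qb →* ℂ) (zl l)) (0 : LaurentSeries ℂ) = 0 := by
            rw [tN, map_zero, zero_mul]
          rw [this, HahnSeries.coeff_zero]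
        apply HahnSeries.coeff_eq_zero_of_lt_order
        rw [order_tN hζC hz0]
        have h4 : 0 ≤ z.order := by
          by_contra hcon
          push Not at hcon
          have h5 := HahnSeries.leadingCoeff_ne_zero.mpr hz0
          rw [HahnSeries.leadingCoeff_eq] at h5
          exact h5 (hzc _ hcon)
        have : (0 : ℤ) ≤ (l + 1) * z.order := by positivity
        omega
      have h4 := hasExp_one_congr h2 h3
      have h6 : HasQ p (fun τ => (frB p).slash (heckeMul l fun τ => tI H τ - ιC c) (dn p τ))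
          (PowerSeries.mk fun n => (RingHom.id ℂ)
            ((tN l (Units.map (ιC : Qb →* ℂ) (zl l)) z).coeff n)) := by
        intro τ
        have h5 := h4 (dn p τ)
        rwa [qParam_dn, one_mul] at h5
      exact ⟨_, h6.congr fun τ => by rw [slash_eq (heckeMul_inv hl hlp hinv), up_dn]⟩)
  have h7 : (coeffMap A.subtype).comp (HahnSeries.C : A →+* LaurentSeries A) =
      (HahnSeries.C : Qb →+* LaurentSeries Qb).comp A.subtype := by
    apply RingHom.ext
    intro a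
    exact lA_C a
  have h8 : coeffMap A.subtype (tS A p κ) = tS Qb p κ := coeffMap_tS _ p κ
  refine ⟨P, hP1, ?_⟩
  rw [hser, hP2, Polynomial.hom_eval₂, h7, h8]

theorem SU_SU (τ : ℍ) : ModularGroup.S • up p (ModularGroup.S • up p τ) = τ := by
  apply UpperHalfPlane.ext
  rw [UpperHalfPlane.modular_S_smul, UpperHalfPlane.modular_S_smul]
  have hp : (p : ℂ) ≠ 0 := p_ne p
  have hτ : (τ : ℂ) ≠ 0 := UpperHalfPlane.ne_zero τ
  simp only [UpperHalfPlane.coe_mk, coe_up]
  field_simp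

theorem hasExp_Ht (H : HauptFn p κ) : HasExp ιC (qN 1) H.t (tS Qb p κ)⁻¹ := by
  have h1 := H.hasExp.coeffMap (ψ := ιC) (Int.castRingHom Qb) (RingHom.ext_int _ _)
  have h2 := h1.mul (hasExp_tI H ιC)
  have h3 : H.t * tI H = fun _ => (1 : ℂ) := by
    funext τ
    rw [Pi.mul_apply, tI, mul_inv_cancel₀ (H.ne_zero τ)]
  have h4 : HasExp ιC (qN 1) (fun _ => (1 : ℂ)) (HahnSeries.C (1 : Qb)) := by
    have := HasExp.const (φ := ιC) (s := qN 1) (1 : Qb)
    rwa [map_one] at this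
  have h5 : coeffMap (Int.castRingHom Qb) (HahnSeries.ofPowerSeries ℤ ℤ (TS p κ)) * tS Qb p κ =
      1 := by
    rw [← map_one (HahnSeries.C : Qb →+* LaurentSeries Qb)]
    exact HasExp.unique ιC.injective (isParam_qN 1) (h3 ▸ h2) h4
  rw [← eq_inv_of_mul_eq_one_left h5]
  exact h1

theorem isUnit_intCast (hl : l.Prime) (hA : A.LiesOverPrime l) {n : ℤ} (hn : ¬ (l : ℤ) ∣ n) :
    IsUnit (n : A) := by
  haveI : CharP (ResidueField A) l := FrobDensity.charP_residue hl hA
  rw [← residue_ne_zero_iff_isUnit, map_intCast]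
  intro h
  exact hn ((CharP.intCast_eq_zero_iff (ResidueField A) l n).mp h)

theorem hasExp_eval₂ {s : ℍ → ℂ} {f : ℍ → ℂ} {F : LaurentSeries Qb} (Q : Polynomial A)
    (h : HasExp ιC s f F) : HasExp ιC s (fun τ => Q.eval₂ (ιC.comp A.subtype) (f τ))
      (Q.eval₂ (HahnSeries.C.comp A.subtype) F) := by
  induction Q using Polynomial.induction_on' with
  | add P Q hP hQ =>
    rw [Polynomial.eval₂_add]
    refine (hP.add hQ).congr fun τ => ?_
    rw [Polynomial.eval₂_add]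
    rfl
  | monomial n a =>
    rw [Polynomial.eval₂_monomial]
    refine ((HasExp.const (a : Qb)).mul (h.pow n)).congr fun τ => ?_
    rw [Polynomial.eval₂_monomial]
    rfl

/-- **the modular equation** for `T⁻¹` -/
theorem exists_poly_inv (hl : l.Prime) (hlp : ¬ l ∣ p) (hκ : ¬ (l : ℤ) ∣ κ)
    (hA : A.LiesOverPrime l) (H : HauptFn p κ)
    (c : A) : ∃ P : Polynomial A,
      tN l (zl l) ((tS Qb p κ)⁻¹ - HahnSeries.C (c : Qb)) =
        P.eval₂ (HahnSeries.C.comp A.subtype) (tS Qb p κ)⁻¹ := by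
  have hu : IsUnit ((κ ^ 2 * (p : ℤ) ^ 4 : ℤ) : A) := by
    apply isUnit_intCast hl hA
    intro h
    rcases (Int.Prime.dvd_mul' hl h) with h | h
    · exact hκ (Int.Prime.dvd_pow' hl h)
    · exact hlp (by exact_mod_cast Int.Prime.dvd_pow' hl h)
  obtain ⟨u, hu⟩ := hu
  set C0 : ℂ := (κ : ℂ) ^ 2 * p ^ 4 with hC0
  have hC : ιC ((u : A) : Qb) = C0 := by
    rw [hu]
    push_cast
    rw [map_mul, map_pow, map_pow, map_intCast, map_natCast]
  have hCi : ιC (((u⁻¹ : Aˣ) : A) : Qb) = C0⁻¹ := by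
    rw [← hC]
    apply eq_inv_of_mul_eq_one_left
    rw [← map_mul]
    have : (((u⁻¹ : Aˣ) : A) : Qb) * ((u : A) : Qb) = 1 := by
      have h := congrArg Subtype.val u.inv_mul
      exact h
    rw [this, map_one]
  have hinv : ∀ (γ : Gamma0 p) (τ : ℍ),
      (fun τ => H.t τ - ιC c) ((γ : SL(2, ℤ)) • τ) = (fun τ => H.t τ - ιC c) τ := by
    intro γ τ
    change H.t ((γ : SL(2, ℤ)) • τ) - _ = _
    rw [H.smul _ γ.2]
  obtain ⟨P, hP1, hP2⟩ := exists_poly hl hlp hA H ((u : A) * c)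
  have h1 : ∀ τ, heckeMul l (fun τ => H.t τ - ιC c) (ModularGroup.S • up p τ) =
      C0⁻¹ ^ (l + 1) * P.eval₂ (ιC.comp A.subtype) (tI H τ) := by
    intro τ
    rw [← hP1 τ, ← slash_eq (heckeMul_inv hl hlp hinv),
      ← heckeMul_slash (frB p) (mul_one p).symm hl hlp hinv]
    have h2 : (frB p).slash (fun τ => H.t τ - ιC c) =
        fun τ => C0⁻¹ * (tI H τ - ιC ((((u : A) * c : A)) : Qb)) := by
      funext τ
      rw [slash_eq hinv, Ht_SU]
      push_cast
      rw [map_mul, hC, mul_sub, ← mul_assoc, inv_mul_cancel₀ (T0_ne H), one_mul]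
    rw [h2, heckeMul_const_mul]
  have h3 : ∀ τ, heckeMul l (fun τ => H.t τ - ιC c) τ =
      C0⁻¹ ^ (l + 1) * P.eval₂ (ιC.comp A.subtype) (C0 * H.t τ) := by
    intro τ
    have h4 := h1 (ModularGroup.S • up p τ)
    rw [SU_SU, tI_SU] at h4
    exact h4
  have hE : HasExp ιC (qN 1) (fun τ => H.t τ - ιC c)
      ((tS Qb p κ)⁻¹ - HahnSeries.C (c : Qb)) := (hasExp_Ht H).sub (HasExp.const (c : Qb))
  have hE2 := hasExp_heckeMul (zl_spec l) hE
  refine ⟨Polynomial.C (((u⁻¹ : Aˣ) : A) ^ (l + 1)) * P.comp (Polynomial.C (u : A) * Polynomial.X),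
    ?_⟩
  refine HasExp.unique ιC.injective (isParam_qN 1) hE2 ?_
  refine (hasExp_eval₂ (A := A) _ (hasExp_Ht H)).congr fun τ => ?_
  rw [h3, Polynomial.eval₂_mul, Polynomial.eval₂_C, Polynomial.eval₂_comp,
    Polynomial.eval₂_mul, Polynomial.eval₂_C, Polynomial.eval₂_X]
  have e1 : (ιC.comp A.subtype) (((u⁻¹ : Aˣ) : A) ^ (l + 1)) = C0⁻¹ ^ (l + 1) := by
    rw [map_pow]
    congr 1
  have e2 : (ιC.comp A.subtype) (u : A) = C0 := hC
  rw [e1, e2]

end Fermat.Agent.ER
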