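import Mathlib
import Fermat.Agent.ER.Nrm
import Fermat.Agent.Flat.Good

/-!
# Charts and correspondences
-/

set_option autoImplicit false
set_option linter.unusedSectionVars false

noncomputable section

namespace Fermat.Agent.ER

open AlgebraicCurve Fermat.Agent.Flat Fermat.Agent.FunField Fermat.Agent.MZ WithZero
open IsLocalRing
open scoped Classical

variable {K F F' : Type*} [Field K] [Field F] [Field F'] [Algebra K F] [Algebra K F']

section Restr

variable (a : F →ₐ[K] F') (ha : a.toRingHom.IsIntegral) (w : Place K F')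

theorem rami_pos (ha : a.toRingHom.IsIntegral) : 0 < Place.ramificationIndexAlong a w := by
  letI := algebraAlong a
  haveI := isScalarTower_along a
  haveI := isIntegral_along a ha
  exact w.ramificationIndex_pos (F := F)

theorem ord_along_nonneg {f : F} (hf : 0 ≤ (w.restrictAlong a ha).ord f) : 0 ≤ w.ord (a f) := by
  rw [Place.ord_restrictAlong a ha]
  exact mul_nonneg (by positivity) hf

theorem ord_along_neg {f : F} (hf : (w.restrictAlong a ha).ord f < 0) : w.ord (a f) < 0 := by
  rw [Place.ord_restrictAlong a ha]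
  have := rami_pos a w ha
  exact mul_neg_of_pos_of_neg (by exact_mod_cast this) hf

theorem ord_along_zero {f : F} (hf : (w.restrictAlong a ha).ord f = 0) : w.ord (a f) = 0 := by
  rw [Place.ord_restrictAlong a ha, hf, mul_zero]

theorem evp_along (hr : Rational (w.restrictAlong a ha)) {f : F}
    (hf : 0 ≤ (w.restrictAlong a ha).ord f) : evp w (a f) = evp (w.restrictAlong a ha) f := by
  apply evp_unique
  have h1 := evp_spec hr (mem_of_ord_nonneg _ hf)
  rw [val_lt_one_iff] at h1 ⊢
  have h2 : a f - algebraMap K F' (evp (w.restrictAlong a ha) f) =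
      a (f - algebraMap K F (evp (w.restrictAlong a ha) f)) := by
    rw [map_sub, a.commutes]
  rw [h2]
  rcases h1 with h | h
  · left
    rw [h, map_zero]
  · right
    rw [Place.ord_restrictAlong a ha]
    have := rami_pos a w ha
    exact mul_pos (by exact_mod_cast this) h

end Restr

section Chart

variable [Algebra F F'] [IsScalarTower K F F'] [FiniteDimensional F F'] [IsAlgClosed K]
  [HasPrincipalDivisors K F'] {t : F} (a : F →ₐ[K] F') (ha : a.toRingHom.IsIntegral)
  {A : ValuationSubring K}

/-- the modular equation, as a property of `t` -/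
def PolyEq (F' : Type*) {K F : Type*} [Field K] [Field F] [Field F'] [Algebra K F] [Algebra K F']
    [Algebra F F'] (a : F →ₐ[K] F') (A : ValuationSubring K) (t : F) : Prop :=
  ∀ c : A, ∃ P : Polynomial A,
    Algebra.norm F (a (t - algebraMap K F c)) = Polynomial.aeval t (P.map A.subtype)

theorem ord_aeval_nonneg {v : Place K F} (hv : 0 ≤ v.ord t) (P : Polynomial K) :
    Polynomial.aeval t P ∈ v.toValuationSubring := by
  have h1 : t ∈ v.toValuationSubring := mem_of_ord_nonneg v hv
  induction P using Polynomial.induction_on' with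
  | add P Q hP hQ => rw [map_add]; exact add_mem hP hQ
  | monomial n x =>
    rw [Polynomial.aeval_monomial]
    exact mul_mem (v.algebraMap_mem' x) (pow_mem h1 n)

theorem evp_aeval {v : Place K F} (hr : Rational v) (hv : 0 ≤ v.ord t) (P : Polynomial K) :
    evp v (Polynomial.aeval t P) = P.eval (evp v t) := by
  have h1 : t ∈ v.toValuationSubring := mem_of_ord_nonneg v hv
  induction P using Polynomial.induction_on' with
  | add P Q hP hQ =>
    rw [map_add, evp_add hr (ord_aeval_nonneg hv _) (ord_aeval_nonneg hv _), hP, hQ,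
      Polynomial.eval_add]
  | monomial n x =>
    rw [Polynomial.aeval_monomial, evp_mul hr (v.algebraMap_mem' x) (pow_mem h1 n),
      evp_algebraMap, evp_pow hr h1, Polynomial.eval_monomial]

theorem sub_ne (ht : Sep K t) (c : K) : t - algebraMap K F c ≠ 0 := fun h =>
  ht.trans (by rw [sub_eq_zero.mp h]; exact isAlgebraic_algebraMap c)

theorem ord_sub_zero (ht : Sep K t) {v : Place K F} (hv : 0 ≤ v.ord t) {c : K}
    (hc : evp v t ≠ c) : v.ord (t - algebraMap K F c) = 0 := by
  have h1 : t ∈ v.toValuationSubring := mem_of_ord_nonneg v hv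
  have h2 : t - algebraMap K F c ∈ v.toValuationSubring := sub_mem h1 (v.algebraMap_mem' c)
  refine ((evp_ne_zero_iff (ht.rational v) h2).mp ?_).2
  have h3 : evp v (t - algebraMap K F c) = evp v t - c := by
    have h4 : t - algebraMap K F c = t + algebraMap K F (-c) := by rw [map_neg, sub_eq_add_neg]
    rw [h4, evp_add (ht.rational v) h1 (v.algebraMap_mem' _), evp_algebraMap, sub_eq_add_neg]
  rw [h3]
  exact sub_ne_zero.mpr hc

/-- regularity is preserved by the correspondence -/
theorem chart_ord (hA : Infinite A) (ht : Sep K t) (ht' : Sep K (algebraMap F F' t))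
    (hP : PolyEq F' a A t) {S : Place K F} (hS : 0 ≤ S.ord t) {w : Place K F'}
    (hw : w ∈ S.fiber F') : 0 ≤ (w.restrictAlong a ha).ord t := by
  by_contra hcon
  push Not at hcon
  obtain ⟨c, hc⟩ := Infinite.exists_notMem_finset
    ((S.fiber F').image fun w => (if h : evp (w.restrictAlong a ha) t ∈ A then
      (⟨_, h⟩ : A) else 0))
  have hc' : ∀ w ∈ S.fiber F', evp (w.restrictAlong a ha) t ≠ (c : K) := by
    intro w hw h
    apply hc
    rw [Finset.mem_image]
    refine ⟨w, hw, ?_⟩
    have h1 : evp (w.restrictAlong a ha) t ∈ A := h ▸ c.2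
    rw [dif_pos h1]
    exact Subtype.ext h
  obtain ⟨P, hP⟩ := hP c
  have hne : a (t - algebraMap K F c) ≠ 0 := (map_ne_zero _).mpr (sub_ne ht _)
  have h1 := ord_norm ht ht' S hne
  have h2 : 0 ≤ S.ord (Algebra.norm F (a (t - algebraMap K F c))) := by
    rw [hP]
    exact ord_nonneg_of_mem _ (ord_aeval_nonneg hS _)
  have h3 : ∀ w ∈ S.fiber F', w.ord (a (t - algebraMap K F c)) ≤ 0 := by
    intro w hw
    rcases lt_or_ge ((w.restrictAlong a ha).ord t) 0 with h | h
    · refine (ord_along_neg a ha w ?_).le
      rwa [ord_sub_of_neg _ h]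
    · exact (ord_along_zero a ha w (ord_sub_zero ht h (hc' w hw))).le
  have h4 : w.ord (a (t - algebraMap K F c)) < 0 := by
    refine ord_along_neg a ha w ?_
    rwa [ord_sub_of_neg _ hcon]
  have h5 : ∑ w ∈ S.fiber F', w.ord (a (t - algebraMap K F c)) < 0 :=
    Finset.sum_neg' h3 ⟨w, hw, h4⟩
  rw [h1] at h2
  exact absurd h2 (not_le.mpr h5)

/-- integrality is preserved by the correspondence -/
theorem chart_mem (hκ : Infinite (ResidueField A)) (ht : Sep K t)
    (ht' : Sep K (algebraMap F F' t)) (hP : PolyEq F' a A t) {S : Place K F} (hS : 0 ≤ S.ord t)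
    (hSA : evp S t ∈ A) {w : Place K F'} (hw : w ∈ S.fiber F') :
    evp (w.restrictAlong a ha) t ∈ A := by
  have hA : Infinite A := Infinite.of_surjective (residue A) residue_surjective
  have hord : ∀ w ∈ S.fiber F', 0 ≤ (w.restrictAlong a ha).ord t := fun w hw =>
    chart_ord a ha hA ht ht' hP hS hw
  by_contra hcon
  obtain ⟨cb, hcb⟩ := Infinite.exists_notMem_finset
    ((S.fiber F').image fun w => (if h : evp (w.restrictAlong a ha) t ∈ A then
      residue A ⟨_, h⟩ else 0))
  obtain ⟨c, rfl⟩ := residue_surjective cb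
  have hc' : ∀ w ∈ S.fiber F', ∀ h : evp (w.restrictAlong a ha) t ∈ A,
      residue A ⟨_, h⟩ ≠ residue A c := by
    intro w hw h h1
    apply hcb
    rw [Finset.mem_image]
    exact ⟨w, hw, by rw [dif_pos h, h1]⟩
  obtain ⟨P, hP⟩ := hP c
  have hmem : ∀ w ∈ S.fiber F', a (t - algebraMap K F c) ∈ w.toValuationSubring := by
    intro w hw
    refine mem_of_ord_nonneg w (ord_along_nonneg a ha w (ord_nonneg_of_mem _ ?_))
    exact sub_mem (mem_of_ord_nonneg _ (hord w hw)) (Place.algebraMap_mem' _ _)
  obtain ⟨-, h1⟩ := evp_norm ht ht' S hmem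
  have hev : ∀ w ∈ S.fiber F', evp w (a (t - algebraMap K F c)) =
      evp (w.restrictAlong a ha) t - c := by
    intro w hw
    have h2 : t - algebraMap K F (c : K) = t + algebraMap K F (-(c : K)) := by
      rw [map_neg, sub_eq_add_neg]
    have h3 := mem_of_ord_nonneg _ (hord w hw)
    rw [evp_along a ha w (ht.rational _) (ord_nonneg_of_mem _
      (sub_mem h3 (Place.algebraMap_mem' _ _))), h2,
      evp_add (ht.rational _) h3 (Place.algebraMap_mem' _ _), evp_algebraMap, sub_eq_add_neg]
  rw [hP, evp_aeval (ht.rational S) hS, Finset.prod_congr rfl fun w hw => by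
    rw [hev w hw]] at h1
  have h2 : (P.map A.subtype).eval (evp S t) ∈ A := by
    have : (P.map A.subtype).eval (evp S t) = ((P.eval ⟨_, hSA⟩ : A) : K) := by
      have h := Polynomial.eval₂_at_apply (p := P) A.subtype (⟨_, hSA⟩ : A)
      rw [Polynomial.eval_map]
      exact h
    rw [this]
    exact Subtype.property _
  rw [h1, ← A.valuation_le_one_iff, map_prod] at h2
  have h3 : ∀ w ∈ S.fiber F', 1 ≤ A.valuation (evp (w.restrictAlong a ha) t - c) := by
    intro w hw
    by_contra hlt
    push Not at hlt
    have h4 : evp (w.restrictAlong a ha) t - c ∈ A := (A.valuation_le_one_iff _).mp hlt.le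
    have h5 : evp (w.restrictAlong a ha) t ∈ A := by
      have := add_mem h4 c.2
      rwa [sub_add_cancel] at this
    apply hc' w hw h5
    rw [← sub_eq_zero, ← map_sub, residue_eq_zero_iff]
    exact (A.valuation_lt_one_iff _).mpr hlt
  have h4 : 1 < A.valuation (evp (w.restrictAlong a ha) t - c) := by
    rw [← not_le, A.valuation_le_one_iff]
    intro h
    apply hcon
    have := add_mem h c.2
    rwa [sub_add_cancel] at this
  have h5 : ∀ w ∈ S.fiber F', 1 ≤ A.valuation ((evp (w.restrictAlong a ha) t - c) ^ ei F w) := by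
    intro w hw
    rw [map_pow]
    exact one_le_pow₀ (h3 w hw)
  have h6 := Finset.single_le_prod' h5 hw
  have h7 : A.valuation (evp (w.restrictAlong a ha) t - c) ≤
      A.valuation ((evp (w.restrictAlong a ha) t - c) ^ ei F w) := by
    rw [map_pow]
    exact le_self_pow₀ (h3 w hw) (ei_pos (F := F) w).ne'
  exact absurd (h7.trans (h6.trans h2)) (not_le.mpr h4)

/-- the norm preserves regularity -/
theorem reg_norm (ha : a.toRingHom.IsIntegral) (hA : Infinite A) (ht : Sep K t) (ht' : Sep K (algebraMap F F' t))
    (hP : PolyEq F' a A t) {f : F} (hf : Reg K t f) : Reg K t (Algebra.norm F (a f)) := by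
  intro S hS
  by_cases hf0 : f = 0
  · rw [hf0, map_zero, Algebra.norm_zero, Place.ord_zero]
  rw [ord_norm ht ht' S ((map_ne_zero a).mpr hf0)]
  exact Finset.sum_nonneg fun w hw =>
    ord_along_nonneg a ha w (hf _ (chart_ord a ha hA ht ht' hP hS hw))

end Chart

end Fermat.Agent.ER
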