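import Mathlib
import Fermat.Agent.ER.ESa
import Fermat.Agent.ER.ESb
import Fermat.Agent.ER.ESc

/-!
# The modular equation along the degeneracy maps
-/

set_option autoImplicit false
set_option linter.unusedSectionVars false
set_option linter.style.haveILetI false
set_option synthInstance.maxHeartbeats 400000

noncomputable section

namespace Fermat.Agent.ER

open AlgebraicCurve Fermat.Agent.Flat Fermat.Agent.FunField Fermat.Agent.MZ Fermat.Agent.GC
open Fermat.Agent.LG Fermat.Agent.ModFun Fermat.Agent.WP Fermat.Agent.Lf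
open Fermat.Agent.ESCore (HauptFn ιC)
open IsLocalRing ModularCurve

/-- The field of algebraic numbers. -/
local notation "Qb" => AlgebraicClosure ℚ
/-- The absolute Galois group. -/
local notation "GQ" => (AlgebraicClosure ℚ ≃ₐ[ℚ] AlgebraicClosure ℚ)

variable {A : ValuationSubring Qb} {l : ℕ} [NeZero l] {M : ℕ} [NeZero M]
  {p : ℕ} [Fact p.Prime] {κ : ℤ}

theorem coe_aevalF (x : F0 Qb M) (P : Polynomial A) :
    ((Polynomial.aeval x (P.map A.subtype) : F0 Qb M) : LaurentSeries Qb) =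
      P.eval₂ (HahnSeries.C.comp A.subtype) (x : LaurentSeries Qb) := by
  have h1 : ((Polynomial.aeval x (P.map A.subtype) : F0 Qb M) : LaurentSeries Qb) =
      Polynomial.aeval (x : LaurentSeries Qb) (P.map A.subtype) :=
    (Polynomial.aeval_algHom_apply (F0 Qb M).val x (P.map A.subtype)).symm
  rw [h1, Polynomial.aeval_def, Polynomial.eval₂_map]
  congr 1
  apply RingHom.ext
  intro a
  exact algebraMap_eq_C (a : Qb)

theorem coe_subC (x : F0 Qb M) (c : Qb) :
    ((x - algebraMap Qb (F0 Qb M) c : F0 Qb M) : LaurentSeries Qb) =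
      (x : LaurentSeries Qb) - HahnSeries.C c := by
  have h1 : ((x - algebraMap Qb (F0 Qb M) c : F0 Qb M) : LaurentSeries Qb) =
    (x : LaurentSeries Qb) - algebraMap Qb (LaurentSeries Qb) c := rfl
  rw [h1]
  congr 1
  exact algebraMap_eq_C c

theorem polyEq_of (hl : l.Prime) (hlM : ¬ l ∣ M) {x : F0 Qb M}
    (h : ∀ c : A, ∃ P : Polynomial A, tN l (zl l) ((x : LaurentSeries Qb) - HahnSeries.C (c : Qb)) =
      P.eval₂ (HahnSeries.C.comp A.subtype) (x : LaurentSeries Qb)) :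
    @PolyEq (F0 Qb (M * l)) Qb (F0 Qb M) _ _ _ _ _ (algebraAlong (be M l)) (al M l) A x := by
  intro c
  obtain ⟨P, hP⟩ := h c
  refine ⟨P, ?_⟩
  rw [norm_be hl hlM]
  apply Subtype.ext
  rw [coe_TF, coe_subC, hP, coe_aevalF]

theorem polyEq_T (hl : l.Prime) (hlM : ¬ l ∣ M) (hA : A.LiesOverPrime l) (H : HauptFn p κ)
    (hp : p ∣ M) :
    @PolyEq (F0 Qb (M * l)) Qb (F0 Qb M) _ _ _ _ _ (algebraAlong (be M l)) (al M l) A
      (tF H hp) := by
  apply polyEq_of hl hlM
  intro c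
  obtain ⟨P, -, hP⟩ := exists_poly hl (fun h => hlM (h.trans hp)) hA H c
  exact ⟨P, hP⟩

theorem polyEq_Tinv (hl : l.Prime) (hlM : ¬ l ∣ M) (hκ : ¬ (l : ℤ) ∣ κ) (hA : A.LiesOverPrime l)
    (H : HauptFn p κ) (hp : p ∣ M) :
    @PolyEq (F0 Qb (M * l)) Qb (F0 Qb M) _ _ _ _ _ (algebraAlong (be M l)) (al M l) A
      (tF H hp)⁻¹ := by
  apply polyEq_of hl hlM
  intro c
  obtain ⟨P, hP⟩ := exists_poly_inv hl (fun h => hlM (h.trans hp)) hκ hA H c
  refine ⟨P, ?_⟩
  have h1 : (((tF H hp)⁻¹ : F0 Qb M) : LaurentSeries Qb) = (tS Qb p κ)⁻¹ := rfl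
  rw [h1]
  exact hP

end Fermat.Agent.ER
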