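import Mathlib
import Fermat.Agent.Flat.Points2

/-!
Regular functions separate effective divisors of the affine part.
-/

set_option autoImplicit false
set_option linter.unusedSectionVars false

noncomputable section

namespace Fermat.Agent.ER

open AlgebraicCurve IsDedekindDomain IntermediateField WithZero Module Fermat.Agent.FunField
  Fermat.Agent.Flat

variable {κ Fb : Type*} [Field κ] [IsAlgClosed κ] [Field Fb] [Algebra κ Fb] {tb : Fb}

theorem reg_of_isIntegral (b : intClosure κ tb) : Reg κ tb (b : Fb) := by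
  intro v hv
  apply ord_nonneg_of_mem
  refine mem_place_of_isIntegral v (A := Algebra.adjoin κ {tb}) ?_ b.2
  intro a
  have h1 : Algebra.adjoin κ {tb} ≤
      { v.toValuationSubring.toSubring with algebraMap_mem' := v.algebraMap_mem' } := by
    rw [Algebra.adjoin_le_iff, Set.singleton_subset_iff]
    exact mem_of_ord_nonneg v hv
  exact h1 a.2

/-- Two distinct affine places are separated by a regular function. -/
theorem exists_sep (h : Sep κ tb) {P Q : Place κ Fb} (hP : 0 ≤ P.ord tb) (hQ : 0 ≤ Q.ord tb)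
    (hne : P ≠ Q) : ∃ g : Fb, Reg κ tb g ∧ evp P g = 1 ∧ evp Q g = 0 := by
  have := h.fd
  have := h.sep
  haveI := isFractionRing_intClosure (K := κ) tb
  haveI := isDedekindDomain_intClosure h.trans
  haveI : IsScalarTower κ (intClosure κ tb) Fb := inferInstance
  obtain ⟨w, hw1, hw2⟩ := exists_heightOneSpectrum (R := intClosure κ tb) P
    (fun r => (reg_of_isIntegral r).mem hP)
  obtain ⟨w', hw1', hw2'⟩ := exists_heightOneSpectrum (R := intClosure κ tb) Q
    (fun r => (reg_of_isIntegral r).mem hQ)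
  have hww : w.asIdeal ≠ w'.asIdeal := by
    intro heq
    apply hne
    rw [hw1, hw1', HeightOneSpectrum.ext heq]
  have hm : w.asIdeal.IsMaximal := w.isMaximal
  have hm' : w'.asIdeal.IsMaximal := w'.isMaximal
  have htop : w.asIdeal ⊔ w'.asIdeal = ⊤ := hm.coprime_of_ne hm' hww
  rw [Ideal.eq_top_iff_one, Submodule.mem_sup] at htop
  obtain ⟨a, ha, b, hb, hab⟩ := htop
  have hrP : Rational P := h.rational P
  have hrQ : Rational Q := h.rational Q
  have hPa : evp P (a : Fb) = 0 := (evp_eq_zero_iff hrP ((reg_of_isIntegral a).mem hP)).2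
    ((adicValuation_lt_one_iff P).1 ((hw2 a).1 ha))
  have hQb : evp Q (b : Fb) = 0 := (evp_eq_zero_iff hrQ ((reg_of_isIntegral b).mem hQ)).2
    ((adicValuation_lt_one_iff Q).1 ((hw2' b).1 hb))
  refine ⟨b, reg_of_isIntegral b, ?_, hQb⟩
  have h1 : ((a : Fb) + (b : Fb)) = 1 := by exact_mod_cast congrArg Subtype.val hab
  have h2 := evp_add hrP ((reg_of_isIntegral a).mem hP) ((reg_of_isIntegral b).mem hP)
  rw [h1, evp_one, hPa, zero_add] at h2
  exact h2.symm

/-- Divisors in the affine part are determined by the values of the regular functions. -/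
theorem eq_of_prod (h : Sep κ tb) (D₁ D₂ : Place κ Fb →₀ ℕ)
    (h1 : ∀ P ∈ D₁.support, 0 ≤ P.ord tb) (h2 : ∀ P ∈ D₂.support, 0 ≤ P.ord tb)
    (heq : ∀ g : Fb, Reg κ tb g →
      (D₁.prod fun P n => evp P g ^ n) = D₂.prod fun P n => evp P g ^ n) : D₁ = D₂ := by
  classical
  ext P₀
  set S := D₁.support ∪ D₂.support with hS
  by_cases hP₀ : P₀ ∈ S
  swap
  · rw [hS, Finset.mem_union, not_or, Finsupp.notMem_support_iff, Finsupp.notMem_support_iff]
      at hP₀
    rw [hP₀.1, hP₀.2]
  have hS0 : ∀ P ∈ S, 0 ≤ P.ord tb := by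
    intro P hP
    rcases Finset.mem_union.1 hP with h' | h'
    · exact h1 P h'
    · exact h2 P h'
  have hsep : ∀ Q : Place κ Fb, ∃ g : Fb, Reg κ tb g ∧
      (Q ∈ S.erase P₀ → evp P₀ g = 1 ∧ evp Q g = 0) := by
    intro Q
    by_cases hQ : Q ∈ S.erase P₀
    · obtain ⟨g, hg, hg1, hg2⟩ := exists_sep h (hS0 P₀ hP₀) (hS0 Q (Finset.mem_of_mem_erase hQ))
        (Finset.ne_of_mem_erase hQ).symm
      exact ⟨g, hg, fun _ => ⟨hg1, hg2⟩⟩
    · exact ⟨1, fun v hv => by rw [v.ord_one], fun h' => absurd h' hQ⟩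
  choose G hG1 hG2 using hsep
  set e : Fb := ∏ Q ∈ S.erase P₀, G Q with he
  have he0 : Reg κ tb e := Reg.prod _ _ fun i _ => hG1 i
  have heP : evp P₀ e = 1 := by
    rw [he, evp_prod (h.rational P₀) _ _ fun i _ => (hG1 i).mem (hS0 P₀ hP₀)]
    exact Finset.prod_eq_one fun i hi => (hG2 i hi).1
  have heQ : ∀ Q ∈ S.erase P₀, evp Q e = 0 := by
    intro Q hQ
    rw [he, evp_prod (h.rational Q) _ _ fun i _ =>
      (hG1 i).mem (hS0 Q (Finset.mem_of_mem_erase hQ))]
    exact Finset.prod_eq_zero hQ (hG2 Q hQ).2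
  have key : ∀ x : κ, x ^ D₁ P₀ = x ^ D₂ P₀ := by
    intro x
    set f : Fb := 1 + algebraMap κ Fb (x - 1) * e with hf
    have hone : Reg κ tb (1 : Fb) := fun v hv => by rw [v.ord_one]
    have hf0 : Reg κ tb f := hone.add ((Reg.algebraMap _).mul he0)
    have hval : ∀ Q ∈ S, evp Q f = 1 + (x - 1) * evp Q e := by
      intro Q hQ
      have hQ0 := hS0 Q hQ
      rw [hf, evp_add (h.rational Q) (hone.mem hQ0) (((Reg.algebraMap _).mul he0).mem hQ0),
        evp_one, evp_mul (h.rational Q) ((Reg.algebraMap _).mem hQ0) (he0.mem hQ0),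
        evp_algebraMap]
    have hfP : evp P₀ f = x := by
      rw [hval P₀ hP₀, heP]; ring
    have hfQ : ∀ Q ∈ S.erase P₀, evp Q f = 1 := by
      intro Q hQ
      rw [hval Q (Finset.mem_of_mem_erase hQ), heQ Q hQ]; ring
    have hprod : ∀ D : Place κ Fb →₀ ℕ, D.support ⊆ S →
        (D.prod fun P n => evp P f ^ n) = x ^ D P₀ := by
      intro D hD
      rw [Finsupp.prod_of_support_subset D hD _ (fun i _ => pow_zero _),
        ← Finset.mul_prod_erase S _ hP₀, hfP, Finset.prod_eq_one, mul_one]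
      intro Q hQ
      rw [hfQ Q hQ, one_pow]
    have h3 := heq f hf0
    rwa [hprod D₁ Finset.subset_union_left, hprod D₂ Finset.subset_union_right] at h3
  have hinf : Infinite κ := IsAlgClosed.instInfinite
  have hpoly : (Polynomial.X ^ D₁ P₀ : Polynomial κ) = Polynomial.X ^ D₂ P₀ := by
    apply Polynomial.funext
    intro x
    simpa using key x
  have := congrArg Polynomial.natDegree hpoly
  simpa using this

end Fermat.Agent.ER
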