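import Mathlib
import Fermat.Agent.ER.ESd
import Fermat.Agent.ER.RedMain
import Fermat.Agent.ER.Sepr

/-!
# The congruence of Eichler and Shimura on places
-/

set_option autoImplicit false
set_option linter.unusedSectionVars false
set_option linter.style.haveILetI false
set_option synthInstance.maxHeartbeats 400000

noncomputable section

namespace Fermat.Agent.ER

open AlgebraicCurve Fermat.Agent.Flat Fermat.Agent.FunField Fermat.Agent.MZ
open IsLocalRing
open scoped Classical

section Abs

variable {K F F' : Type*} [Field K] [Field F] [Field F'] [Algebra K F] [Algebra K F']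
  [Algebra F F'] [IsScalarTower K F F'] [FiniteDimensional F F'] [IsAlgClosed K]
  [HasPrincipalDivisors K F'] {A : ValuationSubring K} [IsAlgClosed (ResidueField A)]
  {Fb : Type*} [Field Fb] [Algebra (ResidueField A) Fb] {W : ValuationSubring F} {ρ : W →+* Fb}
  {t : F} {tb : Fb}

theorem es_abs (a : F →ₐ[K] F') (ha : a.toRingHom.IsIntegral) (ht : Sep K t)
    (ht' : Sep K (algebraMap F F' t)) (htb : Sep (ResidueField A) tb) (hP : PolyEq F' a A t)
    (hL : ∀ g : Fb, Reg (ResidueField A) tb g → ∃ z : W, Reg K t (z : F) ∧ ρ z = g)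
    {red : Place K F → Place (ResidueField A) Fb}
    (hR : ∀ v, 0 ≤ v.ord t → evp v t ∈ A → 0 ≤ (red v).ord tb ∧
      ∀ z : W, Reg K t (z : F) → ∃ h : evp v (z : F) ∈ A, residue A ⟨_, h⟩ = evp (red v) (ρ z))
    {S S1 S2 : Place K F} {l : ℕ} (hS : 0 ≤ S.ord t) (hSA : evp S t ∈ A)
    (hS1 : 0 ≤ S1.ord t) (hSA1 : evp S1 t ∈ A) (hS2 : 0 ≤ S2.ord t) (hSA2 : evp S2 t ∈ A)
    (hN : ∀ z : W, Reg K t (z : F) → ∃ h : Algebra.norm F (a (z : F)) ∈ W,
      evp (red S) (ρ ⟨_, h⟩) = evp (red S1) (ρ z) * evp (red S2) (ρ z) ^ l) :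
    (∑ w ∈ S.fiber F', Finsupp.single (red (w.restrictAlong a ha)) (ei F w)) =
      Finsupp.single (red S1) 1 + Finsupp.single (red S2) l := by
  have hκ : Infinite (ResidueField A) := IsAlgClosed.instInfinite
  have hA : Infinite A := Infinite.of_surjective (residue A) residue_surjective
  have hord : ∀ w ∈ S.fiber F', 0 ≤ (w.restrictAlong a ha).ord t := fun w hw =>
    chart_ord a ha hA ht ht' hP hS hw
  have hmem : ∀ w ∈ S.fiber F', evp (w.restrictAlong a ha) t ∈ A := fun w hw =>
    chart_mem a ha hκ ht ht' hP hS hSA hw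
  refine eq_of_prod htb _ _ ?_ ?_ ?_
  · intro P hP'
    obtain ⟨w, hw, hw2⟩ := Finset.mem_biUnion.mp (Finsupp.support_finset_sum hP')
    have h1 := Finsupp.support_single_subset hw2
    rw [Finset.mem_singleton] at h1
    rw [h1]
    exact (hR _ (hord w hw) (hmem w hw)).1
  · intro P hP'
    rcases Finset.mem_union.mp (Finsupp.support_add hP') with h | h
    · have h1 := Finsupp.support_single_subset h
      rw [Finset.mem_singleton] at h1
      rw [h1]
      exact (hR _ hS1 hSA1).1
    · have h1 := Finsupp.support_single_subset h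
      rw [Finset.mem_singleton] at h1
      rw [h1]
      exact (hR _ hS2 hSA2).1
  · intro g hg
    obtain ⟨z, hz, rfl⟩ := hL g hg
    rw [← Finsupp.prod_finset_sum_index (fun _ => pow_zero _) (fun _ _ _ => pow_add _ _ _),
      Finsupp.prod_add_index' (fun _ => pow_zero _) (fun _ _ _ => pow_add _ _ _)]
    have hps : ∀ (P : Place (ResidueField A) Fb) (n : ℕ),
        (Finsupp.single P n).prod (fun P n => evp P (ρ z) ^ n) = evp P (ρ z) ^ n :=
      fun P n => Finsupp.prod_single_index (pow_zero _)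
    rw [hps, hps, pow_one]
    obtain ⟨h1, h2⟩ := hN z hz
    rw [← h2]
    have hreg := reg_norm a ha hA ht ht' hP hz
    obtain ⟨h3, h4⟩ := (hR S hS hSA).2 ⟨_, h1⟩ hreg
    rw [← h4]
    have hm : ∀ w ∈ S.fiber F', a (z : F) ∈ w.toValuationSubring := fun w hw =>
      mem_of_ord_nonneg w (ord_along_nonneg a ha w (hz _ (hord w hw)))
    obtain ⟨-, h5⟩ := evp_norm ht ht' S hm
    have h6 : ∀ w ∈ S.fiber F', ∃ h : evp w (a (z : F)) ∈ A,
        residue A ⟨_, h⟩ = evp (red (w.restrictAlong a ha)) (ρ z) := by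
      intro w hw
      rw [evp_along a ha w (ht.rational _) (hz _ (hord w hw))]
      exact (hR _ (hord w hw) (hmem w hw)).2 z hz
    choose h7 h8 using h6
    have h9 : (⟨_, h3⟩ : A) = ∏ w ∈ (S.fiber F').attach,
        (⟨evp (w : Place K F') (a (z : F)), h7 _ w.2⟩ : A) ^ ei F (w : Place K F') := by
      apply Subtype.ext
      push_cast
      rw [Finset.prod_attach (S.fiber F') fun w => evp w (a (z : F)) ^ ei F w]
      exact h5
    rw [h9, map_prod, ← Finset.prod_attach (S.fiber F')]
    refine Finset.prod_congr rfl fun w _ => ?_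
    rw [hps, map_pow, h8 _ w.2]

end Abs

end Fermat.Agent.ER
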