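import Mathlib
import Fermat.Agent.ER.ESe

/-!
# The congruence of Eichler and Shimura on places, abstract form
-/

set_option autoImplicit false
set_option linter.unusedSectionVars false
set_option linter.style.haveILetI false

noncomputable section

namespace Fermat.Agent.ER

open AlgebraicCurve Fermat.Agent.Flat Fermat.Agent.FunField Fermat.Agent.MZ
open IsLocalRing
open scoped Classical

theorem evp_pow_mul {κ Fb : Type*} [Field κ] [Field Fb] [Algebra κ Fb] {P : Place κ Fb}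
    (hr : Rational P) {x y : Fb} (hx : x ∈ P.toValuationSubring) (hy : y ∈ P.toValuationSubring)
    (l : ℕ) : evp P (x ^ l * y) = evp P x ^ l * evp P y := by
  rw [evp_mul hr (pow_mem hx l) hy, evp_pow hr hx]

section Abs

variable {K F : Type*} [Field K] [Field F] [Algebra K F]
  [IsAlgClosed K] {A : ValuationSubring K} [IsAlgClosed (ResidueField A)]
  {Fb : Type*} [Field Fb] [Algebra (ResidueField A) Fb] {W : ValuationSubring F} {ρ : W →+* Fb}
  {t : F} {tb : Fb} {l : ℕ}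

/-- A Frobenius, as a semilinear automorphism. -/
structure FrobSL (A : ValuationSubring K) (l : ℕ) (t : F) (g : SemilinearAut K F) : Prop where
  fix : g • t = t
  mem : ∀ x : K, SemilinearAut.baseAut g x ∈ A ↔ x ∈ A
  res : ∀ (x : K) (hx : x ∈ A) (h : SemilinearAut.baseAut g x ∈ A),
    residue A ⟨_, h⟩ = residue A ⟨x, hx⟩ ^ l

theorem ord_sl (g : SemilinearAut K F) (S : Place K F) (z : F) :
    (g • S).ord z = S.ord (g⁻¹ • z) := by
  have h1 : z = g • (g⁻¹ • z) := by rw [smul_inv_smul]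
  conv_lhs => rw [h1]
  rw [SemilinearAut.ord_smul]

theorem evp_sl (ht : Sep K t) (g : SemilinearAut K F) (S : Place K F) {z : F}
    (hz : 0 ≤ (g • S).ord z) :
    evp (g • S) z = SemilinearAut.baseAut g (evp S (g⁻¹ • z)) := by
  rw [ord_sl] at hz
  rw [← rational_smul g (ht.rational S) (mem_of_ord_nonneg S hz), smul_inv_smul]

theorem reg_sl {g : SemilinearAut K F} (hg : g • t = t) {z : F} (hz : Reg K t z) :
    Reg K t (g • z) := by
  intro u hu
  have h1 : u.ord (g • z) = (g⁻¹ • u).ord z := by rw [ord_sl, inv_inv]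
  rw [h1]
  apply hz
  rw [ord_sl, inv_inv, hg]
  exact hu

variable {g : SemilinearAut K F} (hg : FrobSL A l t g)

include hg

theorem FrobSL.fix' : g⁻¹ • t = t := by
  rw [inv_smul_eq_iff, hg.fix]

theorem FrobSL.base_inv (x : K) : SemilinearAut.baseAut g (SemilinearAut.baseAut g⁻¹ x) = x := by
  rw [SemilinearAut.baseAut_inv]
  exact (SemilinearAut.baseAut g).apply_symm_apply x

theorem FrobSL.mem' (x : K) : SemilinearAut.baseAut g⁻¹ x ∈ A ↔ x ∈ A := by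
  rw [← hg.mem, hg.base_inv]

theorem FrobSL.ord_t {S : Place K F} (hS : 0 ≤ S.ord t) : 0 ≤ (g • S).ord t := by
  rw [ord_sl, hg.fix']
  exact hS

theorem FrobSL.ord_t' {S : Place K F} (hS : 0 ≤ S.ord t) : 0 ≤ (g⁻¹ • S).ord t := by
  rw [ord_sl, inv_inv, hg.fix]
  exact hS

theorem FrobSL.evp_t (ht : Sep K t) {S : Place K F} (hS : 0 ≤ S.ord t) (hSA : evp S t ∈ A) :
    evp (g • S) t ∈ A := by
  rw [evp_sl ht g S (hg.ord_t hS), hg.fix', hg.mem]
  exact hSA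

theorem FrobSL.evp_t' (ht : Sep K t) {S : Place K F} (hS : 0 ≤ S.ord t) (hSA : evp S t ∈ A) :
    evp (g⁻¹ • S) t ∈ A := by
  rw [evp_sl ht g⁻¹ S (hg.ord_t' hS), inv_inv, hg.fix, hg.mem']
  exact hSA

/-- values of the right hand side -/
theorem FrobSL.value (ht : Sep K t) (htb : Sep (ResidueField A) tb)
    (hreg : ∀ z : W, Reg K t (z : F) → Reg (ResidueField A) tb (ρ z))
    {red : Place K F → Place (ResidueField A) Fb}
    (hR : ∀ v, 0 ≤ v.ord t → evp v t ∈ A → 0 ≤ (red v).ord tb ∧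
      ∀ z : W, Reg K t (z : F) → ∃ h : evp v (z : F) ∈ A, residue A ⟨_, h⟩ = evp (red v) (ρ z))
    {S : Place K F} (hS : 0 ≤ S.ord t) (hSA : evp S t ∈ A) (z : W)
    (hz : Reg K t (z : F)) (h1 : g • (z : F) ∈ W) (h2 : g⁻¹ • (z : F) ∈ W) :
    evp (red S) (ρ ⟨_, h2⟩ ^ l * ρ ⟨_, h1⟩) =
      evp (red (g • S)) (ρ z) * evp (red (g⁻¹ • S)) (ρ z) ^ l := by
  obtain ⟨hS0, hSz⟩ := hR S hS hSA
  have hz1 := reg_sl hg.fix hz
  have hz2 := reg_sl hg.fix' hz
  have r := htb.rational (red S)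
  have m1 := mem_of_ord_nonneg _ (hreg ⟨_, h1⟩ hz1 _ hS0)
  have m2 := mem_of_ord_nonneg _ (hreg ⟨_, h2⟩ hz2 _ hS0)
  rw [evp_pow_mul r m2 m1]
  obtain ⟨g1, g1'⟩ := hSz ⟨_, h1⟩ hz1
  obtain ⟨g2, g2'⟩ := hSz ⟨_, h2⟩ hz2
  obtain ⟨k1, k1'⟩ := (hR _ (hg.ord_t hS) (hg.evp_t ht hS hSA)).2 z hz
  obtain ⟨k2, k2'⟩ := (hR _ (hg.ord_t' hS) (hg.evp_t' ht hS hSA)).2 z hz
  rw [← g1', ← g2', ← k1', ← k2']
  have v1 : evp (g • S) (z : F) = SemilinearAut.baseAut g (evp S (g⁻¹ • (z : F))) :=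
    evp_sl ht g S (hz _ (hg.ord_t hS))
  have v2 : evp (g⁻¹ • S) (z : F) = SemilinearAut.baseAut g⁻¹ (evp S (g • (z : F))) := by
    have := evp_sl ht g⁻¹ S (hz _ (hg.ord_t' hS))
    rwa [inv_inv] at this
  have v3 : SemilinearAut.baseAut g (evp (g⁻¹ • S) (z : F)) = evp S (g • (z : F)) := by
    rw [v2, hg.base_inv]
  have w1 : residue A ⟨_, k1⟩ = residue A ⟨_, g2⟩ ^ l := by
    have h := (hg.mem _).mpr g2
    rw [← hg.res _ g2 h]
    congr 1
    exact Subtype.ext v1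
  have w2 : residue A ⟨_, k2⟩ ^ l = residue A ⟨_, g1⟩ := by
    have h := (hg.mem _).mpr k2
    rw [← hg.res _ k2 h]
    congr 1
    exact Subtype.ext v3
  rw [w1, w2]

theorem FrobSL.es {F' : Type*} [Field F'] [Algebra K F'] [Algebra F F'] [IsScalarTower K F F']
    [FiniteDimensional F F'] [HasPrincipalDivisors K F']
    (a : F →ₐ[K] F') (ha : a.toRingHom.IsIntegral) (ht : Sep K t)
    (ht' : Sep K (algebraMap F F' t)) (htb : Sep (ResidueField A) tb) (hP : PolyEq F' a A t)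
    (hL : ∀ g : Fb, Reg (ResidueField A) tb g → ∃ z : W, Reg K t (z : F) ∧ ρ z = g)
    (hreg : ∀ z : W, Reg K t (z : F) → Reg (ResidueField A) tb (ρ z))
    {red : Place K F → Place (ResidueField A) Fb}
    (hR : ∀ v, 0 ≤ v.ord t → evp v t ∈ A → 0 ≤ (red v).ord tb ∧
      ∀ z : W, Reg K t (z : F) → ∃ h : evp v (z : F) ∈ A, residue A ⟨_, h⟩ = evp (red v) (ρ z))
    (hN : ∀ z : W, ∃ (h : Algebra.norm F (a (z : F)) ∈ W) (h1 : g • (z : F) ∈ W)
      (h2 : g⁻¹ • (z : F) ∈ W), ρ ⟨_, h⟩ = ρ ⟨_, h2⟩ ^ l * ρ ⟨_, h1⟩)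
    {S : Place K F} (hS : 0 ≤ S.ord t) (hSA : evp S t ∈ A) :
    (∑ w ∈ S.fiber F', Finsupp.single (red (w.restrictAlong a ha)) (ei F w)) =
      Finsupp.single (red (g • S)) 1 + Finsupp.single (red (g⁻¹ • S)) l := by
  refine es_abs a ha ht ht' htb hP hL hR hS hSA (hg.ord_t hS) (hg.evp_t ht hS hSA)
    (hg.ord_t' hS) (hg.evp_t' ht hS hSA) fun z hz => ?_
  obtain ⟨h, h1, h2, h3⟩ := hN z
  exact ⟨h, by rw [h3]; exact hg.value ht htb hreg hR hS hSA z hz h1 h2⟩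

end Abs

end Fermat.Agent.ER
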