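import Mathlib
import Fermat.Agent.ER.RedDef
import Fermat.Agent.Flat.Points2
import Fermat.Agent.MZ.Frob

/-!
# Galois action on places and values
-/

set_option autoImplicit false
set_option linter.unusedSectionVars false
set_option synthInstance.maxHeartbeats 400000

noncomputable section

namespace Fermat.Agent.ER

open AlgebraicCurve Fermat.Agent.Flat Fermat.Agent.FunField Fermat.Agent.MZ Fermat.Agent.GC
open Fermat.Agent.LG Fermat.Agent.ModFun Fermat.Agent.WP Fermat.Agent.Lf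
open Fermat.Agent.ESCore (HauptFn ιC)
open IsLocalRing

/-- The field of algebraic numbers. -/
local notation "Qb" => AlgebraicClosure ℚ
/-- The absolute Galois group. -/
local notation "GQ" => (AlgebraicClosure ℚ ≃ₐ[ℚ] AlgebraicClosure ℚ)

variable {A : ValuationSubring Qb} {l : ℕ} {M : ℕ} [NeZero M]

theorem gal_tF {p : ℕ} [Fact p.Prime] {κ : ℤ} (H : HauptFn p κ) (hp : p ∣ M) (σ : GQ) :
    galF0 M σ • tF H hp = tF H hp := by
  apply Subtype.ext
  exact coeffMap_tS _ p κ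

theorem gal_inv (σ : GQ) (z : F0 Qb M) : galF0 M σ • z⁻¹ = (galF0 M σ • z)⁻¹ :=
  smul_inv'' _ _

theorem gal_tF_inv {p : ℕ} [Fact p.Prime] {κ : ℤ} (H : HauptFn p κ) (hp : p ∣ M) (σ : GQ) :
    galF0 M σ • (tF H hp)⁻¹ = (tF H hp)⁻¹ := by
  rw [gal_inv, gal_tF]

theorem gal_smul_smul (σ τ : GQ) (z : F0 Qb M) :
    galF0 M σ • galF0 M τ • z = galF0 M (σ * τ) • z := by
  rw [map_mul, mul_smul]

theorem gal_smul_smul_place (σ τ : GQ) (v : Place Qb (F0 Qb M)) :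
    galF0 M σ • galF0 M τ • v = galF0 M (σ * τ) • v := by
  rw [map_mul, mul_smul]

theorem ord_gal (σ : GQ) (v : Place Qb (F0 Qb M)) (z : F0 Qb M) :
    (galF0 M σ • v).ord (galF0 M σ • z) = v.ord z := SemilinearAut.ord_smul _ _ _

/-- `ord` at the conjugate place -/
theorem ord_gal' (σ : GQ) (v : Place Qb (F0 Qb M)) (z : F0 Qb M) :
    (galF0 M σ • v).ord z = v.ord (galF0 M σ⁻¹ • z) := by
  rw [← ord_gal σ v, gal_smul_smul, mul_inv_cancel, map_one, one_smul]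

theorem evp_gal (σ : GQ) (v : Place Qb (F0 Qb M)) {z : F0 Qb M}
    (hz : z ∈ v.toValuationSubring) :
    evp (galF0 M σ • v) (galF0 M σ • z) = σ (evp v z) := by
  rw [rational_smul (galF0 M σ) ((sep_F0 M).rational v) hz]
  rfl

/-- values at the conjugate place -/
theorem evp_gal' (σ : GQ) (v : Place Qb (F0 Qb M)) {z : F0 Qb M}
    (hz : 0 ≤ (galF0 M σ • v).ord z) :
    evp (galF0 M σ • v) z = σ (evp v (galF0 M σ⁻¹ • z)) := by
  rw [ord_gal'] at hz
  rw [← evp_gal σ v (mem_of_ord_nonneg v hz), gal_smul_smul, mul_inv_cancel, map_one, one_smul]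

section Res

variable {φ : GQ}

theorem frob_mem_iff (hφ : A.IsFrobeniusAt φ l) {x : Qb} : φ x ∈ A ↔ x ∈ A :=
  mem_iff_of_frob hφ x

theorem frob_mem (hφ : A.IsFrobeniusAt φ l) {x : Qb} (hx : x ∈ A) : φ x ∈ A :=
  (frob_mem_iff hφ).mpr hx

theorem frob_apply_inv (x : Qb) : φ (φ⁻¹ x) = x := by
  change (φ * φ⁻¹) x = x
  rw [mul_inv_cancel]
  rfl

theorem frob_inv_apply (x : Qb) : φ⁻¹ (φ x) = x := by
  change (φ⁻¹ * φ) x = x
  rw [inv_mul_cancel]
  rfl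

theorem frob_inv_mem_iff (hφ : A.IsFrobeniusAt φ l) {x : Qb} : φ⁻¹ x ∈ A ↔ x ∈ A := by
  rw [← frob_mem_iff hφ, frob_apply_inv]

theorem frob_inv_mem (hφ : A.IsFrobeniusAt φ l) {x : Qb} (hx : x ∈ A) : φ⁻¹ x ∈ A :=
  (frob_inv_mem_iff hφ).mpr hx

theorem residue_frob (hφ : A.IsFrobeniusAt φ l) {x : Qb} (hx : x ∈ A) (h : φ x ∈ A) :
    residue A ⟨φ x, h⟩ = residue A ⟨x, hx⟩ ^ l := by
  rw [← sA_frob hφ, sA_residue]
  rfl

theorem residue_frob_inv (hφ : A.IsFrobeniusAt φ l) {x : Qb} (hx : x ∈ A) (h : φ⁻¹ x ∈ A) :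
    residue A ⟨φ⁻¹ x, h⟩ ^ l = residue A ⟨x, hx⟩ := by
  have hx' : φ (φ⁻¹ x) ∈ A := by rwa [frob_apply_inv]
  rw [← residue_frob hφ h hx']
  congr 1
  exact Subtype.ext (frob_apply_inv x)

end Res

end Fermat.Agent.ER
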