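import Mathlib
import Fermat.Agent.ER.RedMain

/-!
# Lifts of regular functions
-/

set_option autoImplicit false
set_option linter.unusedSectionVars false
set_option linter.style.haveILetI false
set_option synthInstance.maxHeartbeats 400000

noncomputable section

namespace Fermat.Agent.ER

open AlgebraicCurve IsDedekindDomain IntermediateField WithZero Module Fermat.Agent.FunField
open Fermat.Agent.Flat
open Fermat.Agent.MZ Fermat.Agent.GC
open Fermat.Agent.LG Fermat.Agent.ModFun Fermat.Agent.Geo Fermat.Agent.Lf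
open Fermat.Agent.ESCore (HauptFn haupt2 haupt3 ιC)
open IsLocalRing ModularCurve

/-- The field of algebraic numbers. -/
local notation "Qb" => AlgebraicClosure ℚ
/-- The absolute Galois group. -/
local notation "GQ" => (AlgebraicClosure ℚ ≃ₐ[ℚ] AlgebraicClosure ℚ)

variable {A : ValuationSubring Qb} {q : ℕ} {p : ℕ} [Fact p.Prime] {κ : ℤ} {N : ℕ} [NeZero N]

theorem lifts_of (hq : q.Prime) (hA : A.LiesOverPrime q) (hqN : ¬ q ∣ N) (hp : p ∣ N)
    {H : HauptFn p κ} {S : Set ℤ} {k : ℕ} {P : Polynomial ℤ} (hH : HautData H S k P)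
    (hS : ∀ c ∈ S, ∀ c' ∈ S, c ≠ c' →
      IsUnit ((c - c' : ℤ) : A.comap (algebraMap (KI A) Qb))) :
    (∀ g : FbK A N, Reg (ResidueField A) (tFb H hp A) g →
      ∃ z : WV hq hA N, Reg Qb (tF H hp) (z : F0 Qb N) ∧ ρV hq hA N z = g) ∧
    ∀ g : FbK A N, Reg (ResidueField A) (tFb H hp A)⁻¹ g →
      ∃ z : WV hq hA N, Reg Qb (tF H hp)⁻¹ (z : F0 Qb N) ∧ ρV hq hA N z = g := by
  have hac : IsAlgClosed (ResidueField A) := isAlgClosed_residueA hq hA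
  obtain ⟨hG, hG'⟩ := goodCrv_both hq hA hqN hp hH hS
  exact ⟨fun g hg => (hG.exists_lift hg).imp fun z hz => ⟨hz.1, hz.2.1⟩,
    fun g hg => (hG'.exists_lift hg).imp fun z hz => ⟨hz.1, hz.2.1⟩⟩

/-- Lifts, `N` even. -/
theorem lifts2 (hq : q.Prime) (hA : A.LiesOverPrime q) (hqN : ¬ q ∣ N) (hN : 2 ∣ N) :
    haveI : Fact (Nat.Prime 2) := ⟨Nat.prime_two⟩
    (∀ g : FbK A N, Reg (ResidueField A) (tFb haupt2 hN A) g →
      ∃ z : WV hq hA N, Reg Qb (tF haupt2 hN) (z : F0 Qb N) ∧ ρV hq hA N z = g) ∧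
    ∀ g : FbK A N, Reg (ResidueField A) (tFb haupt2 hN A)⁻¹ g →
      ∃ z : WV hq hA N, Reg Qb (tF haupt2 hN)⁻¹ (z : F0 Qb N) ∧ ρV hq hA N z = g :=
  haveI : Fact (Nat.Prime 2) := ⟨Nat.prime_two⟩
  lifts_of hq hA hqN hN haut2 (haut2_isUnit hq hA fun h => hqN (h ▸ hN))

/-- Lifts, `3 ∣ N`. -/
theorem lifts3 (hq : q.Prime) (hA : A.LiesOverPrime q) (hqN : ¬ q ∣ N) (hN : 3 ∣ N) :
    haveI : Fact (Nat.Prime 3) := ⟨Nat.prime_three⟩
    (∀ g : FbK A N, Reg (ResidueField A) (tFb haupt3 hN A) g →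
      ∃ z : WV hq hA N, Reg Qb (tF haupt3 hN) (z : F0 Qb N) ∧ ρV hq hA N z = g) ∧
    ∀ g : FbK A N, Reg (ResidueField A) (tFb haupt3 hN A)⁻¹ g →
      ∃ z : WV hq hA N, Reg Qb (tF haupt3 hN)⁻¹ (z : F0 Qb N) ∧ ρV hq hA N z = g :=
  haveI : Fact (Nat.Prime 3) := ⟨Nat.prime_three⟩
  lifts_of hq hA hqN hN haut3 (haut3_isUnit hq hA fun h => hqN (h ▸ hN))

end Fermat.Agent.ER
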