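import Mathlib
import Fermat.Agent.ER.ESf
import Fermat.Agent.ER.CorrS
import Fermat.Agent.ER.GalP
import Fermat.Agent.ER.RedLift

/-!
# The congruence of Eichler and Shimura on places of modular curves
-/

set_option autoImplicit false
set_option linter.unusedSectionVars false
set_option linter.style.haveILetI false
set_option synthInstance.maxHeartbeats 400000

noncomputable section

namespace Fermat.Agent.ER

open AlgebraicCurve Fermat.Agent.Flat Fermat.Agent.FunField Fermat.Agent.MZ Fermat.Agent.GC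
open Fermat.Agent.LG Fermat.Agent.ModFun Fermat.Agent.WP Fermat.Agent.Lf
open Fermat.Agent.ESCore (HauptFn haupt2 haupt3 ιC)
open IsLocalRing ModularCurve

/-- The field of algebraic numbers. -/
local notation "Qb" => AlgebraicClosure ℚ
/-- The absolute Galois group. -/
local notation "GQ" => (AlgebraicClosure ℚ ≃ₐ[ℚ] AlgebraicClosure ℚ)

variable {A : ValuationSubring Qb} {l : ℕ} [NeZero l] {M : ℕ} [NeZero M]
  (hl : l.Prime) (hA : A.LiesOverPrime l)

theorem frobSL {φ : GQ} (hφ : A.IsFrobeniusAt φ l) {t : F0 Qb M}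
    (hfix : ∀ σ : GQ, galF0 M σ • t = t) : FrobSL A l t (galF0 M φ) where
  fix := hfix φ
  mem x := frob_mem_iff hφ
  res x hx h := residue_frob hφ hx h

/-- the action of the Hecke operator on functions -/
theorem norm_red (hlM : ¬ l ∣ M) {φ : GQ} (hφ : A.IsFrobeniusAt φ l) (z : WV hl hA M) :
    letI := algebraAlong (be M l)
    ∃ (h : Algebra.norm (F0 Qb M) (al M l (z : F0 Qb M)) ∈ WV hl hA M)
      (h1 : galF0 M φ • (z : F0 Qb M) ∈ WV hl hA M)
      (h2 : (galF0 M φ)⁻¹ • (z : F0 Qb M) ∈ WV hl hA M),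
      ρV hl hA M ⟨_, h⟩ = ρV hl hA M ⟨_, h2⟩ ^ l * ρV hl hA M ⟨_, h1⟩ := by
  haveI hcp : CharP (ResidueField A) l := FrobDensity.charP_residue hl hA
  haveI hec : ExpChar (ResidueField A) l := ExpChar.prime hl
  obtain ⟨h1, -⟩ := gal_WV hl hA hφ z
  obtain ⟨h2, -⟩ := gal_inv_WV hl hA hφ z
  obtain ⟨h3, h4⟩ := ρV_TF hl hA hlM hφ z h1 h2
  rw [norm_be hl hlM]
  refine ⟨h3, h1, ?_, ?_⟩
  · rw [← map_inv]
    exact h2
  · rw [h4]
    congr 2

theorem mapDomain_es {ι X Y : Type*} (s : Finset ι) (f : ι → X) (n : ι → ℕ) (red : X → Y)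
    {P Q : Y} {l : ℕ}
    (h : ∑ w ∈ s, Finsupp.single (red (f w)) (n w) = Finsupp.single P 1 + Finsupp.single Q l) :
    Finsupp.mapDomain red (∑ w ∈ s, Finsupp.single (f w) ((n w : ℕ) : ℤ)) =
      Finsupp.single P (1 : ℤ) + l • Finsupp.single Q (1 : ℤ) := by
  have h1 := congrArg (Finsupp.mapRange.addMonoidHom (ι := Y) (Nat.castAddMonoidHom ℤ)) h
  rw [map_sum, map_add] at h1
  have h2 : ∀ (y : Y) (m : ℕ), Finsupp.mapRange.addMonoidHom (ι := Y) (Nat.castAddMonoidHom ℤ)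
      (Finsupp.single y m) = Finsupp.single y (m : ℤ) := by
    intro y m
    exact Finsupp.mapRange_single (hf := map_zero _)
  rw [h2, h2, Nat.cast_one] at h1
  rw [Finsupp.mapDomain_finset_sum, Finsupp.smul_single, nsmul_one, ← h1]
  refine Finset.sum_congr rfl fun w _ => ?_
  rw [Finsupp.mapDomain_single, h2]

open scoped Classical in
/-- the congruence in a chart -/
theorem es_chart (hlM : ¬ l ∣ M) {φ : GQ} (hφ : A.IsFrobeniusAt φ l)
    [HasPrincipalDivisors Qb (F0 Qb (M * l))] (hα : (al M l).toRingHom.IsIntegral)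
    (hβ : (be M l).toRingHom.IsIntegral) {t : F0 Qb M} {tb : FbK A M} (ht : Sep Qb t)
    (htb : Sep (ResidueField A) tb) (hfix : ∀ σ : GQ, galF0 M σ • t = t)
    (hP : @PolyEq (F0 Qb (M * l)) Qb (F0 Qb M) _ _ _ _ _ (algebraAlong (be M l)) (al M l) A t)
    (hL : ∀ g : FbK A M, Reg (ResidueField A) tb g →
      ∃ z : WV hl hA M, Reg Qb t (z : F0 Qb M) ∧ ρV hl hA M z = g)
    (hreg : ∀ z : WV hl hA M, Reg Qb t (z : F0 Qb M) → Reg (ResidueField A) tb (ρV hl hA M z))
    {red : Place Qb (F0 Qb M) → Place (ResidueField A) (FbK A M)}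
    (hR : ∀ v, ChartAt hl hA t tb v (red v)) (S : Place Qb (F0 Qb M)) (hS : 0 ≤ S.ord t)
    (hSA : evp S t ∈ A) :
    Finsupp.mapDomain red
      (Divisor.correspondence (be M l) (al M l) hβ hα (Finsupp.single S 1)) =
      Finsupp.single (red (galF0 M φ • S)) 1 +
        (l : ℕ) • Finsupp.single (red (galF0 M φ⁻¹ • S)) (1 : ℤ) := by
  haveI hac : IsAlgClosed (ResidueField A) := isAlgClosed_residueA hl hA
  letI := algebraAlong (be M l)
  haveI := isScalarTower_along (be M l)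
  haveI := isIntegral_along (be M l) hβ
  haveI : FiniteDimensional (F0 Qb M) (F0 Qb (M * l)) := finA_be hl hlM
  have h1 := (frobSL hφ hfix).es (al M l) hα ht (sep_map ht) htb hP hL hreg hR
    (norm_red hl hA hlM hφ) hS hSA
  rw [corr_single' hl hlM hα hβ S, map_inv]
  exact mapDomain_es _ _ _ _ h1

/-- **the congruence of Eichler and Shimura** on places -/
theorem es_point_of {p : ℕ} [Fact p.Prime] {κ : ℤ} (hp : p ∣ M) {H : HauptFn p κ} {S₀ : Set ℤ}
    {k : ℕ} {P : Polynomial ℤ} (hH : HautData H S₀ k P)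
    (hS : ∀ c ∈ S₀, ∀ c' ∈ S₀, c ≠ c' →
      IsUnit ((c - c' : ℤ) : A.comap (algebraMap (KI A) Qb)))
    (hκ : ¬ (l : ℤ) ∣ κ) {red : Place Qb (F0 Qb M) → Place (ResidueField A) (FbK A M)}
    (hR : RedMap hl hA (tF H hp) (tFb H hp A) red)
    (hlM : ¬ l ∣ M) {φ : GQ} (hφ : A.IsFrobeniusAt φ l)
    [HasPrincipalDivisors Qb (F0 Qb (M * l))] (hα : (al M l).toRingHom.IsIntegral)
    (hβ : (be M l).toRingHom.IsIntegral) (S : Place Qb (F0 Qb M)) :
    Finsupp.mapDomain red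
      (Divisor.correspondence (be M l) (al M l) hβ hα (Finsupp.single S 1)) =
      Finsupp.single (red (galF0 M φ • S)) 1 +
        (l : ℕ) • Finsupp.single (red (galF0 M φ⁻¹ • S)) (1 : ℤ) := by
  have hac : IsAlgClosed (ResidueField A) := isAlgClosed_residueA hl hA
  obtain ⟨hG, hG'⟩ := goodCrv_both hl hA hlM hp hH hS
  obtain ⟨hL, hL'⟩ := lifts_of hl hA hlM hp hH hS
  rcases inCh_or (A := A) hG.sep S with ⟨h1, h2⟩ | ⟨h1, h2⟩
  · exact es_chart hl hA hlM hφ hα hβ hG.sep hG.sepb (gal_tF H hp) (polyEq_T hl hlM hA H hp) hL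
      (fun z hz => hG.reg_red hz) hR.c0 S h1 h2
  · exact es_chart hl hA hlM hφ hα hβ hG'.sep hG'.sepb (gal_tF_inv H hp)
      (polyEq_Tinv hl hlM hκ hA H hp) hL' (fun z hz => hG'.reg_red hz) hR.c1 S h1 h2

/-- the congruence on places, even level -/
theorem es_point2 (hN : 2 ∣ M) {red : Place Qb (F0 Qb M) → Place (ResidueField A) (FbK A M)}
    (hR : haveI : Fact (Nat.Prime 2) := ⟨Nat.prime_two⟩
      RedMap hl hA (tF haupt2 hN) (tFb haupt2 hN A) red)
    (hlM : ¬ l ∣ M) {φ : GQ} (hφ : A.IsFrobeniusAt φ l)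
    [HasPrincipalDivisors Qb (F0 Qb (M * l))] (hα : (al M l).toRingHom.IsIntegral)
    (hβ : (be M l).toRingHom.IsIntegral) (S : Place Qb (F0 Qb M)) :
    Finsupp.mapDomain red
      (Divisor.correspondence (be M l) (al M l) hβ hα (Finsupp.single S 1)) =
      Finsupp.single (red (galF0 M φ • S)) 1 +
        (l : ℕ) • Finsupp.single (red (galF0 M φ⁻¹ • S)) (1 : ℤ) := by
  haveI : Fact (Nat.Prime 2) := ⟨Nat.prime_two⟩
  have hne : l ≠ 2 := fun h => hlM (h ▸ hN)
  refine es_point_of hl hA hN haut2 (haut2_isUnit hl hA hne) ?_ hR hlM hφ hα hβ S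
  intro h
  have h1 : l ∣ 2 ^ 4 := by exact_mod_cast h
  exact hne ((Nat.prime_dvd_prime_iff_eq hl Nat.prime_two).mp (hl.dvd_of_dvd_pow h1))

/-- the congruence on places, level divisible by `3` -/
theorem es_point3 (hN : 3 ∣ M) {red : Place Qb (F0 Qb M) → Place (ResidueField A) (FbK A M)}
    (hR : haveI : Fact (Nat.Prime 3) := ⟨Nat.prime_three⟩
      RedMap hl hA (tF haupt3 hN) (tFb haupt3 hN A) red)
    (hlM : ¬ l ∣ M) {φ : GQ} (hφ : A.IsFrobeniusAt φ l)
    [HasPrincipalDivisors Qb (F0 Qb (M * l))] (hα : (al M l).toRingHom.IsIntegral)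
    (hβ : (be M l).toRingHom.IsIntegral) (S : Place Qb (F0 Qb M)) :
    Finsupp.mapDomain red
      (Divisor.correspondence (be M l) (al M l) hβ hα (Finsupp.single S 1)) =
      Finsupp.single (red (galF0 M φ • S)) 1 +
        (l : ℕ) • Finsupp.single (red (galF0 M φ⁻¹ • S)) (1 : ℤ) := by
  haveI : Fact (Nat.Prime 3) := ⟨Nat.prime_three⟩
  have hne : l ≠ 3 := fun h => hlM (h ▸ hN)
  refine es_point_of hl hA hN haut3 (haut3_isUnit hl hA hne) ?_ hR hlM hφ hα hβ S
  intro h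
  have h1 : l ∣ 3 := by exact_mod_cast h
  exact hne ((Nat.prime_dvd_prime_iff_eq hl Nat.prime_three).mp h1)

end Fermat.Agent.ER
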