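import Mathlib
import Fermat.Agent.ER.Bc

/-!
# The group of relations
-/

set_option autoImplicit false
set_option linter.unusedSectionVars false
set_option linter.style.haveILetI false
set_option synthInstance.maxHeartbeats 400000

noncomputable section

namespace Fermat.Agent.ER

open AlgebraicCurve Fermat.Agent.Flat Fermat.Agent.FunField Fermat.Agent.MZ
open Fermat.Agent.LG Fermat.Agent.ModFun Fermat.Agent.WP
open Fermat.Agent.ESCore (ιC)
open ModularCurve (qExpand jqModC coeffMap)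
open scoped Classical Pointwise

/-- The field of algebraic numbers. -/
local notation "Qb" => AlgebraicClosure ℚ
/-- The absolute Galois group. -/
local notation "GQ" => (AlgebraicClosure ℚ ≃ₐ[ℚ] AlgebraicClosure ℚ)

section

variable {N l : ℕ} [NeZero N] [NeZero l] (A : ValuationSubring Qb) (φ : GQ)
  (hl : l.Prime) (hlN : ¬ l ∣ N)

/-- the relations -/
def relD : Set (Divisor Qb (F0 Qb N)) :=
  {E | (∃ σ ∈ A.inertiaSubgroupIn ℚ, ∃ D, E = galF0 N σ • D - D) ∨
    ∃ D, E = galF0 N φ • galF0 N φ • D - TD hl hlN (galF0 N φ • D) + (l : ℕ) • D}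

/-- the group of relations -/
def KD : AddSubgroup (Divisor Qb (F0 Qb N)) := AddSubgroup.closure (relD A φ hl hlN)

/-- the relations have no torsion of order `m` modulo principal divisors -/
def PP (m : ℕ) : Prop :=
  ∀ D ∈ KD A φ hl hlN, Divisor.IsPrincipal (m • D) → Divisor.IsPrincipal D

end

section Descend

variable {N l r : ℕ} [NeZero N] [NeZero l] [NeZero r] {A : ValuationSubring Qb} {φ : GQ}
  (hl : l.Prime) (hlN : ¬ l ∣ N) (hlM : ¬ l ∣ N * r) (hr : r.Prime) (hrN : ¬ r ∣ N)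

theorem be_smul (σ : GQ) (x : F0 Qb N) :
    galF0 (N * r) σ • be N r x = be N r (galF0 N σ • x) := by
  apply Subtype.ext
  rw [coe_galF0_smul, coe_be, coe_be, coe_galF0_smul, ModularCurve.coeffMap_qExpand]

theorem pull_mem {D : Divisor Qb (F0 Qb N)} (hD : D ∈ KD A φ hl hlN) :
    Divisor.pullbackAlong (be N r) (hbe hr hrN) D ∈ KD A φ hl hlM := by
  have h1 : KD A φ hl hlN ≤
      (KD A φ hl hlM).comap (Divisor.pullbackAlong (be N r) (hbe hr hrN)) := by
    rw [KD, AddSubgroup.closure_le]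
    rintro E (⟨σ, hσ, D, rfl⟩ | ⟨D, rfl⟩)
    · apply AddSubgroup.subset_closure
      left
      refine ⟨σ, hσ, Divisor.pullbackAlong (be N r) (hbe hr hrN) D, ?_⟩
      rw [map_sub, pullbackAlong_smul _ (be_smul σ)]
    · apply AddSubgroup.subset_closure
      right
      refine ⟨Divisor.pullbackAlong (be N r) (hbe hr hrN) D, ?_⟩
      rw [map_add, map_sub, map_nsmul, pullbackAlong_smul _ (be_smul φ),
        pullbackAlong_smul _ (be_smul φ), TD_be hl hlN hlM hr hrN,
        pullbackAlong_smul _ (be_smul φ)]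
  exact h1 hD

include hr hrN in
theorem PP_descend {m : ℕ} (hm : m ≠ 0) (h : PP A φ hl hlM m) : PP A φ hl hlN m := by
  rintro D hD ⟨f, hf, hfD⟩
  have h1 : Divisor.IsPrincipal (m • Divisor.pullbackAlong (be N r) (hbe hr hrN) D) := by
    rw [← map_nsmul]
    exact Divisor.isPrincipal_pullbackAlong _ _ ⟨f, hf, hfD⟩
  obtain ⟨u, hu, huD⟩ := h _ (pull_mem hl hlN hlM hr hrN hD) h1
  -- `be f = c u ^ m`
  have hbf : be N r f ≠ 0 := (map_ne_zero _).mpr hf
  have hum : u ^ m ≠ 0 := pow_ne_zero _ hu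
  have h2 : ∀ w : Place Qb (F0 Qb (N * r)), w.ord (be N r f) = m * w.ord u := by
    intro w
    rw [← pullback_ord (hbe hr hrN) hfD w, map_nsmul, Finsupp.smul_apply, huD, nsmul_eq_mul]
  obtain ⟨c, hc⟩ := (sep_F0 (N * r)).const (z := be N r f / u ^ m) fun w => by
    rw [div_eq_mul_inv, Place.ord_mul _ hbf (inv_ne_zero hum), Place.ord_inv, h2]
    have : w.ord (u ^ m) = m * w.ord u := by
      rw [← zpow_natCast, Place.ord_zpow]
    rw [this]
    omega
  obtain ⟨c', hc'⟩ := IsAlgClosed.exists_pow_nat_eq c (Nat.pos_of_ne_zero hm)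
  have h3 : be N r f = (algebraMap Qb (F0 Qb (N * r)) c' * u) ^ m := by
    rw [mul_pow, ← map_pow, hc', hc, div_mul_cancel₀ _ hum]
  have hdvd : ∀ v : Place Qb (F0 Qb N), (m : ℤ) ∣ v.ord f := by
    intro v
    rw [← hfD v, Finsupp.smul_apply, nsmul_eq_mul]
    exact dvd_mul_right _ _
  obtain ⟨u₀, hu₀⟩ := root_descend hr hm hf hdvd h3
  have hu₀0 : u₀ ≠ 0 := by
    rintro rfl
    rw [zero_pow hm] at hu₀
    exact hf hu₀
  refine ⟨u₀, hu₀0, fun v => ?_⟩
  have h4 := hfD v
  rw [Finsupp.smul_apply, nsmul_eq_mul, hu₀, ← zpow_natCast, Place.ord_zpow] at h4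
  have hm' : (m : ℤ) ≠ 0 := by exact_mod_cast hm
  exact mul_left_cancel₀ hm' (by rw [h4])

end Descend

section Red

variable {N l : ℕ} [NeZero N] [NeZero l] {A : ValuationSubring Qb} {φ : GQ}
  {hl : l.Prime} {hlN : ¬ l ∣ N} {X : Type*} {red : Place Qb (F0 Qb N) → X}

theorem mapDomain_smul (g : SemilinearAut Qb (F0 Qb N)) (D : Divisor Qb (F0 Qb N)) :
    Finsupp.mapDomain red (g • D) = Finsupp.mapDomain (fun v => red (g • v)) D := by
  rw [SemilinearAut.divisor_smul_def, ← Finsupp.mapDomain_comp]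
  rfl

theorem es_div (hES : ∀ S : Place Qb (F0 Qb N),
      Finsupp.mapDomain red (TD hl hlN (Finsupp.single S 1)) =
        Finsupp.single (red (galF0 N φ • S)) (1 : ℤ) +
          (l : ℕ) • Finsupp.single (red (galF0 N φ⁻¹ • S)) (1 : ℤ))
    (D : Divisor Qb (F0 Qb N)) : Finsupp.mapDomain red (TD hl hlN D) =
      Finsupp.mapDomain (fun v => red (galF0 N φ • v)) D +
        (l : ℕ) • Finsupp.mapDomain (fun v => red (galF0 N φ⁻¹ • v)) D := by
  let T₁ : Divisor Qb (F0 Qb N) →+ (X →₀ ℤ) :=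
    (Finsupp.mapDomain.addMonoidHom red).comp (TD hl hlN)
  let T₂ : Divisor Qb (F0 Qb N) →+ (X →₀ ℤ) :=
    Finsupp.mapDomain.addMonoidHom (fun v => red (galF0 N φ • v)) +
      (l : ℕ) • Finsupp.mapDomain.addMonoidHom (fun v => red (galF0 N φ⁻¹ • v))
  have h : T₁ = T₂ := by
    apply Finsupp.addHom_ext
    intro S n
    have h1 : (Finsupp.single S n : Divisor Qb (F0 Qb N)) =
        n • (Finsupp.single S 1 : Divisor Qb (F0 Qb N)) := by
      rw [Finsupp.smul_single, smul_eq_mul, mul_one]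
    rw [h1, map_zsmul, map_zsmul]
    congr 1
    change Finsupp.mapDomain red (TD hl hlN (Finsupp.single S 1)) =
      Finsupp.mapDomain (fun v => red (galF0 N φ • v)) (Finsupp.single S 1) +
        (l : ℕ) • Finsupp.mapDomain (fun v => red (galF0 N φ⁻¹ • v)) (Finsupp.single S 1)
    rw [hES, Finsupp.mapDomain_single, Finsupp.mapDomain_single]
  exact DFunLike.congr_fun h D

theorem PP_of_red {m : ℕ}
    (hI : ∀ σ ∈ A.inertiaSubgroupIn ℚ, ∀ v, red (galF0 N σ • v) = red v)
    (hker : ∀ D : Divisor Qb (F0 Qb N), Divisor.IsPrincipal (m • D) →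
      Finsupp.mapDomain red D = 0 → Divisor.IsPrincipal D)
    (hES : ∀ S : Place Qb (F0 Qb N),
      Finsupp.mapDomain red (TD hl hlN (Finsupp.single S 1)) =
        Finsupp.single (red (galF0 N φ • S)) (1 : ℤ) +
          (l : ℕ) • Finsupp.single (red (galF0 N φ⁻¹ • S)) (1 : ℤ)) :
    PP A φ hl hlN m := by
  intro D hD hmD
  refine hker D hmD ?_
  have h1 : KD A φ hl hlN ≤
      (Finsupp.mapDomain.addMonoidHom red : Divisor Qb (F0 Qb N) →+ (X →₀ ℤ)).ker := by
    rw [KD, AddSubgroup.closure_le]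
    rintro E (⟨σ, hσ, D, rfl⟩ | ⟨D, rfl⟩)
    · rw [SetLike.mem_coe, AddMonoidHom.mem_ker, map_sub, sub_eq_zero]
      change Finsupp.mapDomain red _ = Finsupp.mapDomain red _
      rw [mapDomain_smul]
      congr 1
      funext v
      exact hI σ hσ v
    · rw [SetLike.mem_coe, AddMonoidHom.mem_ker, map_add, map_sub, map_nsmul]
      change Finsupp.mapDomain red _ - Finsupp.mapDomain red _ +
        (l : ℕ) • Finsupp.mapDomain red _ = 0
      rw [es_div hES, mapDomain_smul, SemilinearAut.divisor_smul_def (galF0 N φ) D,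
        ← Finsupp.mapDomain_comp, ← Finsupp.mapDomain_comp]
      have h2 : ((fun v => red (galF0 N φ⁻¹ • v)) ∘ fun v => galF0 N φ • v) = red := by
        funext v
        change red (galF0 N φ⁻¹ • galF0 N φ • v) = red v
        rw [← mul_smul, ← map_mul, inv_mul_cancel, map_one, one_smul]
      rw [h2]
      abel
  exact h1 hD

end Red

end Fermat.Agent.ER
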