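import Mathlib
import Fermat.Agent.ER.Kd

/-!
# Transport to the class group
-/

set_option autoImplicit false
set_option linter.unusedSectionVars false
set_option linter.style.haveILetI false
set_option synthInstance.maxHeartbeats 400000

noncomputable section

namespace Fermat.Agent.ER

open AlgebraicCurve Fermat.Agent.Flat Fermat.Agent.FunField Fermat.Agent.MZ
open Fermat.Agent.LG Fermat.Agent.ModFun Fermat.Agent.WP
open Fermat.Agent.ESCore (ιC)
open ModularCurve (qExpand jqModC coeffMap)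
open scoped Classical Pointwise

/-- The field of algebraic numbers. -/
local notation "Qb" => AlgebraicClosure ℚ
/-- The absolute Galois group. -/
local notation "GQ" => (AlgebraicClosure ℚ ≃ₐ[ℚ] AlgebraicClosure ℚ)

theorem pic_mk_eq_zero {K F : Type*} [Field K] [Field F] [Algebra K F]
    (D : Divisor.degZero (K := K) (F := F)) :
    Pic0.mk D = 0 ↔ Divisor.IsPrincipal (D : Divisor K F) :=
  (QuotientAddGroup.eq_zero_iff D).trans AddSubgroup.mem_addSubgroupOf

theorem pic_mk_nsmul {K F : Type*} [Field K] [Field F] [Algebra K F] (m : ℕ)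
    (D : Divisor.degZero (K := K) (F := F)) : m • Pic0.mk D = Pic0.mk (m • D) := rfl

theorem pic_mk_sub {K F : Type*} [Field K] [Field F] [Algebra K F]
    (D E : Divisor.degZero (K := K) (F := F)) : Pic0.mk D - Pic0.mk E = Pic0.mk (D - E) := rfl

theorem pic_mk_neg {K F : Type*} [Field K] [Field F] [Algebra K F]
    (D : Divisor.degZero (K := K) (F := F)) : - Pic0.mk D = Pic0.mk (-D) := rfl

/-- the relations in the class group -/
def relP {J : Type*} [AddCommGroup J] (G : GQ → J → J) (T : J → J) (A : ValuationSubring Qb)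
    (φ : GQ) (l : ℕ) : Set J :=
  {y | (∃ σ ∈ A.inertiaSubgroupIn ℚ, ∃ x, y = G σ x - x) ∨
    ∃ x, y = G φ (G φ x) - T (G φ x) + (l : ℕ) • x}

section

variable {N l : ℕ} [NeZero N] [NeZero l] {A : ValuationSubring Qb} {φ : GQ}
  (hl : l.Prime) (hlN : ¬ l ∣ N)

theorem exists_div {hβ : (be N l).toRingHom.IsIntegral} {hα : (al N l).toRingHom.IsIntegral}
    (hFI : FundamentalIdentityAlong Qb (be N l) hβ) (hfin : FiniteAlong Qb (al N l))
    (hN : NormFormulaAlong Qb (al N l) hfin) {y : Pic0 Qb (F0 Qb N)}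
    (hy : y ∈ AddSubgroup.closure (relP (fun (σ : GQ) (x : Pic0 Qb (F0 Qb N)) => galF0 N σ • x)
      (fun x => Pic0.correspondence (be N l) (al N l) hβ hα hFI hfin hN x) A φ l)) :
    ∃ D : Divisor.degZero (K := Qb) (F := F0 Qb N), Pic0.mk D = y ∧
      (D : Divisor Qb (F0 Qb N)) ∈ KD A φ hl hlN := by
  induction hy using AddSubgroup.closure_induction with
  | mem y hy =>
    rcases hy with ⟨σ, hσ, x, rfl⟩ | ⟨x, rfl⟩
    · obtain ⟨D, rfl⟩ := Pic0.mk_surjective x
      refine ⟨SemilinearAut.degZeroSMulHom (galF0 N σ) D - D, ?_, ?_⟩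
      · rfl
      · exact AddSubgroup.subset_closure (Or.inl ⟨σ, hσ, D, rfl⟩)
    · obtain ⟨D, rfl⟩ := Pic0.mk_surjective x
      refine ⟨SemilinearAut.degZeroSMulHom (galF0 N φ)
        (SemilinearAut.degZeroSMulHom (galF0 N φ) D) -
        Pic0.degZeroCorrespondence (be N l) (al N l) hβ hα hFI
          (SemilinearAut.degZeroSMulHom (galF0 N φ) D) + (l : ℕ) • D, ?_, ?_⟩
      · rfl
      · exact AddSubgroup.subset_closure (Or.inr ⟨D, rfl⟩)
  | zero => exact ⟨0, rfl, zero_mem _⟩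
  | add x y _ _ hx hy =>
    obtain ⟨D, rfl, hD⟩ := hx
    obtain ⟨D', rfl, hD'⟩ := hy
    exact ⟨D + D', rfl, add_mem hD hD'⟩
  | neg x _ hx =>
    obtain ⟨D, rfl, hD⟩ := hx
    exact ⟨-D, rfl, neg_mem hD⟩

theorem torsionfree_F0 {m : ℕ} (hP : PP A φ hl hlN m)
    {hβ : (be N l).toRingHom.IsIntegral} {hα : (al N l).toRingHom.IsIntegral}
    (hFI : FundamentalIdentityAlong Qb (be N l) hβ) (hfin : FiniteAlong Qb (al N l))
    (hN : NormFormulaAlong Qb (al N l) hfin) {y : Pic0 Qb (F0 Qb N)}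
    (hy : y ∈ AddSubgroup.closure (relP (fun (σ : GQ) (x : Pic0 Qb (F0 Qb N)) => galF0 N σ • x)
      (fun x => Pic0.correspondence (be N l) (al N l) hβ hα hFI hfin hN x) A φ l))
    (hm : m • y = 0) : y = 0 := by
  obtain ⟨D, rfl, hD⟩ := exists_div hl hlN hFI hfin hN hy
  rw [pic_mk_nsmul, pic_mk_eq_zero] at hm
  rw [pic_mk_eq_zero]
  exact hP _ hD hm

theorem torsionfree {m : ℕ} (hP : PP A φ hl hlN m)
    {E E' : IntermediateField Qb (LaurentSeries Qb)} (hE : E = F0 Qb N) (hE' : E' = F0 Qb (N * l))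
    (γ : GQ →* SemilinearAut Qb E) (hγ : ∀ (σ : GQ) (x : E), ((γ σ • x : E) : LaurentSeries Qb) =
      coeffMap ((σ.toRingEquiv : Qb ≃+* Qb) : Qb →+* Qb) x)
    (α β : E →ₐ[Qb] E') (hα : ∀ x : E, (α x : LaurentSeries Qb) = x)
    (hβ : ∀ x : E, (β x : LaurentSeries Qb) = qExpand Qb l x) [HasPrincipalDivisors Qb E']
    {hβi : β.toRingHom.IsIntegral} {hαi : α.toRingHom.IsIntegral}
    (hFI : FundamentalIdentityAlong Qb β hβi) (hfin : FiniteAlong Qb α)
    (hN : NormFormulaAlong Qb α hfin) {y : Pic0 Qb E}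
    (hy : y ∈ AddSubgroup.closure (relP (fun (σ : GQ) (x : Pic0 Qb E) => γ σ • x)
      (fun x => Pic0.correspondence β α hβi hαi hFI hfin hN x) A φ l))
    (hm : m • y = 0) : y = 0 := by
  subst hE hE'
  have hγ' : γ = galF0 N := by
    apply MonoidHom.ext
    intro σ
    have h1 : ∀ x : F0 Qb N, γ σ • x = galF0 N σ • x := fun x => Subtype.ext (hγ σ x)
    apply Subtype.ext
    refine Prod.ext (RingEquiv.ext h1) (RingEquiv.ext fun a => ?_)
    apply (algebraMap Qb (F0 Qb N)).injective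
    have h2 := SemilinearAut.smul_algebraMap (γ σ) a
    have h3 := SemilinearAut.smul_algebraMap (galF0 N σ) a
    rw [h1, h3] at h2
    exact h2.symm
  subst hγ'
  have hα' : α = al N l := AlgHom.ext fun x => Subtype.ext (by rw [hα, coe_al])
  have hβ' : β = be N l := AlgHom.ext fun x => Subtype.ext (by rw [hβ, coe_be])
  subst hα' hβ'
  exact torsionfree_F0 hl hlN hP hFI hfin hN hy hm

include hl hlN in
theorem inputs_of {E E' : IntermediateField Qb (LaurentSeries Qb)} (hE : E = F0 Qb N)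
    (hE' : E' = F0 Qb (N * l)) (α β : E →ₐ[Qb] E')
    (hα : ∀ x : E, (α x : LaurentSeries Qb) = x)
    (hβ : ∀ x : E, (β x : LaurentSeries Qb) = qExpand Qb l x) :
    ∃ (_ : α.toRingHom.IsIntegral) (hβi : β.toRingHom.IsIntegral)
      (_ : HasPrincipalDivisors Qb E') (hfin : FiniteAlong Qb α),
      FundamentalIdentityAlong Qb β hβi ∧ NormFormulaAlong Qb α hfin := by
  subst hE hE'
  have hα' : α = al N l := AlgHom.ext fun x => Subtype.ext (by rw [hα, coe_al])
  have hβ' : β = be N l := AlgHom.ext fun x => Subtype.ext (by rw [hβ, coe_be])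
  subst hα' hβ'
  exact ⟨hal hl hlN, hbe hl hlN, hpd _, finA_al hl hlN,
    fi_along (finA_be hl hlN) _ (sep_F0 N), nf_along (finA_al hl hlN) (sep_F0 N)⟩

end

end Fermat.Agent.ER
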