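import Mathlib
import Fermat.Agent.ER.PicK
import Fermat.Agent.Flat.Unram3
import Fermat.Agent.GaloisBasics.FrobeniusExists
import Fermat.Agent.S24
import Fermat.Prelude.Def_ModularCurve_HeckeModule

/-!
# The quotient by the relations
-/

set_option autoImplicit false
set_option linter.unusedSectionVars false
set_option linter.style.haveILetI false
set_option synthInstance.maxHeartbeats 400000

noncomputable section

namespace Fermat.Agent.ER

open AlgebraicCurve Fermat.Agent.Flat Fermat.Agent.FunField Fermat.Agent.MZ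
open Fermat.Agent.LG Fermat.Agent.ModFun Fermat.Agent.WP
open ModularCurve (qExpand jqModC coeffMap HeckeAlg heckeGen)
open scoped Pointwise

/-- The field of algebraic numbers. -/
local notation "Qb" => AlgebraicClosure ℚ
/-- The absolute Galois group. -/
local notation "GQ" => (AlgebraicClosure ℚ ≃ₐ[ℚ] AlgebraicClosure ℚ)

/-- two Frobenius elements differ by inertia -/
theorem frob_diff' {A : ValuationSubring Qb} {q : ℕ} {φ φ' : GQ} (h : A.IsFrobeniusAt φ q)
    (h' : A.IsFrobeniusAt φ' q) : φ⁻¹ * φ' ∈ A.inertiaSubgroupIn ℚ := by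
  obtain ⟨hd, h⟩ := h
  obtain ⟨hd', h'⟩ := h'
  refine Subgroup.mem_map.mpr ⟨(⟨φ, hd⟩ : A.decompositionSubgroup ℚ)⁻¹ * ⟨φ', hd'⟩, ?_, rfl⟩
  rw [ValuationSubring.inertiaSubgroup, MonoidHom.mem_ker]
  ext y
  change ((⟨φ, hd⟩ : A.decompositionSubgroup ℚ)⁻¹ * ⟨φ', hd'⟩) • y = y
  rw [mul_smul, h', inv_smul_eq_iff, h]

section Q

variable {J : Type} [AddCommGroup J] [Module HeckeAlg J] [DistribMulAction GQ J]
  [SMulCommClass GQ HeckeAlg J] {l : ℕ} (hl : l.Prime) (A : ValuationSubring Qb) (φ : GQ)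

/-- the submodule of relations -/
def KS : Submodule HeckeAlg J :=
  { AddSubgroup.closure (relP (fun (σ : GQ) (x : J) => σ • x)
      (fun x => heckeGen ⟨l, hl⟩ • x) A φ l) with
    smul_mem' := fun t y hy => by
      have h1 : AddSubgroup.closure (relP (fun (σ : GQ) (x : J) => σ • x)
          (fun x => heckeGen ⟨l, hl⟩ • x) A φ l) ≤
          (AddSubgroup.closure (relP (fun (σ : GQ) (x : J) => σ • x)
            (fun x => heckeGen ⟨l, hl⟩ • x) A φ l)).comap (DistribSMul.toAddMonoidHom J t) := by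
        rw [AddSubgroup.closure_le]
        rintro y (⟨σ, hσ, x, rfl⟩ | ⟨x, rfl⟩)
        · apply AddSubgroup.subset_closure
          refine Or.inl ⟨σ, hσ, t • x, ?_⟩
          change t • (σ • x - x) = σ • t • x - t • x
          rw [smul_sub, smul_comm σ t x]
        · apply AddSubgroup.subset_closure
          refine Or.inr ⟨t • x, ?_⟩
          change t • (φ • φ • x - heckeGen ⟨l, hl⟩ • φ • x + l • x) =
            φ • φ • t • x - heckeGen ⟨l, hl⟩ • φ • t • x + l • t • x
          rw [smul_comm φ t x, smul_comm φ t (φ • x), smul_comm (heckeGen ⟨l, hl⟩) t (φ • x),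
            smul_add, smul_sub, smul_comm t l x]
      exact h1 hy }

theorem mem_KS {y : J} : y ∈ (KS hl A φ : Submodule HeckeAlg J) ↔
    y ∈ AddSubgroup.closure (relP (fun (σ : GQ) (x : J) => σ • x)
      (fun x => heckeGen ⟨l, hl⟩ • x) A φ l) := Iff.rfl

/-- the action of Frobenius as a linear map -/
def phiL : J →ₗ[HeckeAlg] J where
  toFun x := φ • x
  map_add' := smul_add φ
  map_smul' t x := smul_comm φ t x

variable {A φ}

theorem KS_le (hφ : A.IsFrobeniusAt φ l) :
    (KS hl A φ : Submodule HeckeAlg J) ≤ (KS hl A φ).comap (phiL φ) := by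
  intro y hy
  rw [mem_KS] at hy
  have h1 : AddSubgroup.closure (relP (fun (σ : GQ) (x : J) => σ • x)
      (fun x => heckeGen ⟨l, hl⟩ • x) A φ l) ≤
      (AddSubgroup.closure (relP (fun (σ : GQ) (x : J) => σ • x)
        (fun x => heckeGen ⟨l, hl⟩ • x) A φ l)).comap (DistribSMul.toAddMonoidHom J φ) := by
    rw [AddSubgroup.closure_le]
    rintro y (⟨σ, hσ, x, rfl⟩ | ⟨x, rfl⟩)
    · apply AddSubgroup.subset_closure
      refine Or.inl ⟨φ * σ * φ⁻¹, ?_, φ • x, ?_⟩
      · have h2 := inertia_conj (inv_mem hφ.mem_decompositionSubgroup) hσ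
        rwa [inv_inv] at h2
      · change φ • (σ • x - x) = (φ * σ * φ⁻¹) • φ • x - φ • x
        rw [smul_sub, mul_smul, mul_smul, inv_smul_smul]
    · apply AddSubgroup.subset_closure
      refine Or.inr ⟨φ • x, ?_⟩
      change φ • (φ • φ • x - heckeGen ⟨l, hl⟩ • φ • x + l • x) =
        φ • φ • φ • x - heckeGen ⟨l, hl⟩ • φ • φ • x + l • φ • x
      rw [smul_add, smul_sub, smul_comm φ (heckeGen ⟨l, hl⟩) (φ • x), smul_comm φ l x]
  exact h1 hy

theorem specialization (p : ℕ) (hφ : A.IsFrobeniusAt φ l)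
    (htf : ∀ y ∈ AddSubgroup.closure (relP (fun (σ : GQ) (x : J) => σ • x)
      (fun x => heckeGen ⟨l, hl⟩ • x) A φ l), (∃ n : ℕ, p ^ n • y = 0) → y = 0) :
    ∃ (J' : Type) (_ : AddCommGroup J') (_ : Module HeckeAlg J') (sp : J →+ J')
      (F : J' →+ J'), ModularCurve.IsSpecialization (K := ℚ) p J J' A l sp F ∧
        ModularCurve.SpecialFibreRelation J' l hl F := by
  refine ⟨J ⧸ (KS hl A φ : Submodule HeckeAlg J), inferInstance, inferInstance,
    (KS hl A φ).mkQ.toAddMonoidHom,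
    ((KS hl A φ).mapQ (KS hl A φ) (phiL φ) (KS_le hl hφ)).toAddMonoidHom, ?_, ?_⟩
  · refine ⟨fun T x => rfl, fun σ hσ x => ?_, fun σ hσ x => ?_, fun x hx h0 => ?_⟩
    · exact (Submodule.Quotient.eq _).mpr
        (AddSubgroup.subset_closure (Or.inl ⟨σ, hσ, x, rfl⟩))
    · refine (Submodule.Quotient.eq _).mpr ?_
      change σ • x - φ • x ∈ KS hl A φ
      have h1 : (φ⁻¹ * σ) • x - x ∈ KS hl A φ :=
        AddSubgroup.subset_closure (Or.inl ⟨_, frob_diff' hφ hσ, x, rfl⟩)
      have h2 := KS_le hl hφ h1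
      have h3 : phiL φ ((φ⁻¹ * σ) • x - x) = σ • x - φ • x := by
        change φ • ((φ⁻¹ * σ) • x - x) = σ • x - φ • x
        rw [smul_sub, ← mul_smul, mul_inv_cancel_left]
      rw [Submodule.mem_comap, h3] at h2
      exact h2
    · refine htf x ?_ hx
      exact (Submodule.Quotient.mk_eq_zero _).mp h0
  · intro y
    obtain ⟨x, rfl⟩ := Submodule.Quotient.mk_surjective _ y
    refine (Submodule.Quotient.mk_eq_zero _).mpr ?_
    exact AddSubgroup.subset_closure (Or.inr ⟨x, rfl⟩)

end Q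

/-- **The specialisation of `J₀(N)`**, from the absence of torsion in the relations. -/
theorem exists_specialization
    (hPP : ∀ (N l : ℕ) [NeZero N] [NeZero l] (hl : l.Prime) (hlN : ¬ l ∣ N)
      (A : ValuationSubring Qb), A.LiesOverPrime l → ∀ φ : GQ, A.IsFrobeniusAt φ l → ∀ m : ℕ,
        ¬ l ∣ m → PP A φ hl hlN m)
    (N p : ℕ) [NeZero N] (hcomm : ModularCurve.HeckeOperatorsCommuteBar N) :
    letI := ModularCurve.heckeModuleBar N
    ∀ (_ : SMulCommClass GQ HeckeAlg (ModularCurve.JZero N)),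
      ModularCurve.SpecializationExists (K := ℚ) (L := Qb) N p (ModularCurve.JZero N) := by
  letI := ModularCurve.heckeModuleBar N
  intro hsc l hl hlNp A hA
  haveI : NeZero l := ⟨hl.ne_zero⟩
  have hlN : ¬ l ∣ N := fun h => hlNp (Dvd.dvd.mul_right h p)
  have hlp : ¬ l ∣ p := fun h => hlNp (Dvd.dvd.mul_left h N)
  obtain ⟨φ, hφ⟩ := Fermat.Agent.GaloisBasics.exists_isFrobeniusAt hl A hA
  refine specialization hl p hφ ?_
  rintro y hy ⟨n, hn⟩
  have hlm : ¬ l ∣ p ^ n := fun h => hlp (hl.dvd_of_dvd_pow h)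
  have hE := Fermat.Agent.S24.modularFunctionFieldBar_eq N
  have hE' := Fermat.Agent.S24.modularFunctionFieldBar_eq (N * l)
  have hα := ModularCurve.coe_heckeAlphaBar (L := Qb) N l
  have hβ := ModularCurve.coe_heckeBetaBar (L := Qb) N l
  obtain ⟨hαi, hβi, hP, hfin, hFI, hN⟩ := inputs_of hl hlN hE hE'
    (ModularCurve.heckeAlphaBar Qb N l) (ModularCurve.heckeBetaBar Qb N l) hα hβ
  have hT : ∀ x : ModularCurve.JZero N, heckeGen ⟨l, hl⟩ • x =
      Pic0.correspondence (ModularCurve.heckeBetaBar Qb N l) (ModularCurve.heckeAlphaBar Qb N l)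
        hβi hαi hFI hfin hN x := by
    intro x
    rw [ModularCurve.heckeModuleBar_heckeGen_smul hcomm, ModularCurve.heckeOperatorBar_apply]
    change ModularCurve.heckeOperatorAlong Qb N l x = _
    rw [ModularCurve.heckeOperatorAlong_eq hαi hβi hFI hfin hN]
    rfl
  refine torsionfree (hαi := hαi) hl hlN (hPP N l hl hlN A hA φ hφ (p ^ n) hlm) hE hE'
    (ModularCurve.arithmeticGalois (ModularCurve.modularFunctionFieldFull N)) (fun σ x => rfl)
    (ModularCurve.heckeAlphaBar Qb N l) (ModularCurve.heckeBetaBar Qb N l) hα hβ hFI hfin hN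
    ?_ hn
  have hT' : (fun x : ModularCurve.JZero N => heckeGen ⟨l, hl⟩ • x) = fun x =>
      Pic0.correspondence (ModularCurve.heckeBetaBar Qb N l) (ModularCurve.heckeAlphaBar Qb N l)
        hβi hαi hFI hfin hN x := funext hT
  rw [hT'] at hy
  exact hy

end Fermat.Agent.ER
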