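import Mathlib
import Fermat.Agent.ER.Quot
import Fermat.Agent.ER.RedDef

/-!
# Assembly
-/

set_option autoImplicit false
set_option linter.unusedSectionVars false
set_option linter.style.haveILetI false
set_option synthInstance.maxHeartbeats 400000

noncomputable section

namespace Fermat.Agent.ER

open AlgebraicCurve Fermat.Agent.Flat Fermat.Agent.FunField Fermat.Agent.MZ Fermat.Agent.GC
open Fermat.Agent.LG Fermat.Agent.ModFun Fermat.Agent.WP Fermat.Agent.Lf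
open Fermat.Agent.ESCore (HauptFn haupt2 haupt3 ιC)
open IsLocalRing

/-- The field of algebraic numbers. -/
local notation "Qb" => AlgebraicClosure ℚ
/-- The absolute Galois group. -/
local notation "GQ" => (AlgebraicClosure ℚ ≃ₐ[ℚ] AlgebraicClosure ℚ)

/-- the input on reduction of places -/
def RedInput : Prop := ∀ {A : ValuationSubring Qb} {l M : ℕ} [NeZero M] [NeZero l] (hl : l.Prime)
  (hA : A.LiesOverPrime l) (hlM : ¬ l ∣ M) (_ : 2 ∣ M ∨ 3 ∣ M) {φ : GQ}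
  (_ : A.IsFrobeniusAt φ l),
  ∃ red : Place Qb (F0 Qb M) → Place (ResidueField A) (FbK A M),
    (∀ σ : GQ, σ ∈ A.inertiaSubgroupIn ℚ → ∀ v, red (galF0 M σ • v) = red v) ∧
    (∀ m : ℕ, ¬ l ∣ m → ∀ D : Divisor Qb (F0 Qb M), Divisor.IsPrincipal (m • D) →
      Finsupp.mapDomain red D = 0 → Divisor.IsPrincipal D) ∧
    (∀ (hα : (al M l).toRingHom.IsIntegral) (hβ : (be M l).toRingHom.IsIntegral)
      (S : Place Qb (F0 Qb M)),
      Finsupp.mapDomain red (Divisor.correspondence (be M l) (al M l) hβ hα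
        (Finsupp.single S 1)) = Finsupp.single (red (galF0 M φ • S)) (1 : ℤ) +
          (l : ℕ) • Finsupp.single (red (galF0 M φ⁻¹ • S)) (1 : ℤ))

theorem PP_level (hR : RedInput) {A : ValuationSubring Qb} {l M : ℕ} [NeZero M] [NeZero l]
    (hl : l.Prime) (hA : A.LiesOverPrime l) (hlM : ¬ l ∣ M) (h23 : 2 ∣ M ∨ 3 ∣ M) {φ : GQ}
    (hφ : A.IsFrobeniusAt φ l) {m : ℕ} (hm : ¬ l ∣ m) : PP A φ hl hlM m := by
  obtain ⟨red, h1, h2, h3⟩ := hR hl hA hlM h23 hφ
  exact PP_of_red h1 (h2 m hm) (h3 (hal hl hlM) (hbe hl hlM))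

theorem PP_all (hR : RedInput) (N l : ℕ) [NeZero N] [NeZero l] (hl : l.Prime) (hlN : ¬ l ∣ N)
    (A : ValuationSubring Qb) (hA : A.LiesOverPrime l) (φ : GQ) (hφ : A.IsFrobeniusAt φ l)
    (m : ℕ) (hm : ¬ l ∣ m) : PP A φ hl hlN m := by
  have hm0 : m ≠ 0 := by
    rintro rfl
    exact hm (dvd_zero l)
  by_cases h23 : 2 ∣ N ∨ 3 ∣ N
  · exact PP_level hR hl hA hlN h23 hφ hm
  push Not at h23
  obtain ⟨r, hr, hrl, hrN, h23'⟩ : ∃ r : ℕ, r.Prime ∧ r ≠ l ∧ ¬ r ∣ N ∧ (r = 2 ∨ r = 3) := by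
    by_cases h : l = 2
    · exact ⟨3, by norm_num, by omega, h23.2, Or.inr rfl⟩
    · exact ⟨2, by norm_num, fun h' => h h'.symm, h23.1, Or.inl rfl⟩
  haveI : NeZero r := ⟨hr.ne_zero⟩
  have hlM : ¬ l ∣ N * r := by
    intro h
    rcases hl.dvd_mul.mp h with h | h
    · exact hlN h
    · exact hrl ((Nat.prime_dvd_prime_iff_eq hl hr).mp h).symm
  refine PP_descend hl hlN hlM hr hrN hm0 (PP_level hR hl hA hlM ?_ hφ hm)
  rcases h23' with rfl | rfl
  · exact Or.inl (dvd_mul_left _ _)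
  · exact Or.inr (dvd_mul_left _ _)

end Fermat.Agent.ER
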