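import Mathlib
import Fermat.Agent.ER.Fin
import Fermat.Agent.ER.RedMain
import Fermat.Agent.ER.ESMain

/-!
# The specialisation exists
-/

set_option autoImplicit false
set_option linter.unusedSectionVars false
set_option linter.style.haveILetI false
set_option synthInstance.maxHeartbeats 400000

noncomputable section

namespace Fermat.Agent.ER

theorem redInput : RedInput := by
  intro A l M _ _ hl hA hlM h23 φ hφ
  rcases h23 with h | h
  · obtain ⟨red, hR, h1, h2⟩ := exists_red2 hl hA hlM h
    exact ⟨red, h1, h2, fun hα hβ S => es_point2 hl hA h hR hlM hφ hα hβ S⟩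
  · obtain ⟨red, hR, h1, h2⟩ := exists_red3 hl hA hlM h
    exact ⟨red, h1, h2, fun hα hβ S => es_point3 hl hA h hR hlM hφ hα hβ S⟩

end Fermat.Agent.ER
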